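import Fermat.Agent.RTM.Amb
import Fermat.Agent.Ribet.ExBMod
import Fermat.Agent.Ribet.Cmp
import Fermat.Agent.TWDeg.DegCurve

/-!
The fields `newst`, `exact`, `deg` of the supply.
-/

set_option autoImplicit false
set_option linter.unusedSectionVars false

noncomputable section

namespace Fermat.Agent.RTM

open IsLocalRing Fermat.Agent.DefRing Fermat.Agent.RTan Fermat.Agent.LocRing
open Fermat.Agent.TWP (Pl Pl_lies Qb)
open Fermat.Agent.TW Fermat.Agent.TWDeg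

variable {O : Type} [CommRing O] [IsDomain O] [IsDiscreteValuationRing O]
  [IsAdicComplete (maximalIdeal O) O] [Finite (ResidueField O)] [CharZero O]
  {rbar : GQ →* M2 (ResidueField O)} {sd : SliceData rbar} {p : ℕ} [hp : Fact p.Prime]
  {W : WeierstrassCurve ℤ} {χ : GQ → O} {m : ℕ} {G : Gal sd p W χ m} (A : Amb G)

theorem Ok.not_dvd {N l : ℕ} (h : Ok W p m (N * l)) (hl : l.Prime) : ¬ l ∣ N := by
  intro h1
  exact h.not_sq hl (by
    rw [pow_two]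
    exact mul_dvd_mul_right h1 l)

namespace Amb

include A in
/-- **[exact]** -/
theorem exact (l : Nat.Primes) (hlp : (l : ℕ) ≠ p) (hl2 : (l : ℕ) ≠ 2) (N : ℕ)
    (h' : Ok W p m (N * l)) (h2 : 2 ∣ N) (hres : ¬ W.IsResiduallyModularOfLevel p N) :
    RT8.ExactM (A.B (N * l) h') ((A.B (N * l) h').C.r (G.τ l) - 1) := by
  have := h'.neZero
  exact Ribet.exactM_of_cmp W A.hΔ rfl (h'.not_dvd l.2) A.hpm A.hp2 A.hpO h2 hl2 A.hm h'.dvd
    (A.hE m A.hm _ h'.sqf.ne_zero) hres A.hspan (G.tame l hlp) (A.R h') G.g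
    (Ribet.cmpHG h'.dvd A.hpO (A.hE m A.hm _ h'.sqf.ne_zero))

theorem ndvd_of {N : ℕ} (hN : N ∣ m) (n : ℕ) (i : Fin G.g) : ¬ (G.q n i : ℕ) ∣ N := fun h' =>
  G.avoid n i (h'.trans hN)

/-- the Taylor–Wiles datum for any divisor -/
abbrev tw₀ {N : ℕ} (hN : N ∣ m) (n : ℕ) : TWD (DP p n) :=
  twd p n G.g N A.hp2 (ne_zero_of_dvd_ne_zero A.hm hN) (G.q n) (dvdQ n) (ndvd_of hN n)

theorem tw₀_M {N : ℕ} (hN : N ∣ m) (n : ℕ) : (A.tw₀ hN n).M = N * G.Q n :=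
  twd_M p n G.g N A.hp2 _ (G.q n) (dvdQ n) (ndvd_of hN n) (G.tw n).inj

theorem mem_Q₀ {N : ℕ} (hN : N ∣ m) (n : ℕ) {q : ℕ} (hq : q ∈ (A.tw₀ hN n).Q) :
    ∃ i, (G.q n i : ℕ) = q := by
  obtain ⟨i, -, h⟩ := Finset.mem_image.mp hq
  exact ⟨i, h⟩

theorem hfr_of (n : ℕ) (i : Fin G.g) :
    ∃ B : ValuationSubring Qb, B.LiesOverPrime (G.q n i) ∧ ∃ τ : GQ,
      B.IsFrobeniusAt τ (G.q n i) ∧
      (rbar τ).trace ^ 2 ≠ (((G.q n i : ℕ) : ResidueField O) + 1) ^ 2 := by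
  have h1 := (G.tw n).tw i
  refine ⟨Pl (G.q n i), Pl_lies _, _, h1.frob, ?_⟩
  have h2 : ((G.q n i : ℕ) : ResidueField O) = 1 := by
    have h3 : p ∣ (G.q n i : ℕ) - 1 := (dvd_pow_self p (Nat.succ_ne_zero n)).trans h1.dvd
    obtain ⟨k, hk⟩ := h3
    have h4 : (G.q n i : ℕ) = p * k + 1 := by
      have := (G.q n i).2.one_lt
      omega
    have h5 : (p : ResidueField O) = 0 := G.rd.char
    rw [h4]
    push_cast
    rw [h5, zero_mul, zero_add]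
  rw [h2]
  have h3 := h1.reg
  intro h4
  apply h3
  rw [h4]
  norm_num

variable (E : A.Ex)

/-- **[newst]** -/
theorem newst (l : Nat.Primes) (hlp : (l : ℕ) ≠ p) (N : ℕ) (h' : Ok W p m (N * l))
    (h2 : 2 ∣ N ∨ 5 ≤ p) (hres : ¬ W.IsResiduallyModularOfLevel p N) (n : ℕ) :
    ((A.L E n (N * l) h').C.r (G.φ l)).trace ^ 2 =
      (((l : ℕ) : (A.L E n (N * l) h').C.T) + 1) ^ 2 := by
  have hN : N ∣ m := (dvd_mul_right N l).trans h'.dvd
  have hlm : (l : ℕ) ∣ m := (dvd_mul_left (l : ℕ) N).trans h'.dvd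
  have hlQ : (l : ℕ) ∉ (A.tw₀ hN n).Q := fun h => by
    obtain ⟨i, hi⟩ := A.mem_Q₀ hN n h
    exact G.avoid n i (by rw [hi]; exact hlm)
  have hM : (A.tw₀ hN n).M ∣ m * G.Q n := by
    rw [A.tw₀_M]
    exact mul_dvd_mul_right hN _
  have hT := G.tame l hlp
  exact RT8X.trace_sq_of_not_res W A.hΔ A.hp2 A.hirr A.hpO sd A.hspan G.rd.cont (A.m'_ne n)
    (dvd_mul_right m (G.Q n)) A.hpm (A.tr dvd_rfl) (A.tw₀ hN n) hM hN h2
    (fun q hq => by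
      obtain ⟨i, rfl⟩ := A.mem_Q₀ hN n hq
      exact G.avoid n i)
    (fun q hq => by
      obtain ⟨i, rfl⟩ := A.mem_Q₀ hN n hq
      exact hfr_of n i)
    (isPGroup_delta p n G.g N A.hp2 _ (G.q n) (dvdQ n) (ndvd_of hN n)) l.2 hlQ (A.hM h' n)
    (h'.not_dvd l.2) hlp (A.R' h' n) hres (Pl_lies l) hT.frob

/-- **[deg]** -/
theorem deg (l : Nat.Primes) (hlp : (l : ℕ) ≠ p) (N : ℕ) (h : Ok W p m N)
    (h' : Ok W p m (N * l)) (n : ℕ) :
    Nonempty (RT8.DegPT (A.L E n (N * l) h') (A.L E n N h) (RT8.FrobsOut (m * G.Q n)) l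
      (G.φ l)) := by
  have hlm : (l : ℕ) ∣ m := (dvd_mul_left (l : ℕ) N).trans h'.dvd
  have hlQ : (l : ℕ) ∉ (A.tw h n).Q := fun h1 => by
    obtain ⟨i, hi⟩ := A.mem_Q h n h1
    exact G.avoid n i (by rw [hi]; exact hlm)
  have hT := G.tame l hlp
  have := h.neZero
  have := h'.neZero
  exact degPT_curve W A.hΔ A.hp2 A.hirr A.hpO A.hspan l.2 hlQ (h'.not_dvd l.2)
    (fun a ha => C_mem_PP W _ O ha) (fun s => X_sub_C_mem_PP W _ O s) (A.X E h n) (A.X E h' n)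
    A.hES A.hloc A.h30 (A.hpm.trans (dvd_mul_right m (G.Q n))) hlp (Pl_lies l) hT.frob

end Amb

end Fermat.Agent.RTM
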