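import Fermat.Agent.RTM.AmbLG
import Fermat.Agent.LG.Assemble

/-!
# The local-global compatibility at the Taylor-Wiles primes of the patching systems
-/

set_option autoImplicit false
set_option linter.unusedSectionVars false

noncomputable section

namespace Fermat.Agent.RTM

open IsLocalRing Fermat.Agent.DefRing Fermat.Agent.RTan Fermat.Agent.LocRing
open Fermat.Agent.TWP (Pl Pl_lies Qb)
open Fermat.Agent.TW Fermat.Agent.TWDeg

variable {O : Type} [CommRing O] [IsDomain O] [IsDiscreteValuationRing O]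
  [IsAdicComplete (maximalIdeal O) O] [Finite (ResidueField O)] [CharZero O]
  {rbar : GQ →* M2 (ResidueField O)} {sd : SliceData rbar} {p : ℕ} [hp : Fact p.Prime]
  {W : WeierstrassCurve ℤ} {χ : GQ → O} {m : ℕ} {G : Gal sd p W χ m} (A : Amb G)

include A in
/-- local-global compatibility, even levels -/
theorem Amb.lg₀ {N : ℕ} (hN : N ∣ m) (h2 : 2 ∣ N) (n : ℕ)
    (hM : (A.tw₀ hN n).M ∣ m * G.Q n) :
    LGHyp (A.tw₀ hN n) hM rbar (AlgebraicClosure (FractionRing O)) := by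
  refine Fermat.Agent.LG.lgHyp (A.tw₀ hN n) (A.m'_ne n) hM A.hp2
    (A.hpm.trans (dvd_mul_right _ _)) A.hpO A.hspan G.rd.cont h2 (s₀ := n + 1) (pow_eq_one p n)
    (fun M hM0 => Fermat.Agent.LG.exists_l0_prime (A.resId (dvd_mul_right m (G.Q n)))
      (A.hE _ (A.m'_ne n) M hM0)) (fun q hq => ?_) (fun q hq => ?_) _
  · obtain ⟨i, rfl⟩ := A.mem_Q₀ hN n hq
    have h1 := (G.tw n).tw i
    obtain ⟨k, hk⟩ : p ∣ (G.q n i : ℕ) - 1 := (dvd_pow_self p (Nat.succ_ne_zero n)).trans h1.dvd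
    refine ⟨k, ?_⟩
    have := (G.q n i).2.one_lt
    omega
  · obtain ⟨i, rfl⟩ := A.mem_Q₀ hN n hq
    have h1 := (G.tw n).tw i
    refine ⟨Pl (G.q n i), _, Pl_lies _, h1.frob, ?_⟩
    have h2 : ((G.q n i : ℕ) : ResidueField O) = 1 := by
      obtain ⟨k, hk⟩ : p ∣ (G.q n i : ℕ) - 1 :=
        (dvd_pow_self p (Nat.succ_ne_zero n)).trans h1.dvd
      have h4 : (G.q n i : ℕ) = p * k + 1 := by
        have := (G.q n i).2.one_lt
        omega
      have h5 : (p : ResidueField O) = 0 := G.rd.char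
      rw [h4]
      push_cast
      rw [h5, zero_mul, zero_add]
    rw [h2]
    intro h4
    apply h1.reg
    rw [h4]
    norm_num

include A in
/-- **Local-global compatibility** -/
theorem Amb.lg (h2m : 2 ∣ m) {N : ℕ} (h : Ok W p m N) (n : ℕ) :
    LGHyp (A.tw h n) (A.hM h n) rbar (AlgebraicClosure (FractionRing O)) :=
  A.lg_of h2m (fun hN h2 n hM => A.lg₀ hN h2 n hM) h n

include A in
theorem Amb.ex (h2m : 2 ∣ m) : A.Ex := ⟨fun h n => A.lg h2m h n⟩

end Fermat.Agent.RTM
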