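import Fermat.Agent.RTM.GalX

/-!
Modularity lifting for semistable curves.
-/

set_option autoImplicit false
set_option linter.unusedSectionVars false

noncomputable section

namespace Fermat.Agent.RTM

open WeierstrassCurve IsLocalRing Fermat.Agent.DefRing Fermat.Agent.RTan Fermat.Agent.LocRing

/-- The facts on the modular side which are proved separately. -/
def AmbOK (p : ℕ) [Fact p.Prime] : Prop :=
  ∀ (W : WeierstrassCurve ℤ), (2 : ℤ) ∣ W.Δ →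
    ∀ (rbar : GQ →* M2 (ResidueField (Wp p))) (χ : GQ → Wp p) (m : ℕ)
    (sd : SliceData rbar) (G : Gal sd p W χ m) (A : Amb G), ∃ E : A.Ex, A.AtP E

/-- **Modularity lifting for a semistable curve** -/
theorem lifting_ss {p : ℕ} [hp : Fact p.Prime] (H : AmbOK p) {W : WeierstrassCurve ℤ} (hp2 : p ≠ 2)
    (hΔ : W.Δ ≠ 0) (hss : W.IsSemistableModel) (h2 : (2 : ℤ) ∣ W.Δ)
    (hirr : W.ModRepIsIrreducible p) (hcase : RTE.Case W p)
    (h3 : 5 ≤ p ∨ ¬ p ∣ padicValInt 2 W.Δ) {N₀ : ℕ} (hN₀ : Squarefree N₀) (h2N₀ : 2 ∣ N₀)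
    (hpN₀ : p ∣ N₀ → (p : ℤ) ∣ W.Δ) (hres : W.IsResiduallyModularOfLevel p N₀) :
    ∃ N : ℕ, (Squarefree N ∧ 2 ∣ N) ∧ (∀ ℓ : ℕ, ℓ.Prime → (ℓ : ℤ) ∣ W.Δ → ℓ ∣ N) ∧
      (∀ q : ℕ, q.Prime → q ∣ N → (q : ℤ) ∣ W.Δ) ∧ W.IsModularModelOfLevel N := by
  have hE : (RTE.EW W).IsElliptic := RTE.isElliptic_EW hΔ
  exact liftingW (χ := RTE.chiO p (algebraMap ℤ_[p] (Wp p)))
    (rbar := RTE.rbE (RTE.EW W) p (algebraMap ℤ_[p] (Wp p))) hp2 (p_mem p)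
    (RTE.cycChar_chiO p _) hΔ hirr h3 h2
    (fun m hm hpm hΔm => exists_gal hp2 (p_mem p) hΔ hss h2 hirr hcase _ (algebraMap_injective p)
      (resEquiv p).symm.toRingHom m hm hpm hΔm)
    (fun m sd G A => H W h2 _ _ m sd G A) hN₀ h2N₀ hpN₀ hres

end Fermat.Agent.RTM
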