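import Fermat.Agent.RTM.AmbOrd
import Fermat.Agent.RTM.LGWire
import Fermat.Agent.RTM.LiftSS
import Fermat.Agent.PInX.AmbZ
import Fermat.Agent.PInX.HUPf

/-!
The facts at `p` for the modules of the patching systems.
-/

set_option autoImplicit false
set_option linter.unusedSectionVars false

noncomputable section

namespace Fermat.Agent.RTM

open IsLocalRing Fermat.Agent.DefRing Fermat.Agent.RTan Fermat.Agent.LocRing
open Fermat.Agent.TWP (Pl Pl_lies Qb)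
open Fermat.Agent.TW Fermat.Agent.TWDeg

variable {O : Type} [CommRing O] [IsDomain O] [IsDiscreteValuationRing O]
  [IsAdicComplete (maximalIdeal O) O] [Finite (ResidueField O)] [CharZero O]
  {rbar : GQ →* M2 (ResidueField O)} {sd : SliceData rbar} {p : ℕ} [hp : Fact p.Prime]
  {W : WeierstrassCurve ℤ} {χ : GQ → O} {m : ℕ} {G : Gal sd p W χ m} (A : Amb G)

namespace Amb

theorem tw₀_dd {N : ℕ} (hN : N ∣ m) (n : ℕ) : (A.tw₀ hN n).dd = G.Q n :=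
  prod_Q p n G.g N A.hp2 _ (G.q n) (dvdQ n) (ndvd_of hN n) (G.tw n).inj

theorem lev_eq {N : ℕ} (hN : N ∣ m) (n : ℕ) :
    (A.tw₀ hN n).N * (A.tw₀ hN n).dd * (A.tw₀ hN n).dd = N * G.Q n ^ 2 := by
  rw [A.tw₀_dd hN n, mul_assoc, ← pow_two]
  rfl

theorem lev_ne {N : ℕ} (hN : N ∣ m) (n : ℕ) :
    NeZero ((A.tw₀ hN n).N * (A.tw₀ hN n).dd * (A.tw₀ hN n).dd) := by
  rw [A.lev_eq hN n]
  exact ⟨mul_ne_zero (fun h => A.hm (by rw [h] at hN; exact zero_dvd_iff.mp hN))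
    (pow_ne_zero 2 (Amb.Q_ne n))⟩

theorem lev_dvd {N : ℕ} (hN : N ∣ m) (n : ℕ) (q : ℕ) (hq : q.Prime)
    (h : q ∣ (A.tw₀ hN n).N * (A.tw₀ hN n).dd * (A.tw₀ hN n).dd) : q ∣ m * G.Q n := by
  rw [A.lev_eq hN n] at h
  exact dvd_k_of hN q hq h

theorem lev_p {N : ℕ} (hN : N ∣ m) (hpN : ¬ p ∣ N) (n : ℕ) :
    ¬ p ∣ (A.tw₀ hN n).N * (A.tw₀ hN n).dd * (A.tw₀ hN n).dd := by
  rw [A.lev_eq hN n]
  exact A.p_ndvd_k hpN n

/-- [U1] -/
theorem hu1 (P : GalP G) {N : ℕ} (hN : N ∣ m) (h' : Ok W p m (N * p)) (n : ℕ) :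
    PInX.HU1 p (m * G.Q n) ((A.tw₀ hN n).N * (A.tw₀ hN n).dd * (A.tw₀ hN n).dd)
      (EE O) (A.R' h' n).φ (P.b.z (A.R' h' n).C.r P.φ) P.z₀ := by
  have h1 : NeZero ((A.tw h' n).N * (A.tw h' n).dd * (A.tw h' n).dd) := A.lev_ne h'.dvd n
  have h2 := A.lev_ne hN n
  exact PInX.hu1_hrep (A.R' h' n) A.hp2 A.hpO (A.m'_ne n) (A.hpm.trans (dvd_mul_right _ _))
    (A.lev_dvd h'.dvd n) A.hspan P.b P.pair.frob P.sq (PInX.z_res P.b G.pt.red P.zpt)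
    (A.lev_p hN (h'.not_dvd hp.out) n) (A.lev_dvd hN n)

/-- [U2] -/
theorem hu2 (P : GalP G) {N : ℕ} (h : Ok W p m N) (hpN : ¬ p ∣ N) (n : ℕ) :
    PInX.HU2 p (m * G.Q n) ((A.tw h n).N * (A.tw h n).dd * (A.tw h n).dd)
      (EE O) (A.R' h n).φ (P.b.z (A.R' h n).C.r P.φ) := by
  have h1 : NeZero ((A.tw h n).N * (A.tw h n).dd * (A.tw h n).dd) := A.lev_ne h.dvd n
  exact PInX.hu2_hrep (A.R' h n) A.hp2 A.hpO (A.m'_ne n) (A.hpm.trans (dvd_mul_right _ _))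
    (A.lev_dvd h.dvd n) A.hspan P.b A.hχ (ordAt_rbar_of P) P.pair.frob
    (A.lev_p h.dvd hpN n) (A.lev_dvd h.dvd n)

/-- **The facts at `p`** -/
theorem atP (E : A.Ex) : A.AtP E where
  ord P n N h := A.ord E OrdNew.u1 OrdOld.u2 P n N h
  newp P _ N h' hres n x := PInX.newp A E P N h' hres n ((dvd_mul_right N p).trans h'.dvd)
    (A.hu1 P _ h' n) x
  degp P _ N h h' n := ⟨A.tau_one E OrdNew.u1 OrdOld.u2 P n N h (h'.not_dvd hp.out),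
    PInX.degZ A E P N h h' n (A.hu2 P h (h'.not_dvd hp.out) n) (A.hu1 P h.dvd h' n)⟩

end Amb

/-- **The modular side** -/
theorem ambOK (p : ℕ) [Fact p.Prime] : AmbOK p := fun _ h2 _ _ _ _ _ A =>
  ⟨A.ex (A.hΔm 2 Nat.prime_two h2), A.atP _⟩

end Fermat.Agent.RTM
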