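import Fermat.Agent.RTM.LowerA

/-!
Level lowering for semistable curves.
-/

set_option autoImplicit false
set_option linter.unusedSectionVars false

noncomputable section

namespace Fermat.Agent.RTM

open WeierstrassCurve IsLocalRing Fermat.Agent.DefRing Fermat.Agent.RTan Fermat.Agent.LocRing
open Fermat.Agent.TWP (Pl Pl_lies)

/-- **Level lowering for a semistable curve** at a prime `l ≠ p` where the residual representation
is unramified. -/
theorem Amb.lowering_ss {p : ℕ} [hp : Fact p.Prime] {W : WeierstrassCurve ℤ} (hp2 : p ≠ 2)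
    (hΔ : W.Δ ≠ 0) (hss : W.IsSemistableModel) (h2 : (2 : ℤ) ∣ W.Δ)
    (hirr : W.ModRepIsIrreducible p) (hcase : RTE.Case W p) [hE : (RTE.EW W).IsElliptic]
    {N : ℕ} {l : Nat.Primes}
    (hlp : (l : ℕ) ≠ p) (hl2 : (l : ℕ) ≠ 2) (hNl : Squarefree (N * l)) (h2N : 2 ∣ N)
    (hpN : ¬ p ∣ N * l) (hunr : ∀ σ ∈ (Pl l).inertiaSubgroupIn ℚ, RTE.modE (RTE.EW W) p σ = 1)
    (hres : W.IsResiduallyModularOfLevel p (N * l)) : W.IsResiduallyModularOfLevel p N := by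
  have hΔ' : W.Δ.natAbs ≠ 0 := Int.natAbs_ne_zero.mpr hΔ
  set m : ℕ := p * W.Δ.natAbs * (N * l) with hm_def
  have hm : m ≠ 0 := mul_ne_zero (mul_ne_zero hp.out.ne_zero hΔ') hNl.ne_zero
  have hpm : p ∣ m := (dvd_mul_right _ _).trans (dvd_mul_right _ _)
  have hΔm : ∀ q : ℕ, q.Prime → (q : ℤ) ∣ W.Δ → q ∣ m := fun q _ h =>
    ((Int.natCast_dvd.mp h).mul_left p).mul_right _
  have h2m : 2 ∣ m := hΔm 2 Nat.prime_two (by exact_mod_cast h2)
  obtain ⟨sd, G, -, -⟩ := exists_gal hp2 (p_mem p) hΔ hss h2 hirr hcase _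
    (algebraMap_injective p) (resEquiv p).symm.toRingHom m hm hpm hΔm
  have A : Amb G := ⟨hp2, hm, hpm, p_mem p, hΔ, hΔm, hirr,
    RTE.cycChar_chiO p (algebraMap ℤ_[p] (Wp p))⟩
  refine A.lowering (A.ex h2m) hlp hl2 ⟨dvd_mul_left _ _, hNl, Or.inl (h2N.mul_right _), hres⟩ hpN
    h2N ?_
  obtain ⟨g, hg⟩ := RTE.rbE_eq_modE (RTE.EW W) p (p_mem p) (algebraMap ℤ_[p] (Wp p)) (G.τ l)
  rw [hg, hunr _ (G.tame l hlp).mem, map_one]

end Fermat.Agent.RTM
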