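import Fermat.Agent.RTM.NonEis
import Fermat.Agent.TW.Base2

/-!
`RES` for the modules of level `Γ₀(n)`, and monotonicity.
-/

set_option autoImplicit false
set_option linter.unusedSectionVars false

noncomputable section

open scoped TensorProduct MatrixGroups
open IsLocalRing CongruenceSubgroup CuspForm ModularCurve.Period

namespace Fermat.Agent.RTM

open Fermat.Agent.TW Fermat.Agent.HeckeHom Fermat.Agent.TWDeg Fermat.Agent.DefRing

section Res

variable (W₀ : WeierstrassCurve ℤ) {m : ℕ} (O : Type) [CommRing O] [IsDomain O] [CharZero O]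
  [IsDiscreteValuationRing O] (hm : m ≠ 0) {p : ℕ} (hp : p.Prime) (hpm : p ∣ m)
  (hpO : (p : O) ∈ maximalIdeal O) (hΔ : W₀.Δ ≠ 0)
  (hΔm : ∀ q : ℕ, q.Prime → (q : ℤ) ∣ W₀.Δ → q ∣ m)

include hm hp hpm hpO hΔm in
theorem nz_of_res' {D : Type} [CommGroup D] {W : TWD D} (hM : W.M ∣ m) {k : ℕ}
    (hk : k = W.N * W.dd) (hkm : k ∣ m) (hres : W₀.IsResiduallyModularOfLevel p k) :
    Nontrivial (Loc (PP W₀ m O) (HG m k hkm O)) := by
  obtain ⟨e⟩ := exists_baseTW hM (O := O) hk hkm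
  subst hk
  have hne : NeZero (W.N * W.dd) := ⟨fun h => hm (by
    rw [h] at hkm; exact Nat.eq_zero_of_zero_dvd hkm)⟩
  have h1 := nontrivial_of_residual W₀ W.shap_bor hM (fun q _ h => h.trans hkm) O hp hpm hpO hΔm
    hres
  exact (locCongr (PP W₀ m O) e).toEquiv.nontrivial_congr.mp h1

include hm hp hpO hΔ in
theorem res_of_nz' {D : Type} [CommGroup D] [Fintype D] {W : TWD D} (hM : W.M ∣ m) {k : ℕ}
    (hk : k = W.N * W.dd) (hkm : k ∣ m) (hE : NonEis W.M (PP W₀ m O))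
    (hnt : Nontrivial (Loc (PP W₀ m O) (HG m k hkm O))) :
    W₀.IsResiduallyModularOfLevel p k := by
  obtain ⟨e⟩ := exists_baseTW hM (O := O) hk hkm
  subst hk
  have hne : NeZero (W.N * W.dd) := ⟨fun h => hm (by
    rw [h] at hkm; exact Nat.eq_zero_of_zero_dvd hkm)⟩
  exact residual_of_nontrivial W₀ W.shap_bor hM (fun q _ h => h.trans hkm) O hm hp hpO hΔ hE
    ((locCongr (PP W₀ m O) e).toEquiv.nontrivial_congr.mpr hnt)

variable {n : ℕ} (hn : n ∣ m)

include hm hp hpm hpO hΔm in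
/-- **[RES]** at level `Γ₀(n)`. -/
theorem nz_of_res (hres : W₀.IsResiduallyModularOfLevel p n) :
    Nontrivial (Loc (PP W₀ m O) (HG m n hn O)) := by
  have hn0 : n ≠ 0 := fun h => hm (by rw [h] at hn; exact Nat.eq_zero_of_zero_dvd hn)
  exact nz_of_res' W₀ O hm hp hpm hpO hΔm (W0_dvd hn0 hn) (W0_lev n hn0) hn hres

include hm hp hpO hΔ in
/-- **[RES]**, converse -/
theorem res_of_nz (hE : ∀ M : ℕ, M ≠ 0 → NonEis M (PP W₀ m O))
    (hnt : Nontrivial (Loc (PP W₀ m O) (HG m n hn O))) :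
    W₀.IsResiduallyModularOfLevel p n := by
  have hn0 : n ≠ 0 := fun h => hm (by rw [h] at hn; exact Nat.eq_zero_of_zero_dvd hn)
  refine res_of_nz' W₀ O hm hp hpO hΔ (W0_dvd hn0 hn) (W0_lev n hn0) hn (hE _ ?_) hnt
  rw [W0_M]
  exact hn0

end Res

section Mono

variable {m n q : ℕ} (hq : q.Prime) (h : q.Coprime n) (hn : n ∣ m) (hnq : n * q ∣ m)
  {O : Type} [CommRing O] [IsDomain O] [CharZero O] (𝔪 : Ideal (TPoly m O)) [𝔪.IsPrime]

include h hq in
/-- **Monotonicity**: the localised module at level `nq` is nonzero if it is so at level `n`. -/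
theorem nz_mul (hnt : Nontrivial (Loc 𝔪 (HG m n hn O))) :
    Nontrivial (Loc 𝔪 (HG m (n * q) hnq O)) := by
  let D : DegData (TPoly m O) (Loc 𝔪 (HG m n hn O)) (Loc 𝔪 (HG m (n * q) hnq O)) :=
    (degData (triv 1 O O) hq h (Nat.coprime_one_right q) hn hnq (one_dvd m) rfl).loc 𝔪
  obtain ⟨x, hx⟩ := exists_ne (0 : Loc 𝔪 (HG m n hn O))
  refine ⟨⟨D.I x, 0, fun h0 => hx ?_⟩⟩
  have h1 := D.JI x
  rw [h0, map_zero] at h1
  have h2 : ((D.q + 1 : ℕ) : O) • x = 0 := by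
    rw [Nat.cast_smul_eq_nsmul]
    exact h1.symm
  refine Loc.smul_eq_zero' (HG.smul_eq_zero hn) _ x ?_ h2
  exact Nat.cast_ne_zero.mpr (Nat.succ_ne_zero _)

end Mono

end Fermat.Agent.RTM
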