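import Fermat.Agent.RTM.Core
import Fermat.Agent.NewPoint.OfChar
import Fermat.Agent.PIC.Final
import Fermat.Prelude.Def_FLTPrelim_ModularRep

/-!
`MOD`: a point of the Hecke algebra with the traces of `W` gives modularity of `W`.
`RES`: residual modularity and characters of the Hecke algebra.
-/

set_option autoImplicit false

set_option maxHeartbeats 400000
noncomputable section

open scoped TensorProduct
open Polynomial IsLocalRing CongruenceSubgroup ModularFormClass CuspForm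

namespace Fermat.Agent.RTM

open Fermat.Agent.QuadRep Fermat.Agent.HGModule Fermat.Agent.HeckeGal Fermat.Agent.HGAssembly

local notation "G" => (AlgebraicClosure ℚ ≃ₐ[ℚ] AlgebraicClosure ℚ)

section Core

variable {O : Type} [CommRing O] [IsLocalRing O] [IsAdicComplete (maximalIdeal O) O]

theorem padicHom_mem {p : ℕ} [Fact p.Prime] (hp : (p : O) ∈ maximalIdeal O) (n : ℕ) {x : ℤ_[p]}
    (hx : x ∈ maximalIdeal ℤ_[p] ^ n) : padicHom p O hp x ∈ maximalIdeal O ^ n := by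
  rw [PadicInt.maximalIdeal_eq_span_p, Ideal.span_singleton_pow, Ideal.mem_span_singleton] at hx
  obtain ⟨y, rfl⟩ := hx
  rw [map_mul, map_pow, map_natCast]
  exact Ideal.mul_mem_right _ _ (Ideal.pow_mem_pow hp n)

theorem contF_padic {p : ℕ} [Fact p.Prime] (hp : (p : O) ∈ maximalIdeal O) {t : G → ℤ_[p]}
    (ht : ContF t) : ContF (fun σ => padicHom p O hp (t σ)) := by
  intro n
  obtain ⟨L, hL, h⟩ := ht n
  refine ⟨L, hL, fun σ τ hστ => ?_⟩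
  rw [← map_sub]
  exact padicHom_mem hp n (h σ τ hστ)

end Core

section Core2

variable {p : ℕ} [Fact p.Prime] {N : ℕ} [NeZero N] {S : Set ℕ}
  (O : Type) [CommRing O] [IsDomain O] [IsDiscreteValuationRing O]
  [IsAdicComplete (maximalIdeal O) O] [CharZero O] (W : WeierstrassCurve ℤ) (hΔ : W.Δ ≠ 0)

include hΔ in
theorem core (hS : ∀ q : ℕ, q.Prime → q ∣ N → q ∈ S) (hpS : p ∈ S) (hSf : S.Finite)
    (hp : (p : O) ∈ maximalIdeal O) (χ : CuspForm.heckeAlgebra N 2 S →+* O) (n : ℕ) (T : Finset ℕ)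
    (h : ∀ (ℓ : ℕ) (hℓ : ℓ.Prime) (hℓN : ¬ ℓ ∣ N) (hℓS : ℓ ∉ S), ℓ ∉ T →
      χ (CuspForm.heckeAlgebra.T hℓ hℓN hℓS) - ((W.apOfModel ℓ : ℤ) : O) ∈ maximalIdeal O ^ n)
    (ℓ : ℕ) (hℓ : ℓ.Prime) (hℓN : ¬ ℓ ∣ N) (hℓS : ℓ ∉ S) (hg : W.IsGoodPrimeFor ℓ) :
    χ (CuspForm.heckeAlgebra.T hℓ hℓN hℓS) - ((W.apOfModel ℓ : ℤ) : O) ∈ maximalIdeal O ^ n := by
  classical
  let E : WeierstrassCurve ℚ := W.map (Int.castRingHom ℚ)
  have hE : E.IsElliptic := by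
    constructor
    have h1 : E.Δ = ((W.Δ : ℤ) : ℚ) := by
      rw [WeierstrassCurve.map_Δ]; rfl
    rw [h1, isUnit_iff_ne_zero]
    exact_mod_cast hΔ
  have hWE : W.IsIntegralModelOf E := ⟨1, one_smul _ _⟩
  obtain ⟨t₁, h1, h1'⟩ := exists_trF O hS hpS hSf hp χ
  obtain ⟨t₂, h2, h2'⟩ := exists_trE E p hWE hΔ
  obtain ⟨A, hA⟩ := Fermat.Agent.Frob.exists_liesOverPrime (AlgebraicClosure ℚ) hℓ
  obtain ⟨σ, hσ⟩ := Fermat.Agent.Frob.exists_isFrobeniusAt hℓ hA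
  have key := congr_of_ae h1 (contF_padic hp h2) n (T ∪ (hSf.toFinset ∪ W.Δ.natAbs.primeFactors))
    (by
      intro q hq hqT A hA τ hτ
      simp only [Finset.mem_union, hSf.mem_toFinset, not_or] at hqT
      obtain ⟨hqT, hqS, hqΔ⟩ := hqT
      have hqN : ¬ q ∣ N := fun h => hqS (hS q hq h)
      have hqp : q ≠ p := fun e => hqS (e ▸ hpS)
      have hgq : W.IsGoodPrimeFor q := by
        intro h
        refine hqΔ (Nat.mem_primeFactors.mpr ⟨hq, Int.natCast_dvd.mp h, ?_⟩)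
        exact Int.natAbs_ne_zero.mpr hΔ
      rw [h1' q hq hqN hqS A hA τ hτ, h2' q hq hqp hgq A hA τ hτ, map_intCast]
      exact h q hq hqN hqS hqT) σ
  have hℓp : ℓ ≠ p := fun e => hℓS (e ▸ hpS)
  rw [h1' ℓ hℓ hℓN hℓS A hA σ hσ, h2' ℓ hℓ hℓp hg A hA σ hσ, map_intCast] at key
  exact key

end Core2

/-- finite set of bad primes -/
theorem notMem_primeFactors {N p ℓ : ℕ} (hN : N ≠ 0) (hp : p.Prime) (hℓ : ℓ.Prime)
    (hℓN : ¬ ℓ ∣ N) (hℓp : ℓ ≠ p) : ℓ ∉ (↑(N * p).primeFactors : Set ℕ) := by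
  intro h
  have h1 := (Nat.mem_primeFactors.mp (Finset.mem_coe.mp h)).2.1
  rcases (Nat.Prime.dvd_mul hℓ).mp h1 with h2 | h2
  · exact hℓN h2
  · exact hℓp ((Nat.prime_dvd_prime_iff_eq hℓ hp).mp h2)

section Form

variable {N : ℕ} [NeZero N] {f : CuspForm (Gamma0 N) 2} (hf : f.IsNormalizedEigenform)
  (W : WeierstrassCurve ℤ) (hΔ : W.Δ ≠ 0)

include hf hΔ

/-- eigenform with the traces of `W` at almost all primes -/
theorem qCoeff_eq_of_ae (T : Finset ℕ)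
    (h : ∀ ℓ : ℕ, ℓ.Prime → ¬ ℓ ∣ N → ℓ ∉ T → qCoeff f ℓ = ((W.apOfModel ℓ : ℤ) : ℂ))
    {ℓ : ℕ} (hℓ : ℓ.Prime) (hℓN : ¬ ℓ ∣ N) (hg : W.IsGoodPrimeFor ℓ) :
    qCoeff f ℓ = ((W.apOfModel ℓ : ℤ) : ℂ) := by
  classical
  obtain ⟨p, hp, hpℓ⟩ : ∃ p : ℕ, p.Prime ∧ ℓ ≠ p := by
    by_cases h2 : ℓ = 2
    · exact ⟨3, Nat.prime_three, by omega⟩
    · exact ⟨2, Nat.prime_two, h2⟩
  have hpf : Fact p.Prime := ⟨hp⟩
  have hN0 : N ≠ 0 := NeZero.ne N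
  have hNp : N * p ≠ 0 := mul_ne_zero hN0 hp.ne_zero
  let S : Finset ℕ := (N * p).primeFactors
  have hpS : p ∈ (↑S : Set ℕ) := Nat.mem_primeFactors.mpr ⟨hp, dvd_mul_left p N, hNp⟩
  have hNS : ∀ q : ℕ, q.Prime → q ∣ N → q ∈ (↑S : Set ℕ) := fun q hq hqN =>
    Nat.mem_primeFactors.mpr ⟨hq, hqN.mul_right p, hNp⟩
  have hfin := Period.finite_heckeAlgebra N 2 (↑S : Set ℕ)
  let lam : heckeAlgebra N 2 (↑S : Set ℕ) →ₐ[ℤ] ℂ := (eigenChar hf hNS).toIntAlgHom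
  have hlam : ∀ t, lam t = eigenChar hf hNS t := fun _ => rfl
  let R := lam.range
  have hR : Module.Finite ℤ R :=
    Module.Finite.of_surjective lam.rangeRestrict.toLinearMap lam.rangeRestrict_surjective
  obtain ⟨O, i1, i2, i3, i4, i5, i6, hpO, χ, hχ⟩ := NewPoint.exists_point p R
  let χ₁ : heckeAlgebra N 2 (↑S : Set ℕ) →+* O := χ.comp lam.rangeRestrict.toRingHom
  have e1 : ∀ s, χ₁ s = χ (lam.rangeRestrict s) := fun s => rfl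
  have hiff : ∀ (s : heckeAlgebra N 2 (↑S : Set ℕ)) (a : ℤ), χ₁ s = (a : O) ↔ lam s = (a : ℂ) := by
    intro s a
    rw [e1, ← map_intCast χ, hχ.eq_iff, Subtype.ext_iff]
    rfl
  have hℓS : ℓ ∉ (↑S : Set ℕ) := notMem_primeFactors hN0 hp hℓ hℓN hpℓ
  have key : χ₁ (heckeAlgebra.T hℓ hℓN hℓS) = ((W.apOfModel ℓ : ℤ) : O) := by
    refine eq_of_forall_sub_mem_pow fun n => ?_
    refine core O W hΔ hNS hpS S.finite_toSet hpO χ₁ n T (fun q hq hqN hqS hqT => ?_) ℓ hℓ hℓN hℓS hg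
    have h1 : χ₁ (heckeAlgebra.T hq hqN hqS) = ((W.apOfModel q : ℤ) : O) := by
      rw [hiff, hlam, eigenChar_T]
      exact h q hq hqN hqT
    rw [h1, sub_self]
    exact Ideal.zero_mem _
  rwa [hiff, hlam, eigenChar_T] at key

/-- eigenform congruent to `W` at almost all primes -/
theorem congr_of_ae_form {p : ℕ} (hp : p.Prime) (𝔪 : Ideal (integralClosure ℤ ℂ)) [h𝔪 : 𝔪.IsMaximal]
    (hp𝔪 : (p : integralClosure ℤ ℂ) ∈ 𝔪) (T : Finset ℕ)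
    (h : ∀ ℓ : ℕ, ℓ.Prime → ¬ ℓ ∣ N → ℓ ∉ T → ∃ a : integralClosure ℤ ℂ, (a : ℂ) = qCoeff f ℓ ∧
      a - ((W.apOfModel ℓ : ℤ) : integralClosure ℤ ℂ) ∈ 𝔪)
    {ℓ : ℕ} (hℓ : ℓ.Prime) (hℓN : ¬ ℓ ∣ N) (hℓp : ℓ ≠ p) (hg : W.IsGoodPrimeFor ℓ) :
    ∃ a : integralClosure ℤ ℂ, (a : ℂ) = qCoeff f ℓ ∧
      a - ((W.apOfModel ℓ : ℤ) : integralClosure ℤ ℂ) ∈ 𝔪 := by
  classical
  have hpf : Fact p.Prime := ⟨hp⟩
  have hN0 : N ≠ 0 := NeZero.ne N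
  have hNp : N * p ≠ 0 := mul_ne_zero hN0 hp.ne_zero
  let S : Finset ℕ := (N * p).primeFactors
  have hpS : p ∈ (↑S : Set ℕ) := Nat.mem_primeFactors.mpr ⟨hp, dvd_mul_left p N, hNp⟩
  have hNS : ∀ q : ℕ, q.Prime → q ∣ N → q ∈ (↑S : Set ℕ) := fun q hq hqN =>
    Nat.mem_primeFactors.mpr ⟨hq, hqN.mul_right p, hNp⟩
  have hfinT := Period.finite_heckeAlgebra N 2 (↑S : Set ℕ)
  let lam : heckeAlgebra N 2 (↑S : Set ℕ) →+* ℂ := eigenChar hf hNS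
  let lam' : heckeAlgebra N 2 (↑S : Set ℕ) →ₐ[ℤ] integralClosure ℤ ℂ :=
    lam.toIntAlgHom.codRestrict (integralClosure ℤ ℂ)
      (fun t => (Algebra.IsIntegral.isIntegral t).map lam.toIntAlgHom)
  have hlam' : ∀ t, ((lam' t : integralClosure ℤ ℂ) : ℂ) = lam t := fun _ => rfl
  let R : Subalgebra ℤ (integralClosure ℤ ℂ) := lam'.range
  have hR : Module.Finite ℤ R :=
    Module.Finite.of_surjective lam'.rangeRestrict.toLinearMap lam'.rangeRestrict_surjective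
  let _ : Field (integralClosure ℤ ℂ ⧸ 𝔪) := Ideal.Quotient.field 𝔪
  have hchar : CharP (integralClosure ℤ ℂ ⧸ 𝔪) p := by
    rw [CharP.charP_iff_prime_eq_zero hp]
    have h2 : Ideal.Quotient.mk 𝔪 (p : integralClosure ℤ ℂ) = 0 :=
      Ideal.Quotient.eq_zero_iff_mem.mpr hp𝔪
    simpa using h2
  let ψ : R →+* (integralClosure ℤ ℂ ⧸ 𝔪) := (Ideal.Quotient.mk 𝔪).comp R.val.toRingHom
  obtain ⟨O, i1, i2, i3, i4, i5, i6, hpO, χ, hχ⟩ := exists_dvr_point p R ψ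
  let χ₁ : heckeAlgebra N 2 (↑S : Set ℕ) →+* O := χ.comp lam'.rangeRestrict.toRingHom
  have hiff : ∀ (s : heckeAlgebra N 2 (↑S : Set ℕ)) (a : ℤ),
      χ₁ s - (a : O) ∈ maximalIdeal O ↔ lam' s - (a : integralClosure ℤ ℂ) ∈ 𝔪 := by
    intro s a
    have e1 : χ₁ s - (a : O) = χ (lam'.rangeRestrict s - (a : R)) := by
      rw [map_sub, map_intCast]; rfl
    rw [e1, hχ]
    have e2 : ψ (lam'.rangeRestrict s - (a : R)) =
        Ideal.Quotient.mk 𝔪 (lam' s - (a : integralClosure ℤ ℂ)) := by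
      rw [map_sub, map_sub, map_intCast, map_intCast]; rfl
    rw [e2, Ideal.Quotient.eq_zero_iff_mem]
  have hℓS : ℓ ∉ (↑S : Set ℕ) := notMem_primeFactors hN0 hp hℓ hℓN hℓp
  have hT : ∀ (q : ℕ) (hq : q.Prime) (hqN : ¬ q ∣ N) (hqS : q ∉ (↑S : Set ℕ)),
      ((lam' (heckeAlgebra.T hq hqN hqS) : integralClosure ℤ ℂ) : ℂ) = qCoeff f q := by
    intro q hq hqN hqS
    rw [hlam']
    exact eigenChar_T hf hNS hq hqN hqS
  have key := core O W hΔ hNS hpS S.finite_toSet hpO χ₁ 1 T (fun q hq hqN hqS hqT => by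
    rw [pow_one, hiff]
    obtain ⟨a, ha, ha'⟩ := h q hq hqN hqT
    have h1 : lam' (heckeAlgebra.T hq hqN hqS) = a := Subtype.ext (by rw [hT, ha])
    rw [h1]
    exact ha') ℓ hℓ hℓN hℓS hg
  rw [pow_one, hiff] at key
  exact ⟨_, hT ℓ hℓ hℓN hℓS, key⟩

end Form

section Mod

variable (W : WeierstrassCurve ℤ) (hΔ : W.Δ ≠ 0) {N : ℕ} [NeZero N] {S : Set ℕ}

/-- characters with integral values are integral -/
theorem exists_int_char (hS : ∀ q : ℕ, q.Prime → q ∣ N → q ∈ S) {O : Type*} [CommRing O]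
    {k : Type*} [CommRing k] (i : k →+* O) (hi : Function.Injective i)
    (χ : heckeAlgebra N 2 S →+* O) (a : ℕ → k)
    (h : ∀ (ℓ : ℕ) (hℓ : ℓ.Prime) (hℓN : ¬ ℓ ∣ N) (hℓS : ℓ ∉ S),
      χ (heckeAlgebra.T hℓ hℓN hℓS) = i (a ℓ)) :
    ∃ ψ : heckeAlgebra N 2 S →+* k, ∀ (ℓ : ℕ) (hℓ : ℓ.Prime) (hℓN : ¬ ℓ ∣ N) (hℓS : ℓ ∉ S),
      ψ (heckeAlgebra.T hℓ hℓN hℓS) = a ℓ := by
  have hr : ∀ t, χ t ∈ i.range := by
    intro t
    obtain ⟨x, rfl⟩ := HeckeHom.toHecke_surjective hS t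
    induction x using FreeAlgebra.induction with
    | grade0 n =>
      rw [AlgHom.commutes, eq_intCast, map_intCast]
      exact ⟨n, map_intCast i n⟩
    | grade1 j =>
      rw [HeckeHom.toHecke_ι hS j.2.1 j.2.2.1 j.2.2.2, h]
      exact ⟨_, rfl⟩
    | mul x y hx hy => rw [map_mul, map_mul]; exact mul_mem hx hy
    | add x y hx hy => rw [map_add, map_add]; exact add_mem hx hy
  let e : k ≃+* i.range := RingEquiv.ofBijective i.rangeRestrict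
    ⟨fun x y hxy => hi (congrArg Subtype.val hxy), i.rangeRestrict_surjective⟩
  refine ⟨(e.symm : i.range →+* k).comp (χ.codRestrict i.range hr), fun ℓ hℓ hℓN hℓS => ?_⟩
  show e.symm ⟨χ _, _⟩ = _
  rw [RingEquiv.symm_apply_eq]
  exact Subtype.ext (h ℓ hℓ hℓN hℓS)

include hΔ in
/-- **[MOD]** -/
theorem isModularModelOfLevel_of_char (hS : ∀ q : ℕ, q.Prime → q ∣ N → q ∈ S) (hSf : S.Finite)
    {O : Type*} [CommRing O] [CharZero O] (χ : heckeAlgebra N 2 S →+* O)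
    (h : ∀ (ℓ : ℕ) (hℓ : ℓ.Prime) (hℓN : ¬ ℓ ∣ N) (hℓS : ℓ ∉ S),
      χ (heckeAlgebra.T hℓ hℓN hℓS) = ((W.apOfModel ℓ : ℤ) : O)) :
    W.IsModularModelOfLevel N := by
  obtain ⟨ψ, hψ⟩ := exists_int_char hS (Int.castRingHom O) (by
    intro x y hxy
    exact Int.cast_injective hxy) χ (fun ℓ => W.apOfModel ℓ) (by
    intro ℓ hℓ hℓN hℓS
    rw [h]; rfl)
  obtain ⟨f, hf, -, hf2, -⟩ := NewPoint.exists_eigenform_of_char ((Int.castRingHom ℂ).comp ψ)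
  refine ⟨f, hf, fun q hq hg hqN => ?_⟩
  refine qCoeff_eq_of_ae hf W hΔ hSf.toFinset (fun ℓ hℓ hℓN hℓS => ?_) hq hqN hg
  have hℓS' : ℓ ∉ S := fun h => hℓS (hSf.mem_toFinset.mpr h)
  rw [hf2 ℓ hℓ hℓN hℓS', RingHom.comp_apply, hψ]
  rfl

/-- **[RES]**, first half: residual modularity gives a residual character. -/
theorem exists_char_of_residual (hS : ∀ q : ℕ, q.Prime → q ∣ N → q ∈ S) {p : ℕ} (hp : p.Prime)
    (hpS : p ∈ S) (hΔS : ∀ q : ℕ, q.Prime → (q : ℤ) ∣ W.Δ → q ∈ S)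
    (hres : W.IsResiduallyModularOfLevel p N) {k : Type*} [Field k] (hk : (p : k) = 0) :
    ∃ θ : heckeAlgebra N 2 S →+* k, ∀ (ℓ : ℕ) (hℓ : ℓ.Prime) (hℓN : ¬ ℓ ∣ N) (hℓS : ℓ ∉ S),
      θ (heckeAlgebra.T hℓ hℓN hℓS) = ((W.apOfModel ℓ : ℤ) : k) := by
  classical
  obtain ⟨f, 𝔪, hf, h𝔪, hp𝔪, hcong⟩ := hres
  have hpf : Fact p.Prime := ⟨hp⟩
  have hfinT := Period.finite_heckeAlgebra N 2 S
  let lam : heckeAlgebra N 2 S →+* ℂ := eigenChar hf hS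
  let lam' : heckeAlgebra N 2 S →ₐ[ℤ] integralClosure ℤ ℂ :=
    lam.toIntAlgHom.codRestrict (integralClosure ℤ ℂ)
      (fun t => (Algebra.IsIntegral.isIntegral t).map lam.toIntAlgHom)
  have hlam' : ∀ t, ((lam' t : integralClosure ℤ ℂ) : ℂ) = lam t := fun _ => rfl
  let _ : Field (integralClosure ℤ ℂ ⧸ 𝔪) := Ideal.Quotient.field 𝔪
  have hchar : CharP (integralClosure ℤ ℂ ⧸ 𝔪) p := by
    rw [CharP.charP_iff_prime_eq_zero hp]
    have h2 : Ideal.Quotient.mk 𝔪 (p : integralClosure ℤ ℂ) = 0 :=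
      Ideal.Quotient.eq_zero_iff_mem.mpr hp𝔪
    simpa using h2
  have hchar' : CharP k p := (CharP.charP_iff_prime_eq_zero hp).mpr hk
  obtain ⟨ψ, hψ⟩ := exists_int_char hS (ZMod.castHom (dvd_refl p) (integralClosure ℤ ℂ ⧸ 𝔪))
    (ZMod.castHom (dvd_refl p) (integralClosure ℤ ℂ ⧸ 𝔪)).injective
    ((Ideal.Quotient.mk 𝔪).comp (lam' : heckeAlgebra N 2 S →+* integralClosure ℤ ℂ))
    (fun ℓ => ((W.apOfModel ℓ : ℤ) : ZMod p)) (by
    intro ℓ hℓ hℓN hℓS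
    obtain ⟨a, ha, ha'⟩ := hcong ℓ hℓ (fun h => hℓS (hΔS ℓ hℓ h)) hℓN (fun e => hℓS (e ▸ hpS))
    rw [map_intCast]
    have h1 : lam' (heckeAlgebra.T hℓ hℓN hℓS) = a := Subtype.ext (by
      rw [hlam', ha]
      exact eigenChar_T hf hS hℓ hℓN hℓS)
    rw [RingHom.comp_apply]
    show Ideal.Quotient.mk 𝔪 (lam' (heckeAlgebra.T hℓ hℓN hℓS)) = _
    rw [h1, ← map_intCast (Ideal.Quotient.mk 𝔪), Ideal.Quotient.eq]
    exact ha')
  refine ⟨(ZMod.castHom (dvd_refl p) k).comp ψ, fun ℓ hℓ hℓN hℓS => ?_⟩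
  rw [RingHom.comp_apply, hψ, map_intCast]

include hΔ in
/-- **[RES]**, second half: a residual character gives residual modularity. -/
theorem residual_of_char (hSf : S.Finite) {p : ℕ} (hp : p.Prime)
    {k : Type*} [Field k] (hk : (p : k) = 0) (θ : heckeAlgebra N 2 S →+* k)
    (h : ∀ (ℓ : ℕ) (hℓ : ℓ.Prime) (hℓN : ¬ ℓ ∣ N) (hℓS : ℓ ∉ S),
      θ (heckeAlgebra.T hℓ hℓN hℓS) = ((W.apOfModel ℓ : ℤ) : k)) :
    W.IsResiduallyModularOfLevel p N := by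
  obtain ⟨f, 𝔪, hf, h𝔪, hp𝔪, hcong⟩ := PIC.exists_eigenform_of_residual_int hp hk θ
    (fun ℓ => W.apOfModel ℓ) h
  refine ⟨f, 𝔪, hf, h𝔪, hp𝔪, fun ℓ hℓ hg hℓN hℓp => ?_⟩
  refine congr_of_ae_form hf W hΔ hp 𝔪 hp𝔪 hSf.toFinset (fun q hq hqN hqS => ?_) hℓ hℓN hℓp hg
  exact hcong q hq hqN (fun h => hqS (hSf.mem_toFinset.mpr h))

end Mod

end Fermat.Agent.RTM
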