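import Mathlib.RingTheory.WittVector.Complete
import Mathlib.RingTheory.WittVector.Compare
import Mathlib.RingTheory.WittVector.DiscreteValuationRing
import Mathlib.FieldTheory.Finite.GaloisField
import Mathlib.RingTheory.LocalRing.ResidueField.Basic
import Mathlib.NumberTheory.Padics.RingHoms
import Mathlib.RingTheory.AdicCompletion.Functoriality
import Mathlib.RingTheory.WittVector.Teichmuller
import Fermat.Prelude.Thm_IsAdicComplete_of_module_finite

/-!
The coefficient ring: Witt vectors of `𝔽_{p²}`.
-/

set_option autoImplicit false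

noncomputable section

namespace Fermat.Agent.RTM

open IsLocalRing

variable (p : ℕ) [hp : Fact p.Prime]

/-- The coefficient ring: Witt vectors of `𝔽_{p²}`. -/
abbrev Wp : Type := WittVector p (GaloisField p 2)

theorem maximalIdeal_eq : maximalIdeal (Wp p) = Ideal.span {(p : Wp p)} :=
  (WittVector.irreducible p).maximalIdeal_eq

theorem p_mem : (p : Wp p) ∈ maximalIdeal (Wp p) := by
  rw [maximalIdeal_eq]
  exact Ideal.mem_span_singleton_self _

instance : IsAdicComplete (maximalIdeal (Wp p)) (Wp p) := by
  rw [maximalIdeal_eq]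
  infer_instance

/-- the residue field is `𝔽_{p²}` -/
def resEquiv : ResidueField (Wp p) ≃+* GaloisField p 2 :=
  (Ideal.quotEquivOfEq (maximalIdeal_eq p)).trans WittVector.quotientPEquiv

instance : Finite (ResidueField (Wp p)) := (resEquiv p).toEquiv.finite_iff.mpr inferInstance

theorem card_residue : Nat.card (ResidueField (Wp p)) = p ^ 2 := by
  rw [Nat.card_congr (resEquiv p).toEquiv, GaloisField.card p 2 two_ne_zero]

instance : CharZero (Wp p) := by
  have h0 : (p : Wp p) ≠ 0 := WittVector.p_nonzero p _
  obtain ⟨q, hq⟩ := CharP.exists (Wp p)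
  rcases CharP.char_is_prime_or_zero (Wp p) q with h | h
  · exfalso
    have h1 : (q : Wp p) = 0 := CharP.cast_eq_zero _ _
    have h2 : (q : GaloisField p 2) = 0 := by
      have := congrArg (WittVector.constantCoeff : Wp p →+* GaloisField p 2) h1
      rwa [map_natCast, map_zero] at this
    rw [CharP.cast_eq_zero_iff (GaloisField p 2) p] at h2
    have h3 : q = p := ((Nat.prime_dvd_prime_iff_eq hp.out h).mp h2).symm
    rw [h3] at h1
    exact h0 h1
  · subst h
    exact CharP.charP_to_charZero _

instance : Algebra ℤ_[p] (Wp p) :=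
  ((WittVector.map (algebraMap (ZMod p) (GaloisField p 2))).comp
    (WittVector.fromPadicInt p)).toAlgebra

theorem algebraMap_injective : Function.Injective (algebraMap ℤ_[p] (Wp p)) := by
  have h : (algebraMap ℤ_[p] (Wp p)) = (WittVector.map (algebraMap (ZMod p) (GaloisField p 2))).comp
    (WittVector.fromPadicInt p) := rfl
  rw [h]
  refine (WittVector.map_injective _ (algebraMap (ZMod p) (GaloisField p 2)).injective).comp ?_
  exact (WittVector.equiv p).symm.injective

theorem span_map_eq : (maximalIdeal ℤ_[p]).map (algebraMap ℤ_[p] (Wp p)) =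
    Ideal.span {(p : Wp p)} := by
  rw [PadicInt.maximalIdeal_eq_span_p, Ideal.map_span, Set.image_singleton, map_natCast]

theorem smul_top_eq : ((maximalIdeal ℤ_[p]) • (⊤ : Submodule ℤ_[p] (Wp p))) =
    (Ideal.span {(p : Wp p)}).restrictScalars ℤ_[p] := by
  rw [Ideal.smul_top_eq_map, span_map_eq]

instance isHausdorff : IsHausdorff (maximalIdeal ℤ_[p]) (Wp p) := by
  have h : IsHausdorff ((maximalIdeal ℤ_[p]).map (algebraMap ℤ_[p] (Wp p))) (Wp p) := by
    rw [span_map_eq]
    infer_instance
  exact IsHausdorff.map_algebraMap_iff.mp h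

instance finite : Module.Finite ℤ_[p] (Wp p) := by
  classical
  have i1 : Fintype (GaloisField p 2) := Fintype.ofFinite _
  let f : (GaloisField p 2 → ℤ_[p]) →ₗ[ℤ_[p]] Wp p :=
    Fintype.linearCombination ℤ_[p] (fun x : GaloisField p 2 => WittVector.teichmuller p x)
  have i2 : IsAdicComplete (maximalIdeal ℤ_[p]) (GaloisField p 2 → ℤ_[p]) :=
    IsAdicComplete.of_module_finite _ _
  have hf : Function.Surjective f := by
    refine surjective_of_mkQ_comp_surjective (I := maximalIdeal ℤ_[p]) ?_
    intro y
    obtain ⟨y, rfl⟩ := Submodule.mkQ_surjective _ y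
    refine ⟨Pi.single (y.coeff 0) 1, ?_⟩
    rw [LinearMap.comp_apply, Fintype.linearCombination_apply_single, one_smul, ← sub_eq_zero,
      ← map_sub, Submodule.mkQ_apply, Submodule.Quotient.mk_eq_zero, smul_top_eq,
      Submodule.restrictScalars_mem, WittVector.mem_span_p_iff_coeff_zero_eq_zero]
    have h1 : (WittVector.constantCoeff : Wp p →+* GaloisField p 2)
        (WittVector.teichmuller p (y.coeff 0) - y) = 0 := by
      rw [map_sub, sub_eq_zero]
      exact WittVector.teichmuller_coeff_zero p _
    exact h1
  exact Module.Finite.of_surjective f hf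

end Fermat.Agent.RTM
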