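import Fermat.Agent.RTM.NonEis
import Fermat.Agent.TW.HMod

/-!
The maximal ideal of `W₀` corresponds to its residual representation.
-/

set_option autoImplicit false

noncomputable section

open IsLocalRing CuspForm

namespace Fermat.Agent.RTM

open Fermat.Agent.TW Fermat.Agent.DefRing

variable (W₀ : WeierstrassCurve ℤ) {O : Type} [CommRing O] [IsLocalRing O] {m : ℕ}

theorem resId_PP (rbar : GQ →* M2 (ResidueField O))
    (htr : ∀ (l : Pr m) (B : ValuationSubring (AlgebraicClosure ℚ)), B.LiesOverPrime l →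
      ∀ τ : GQ, B.IsFrobeniusAt τ l →
        (rbar τ).trace = ((W₀.apOfModel l : ℤ) : ResidueField O)) :
    ResId rbar (PP W₀ m O) where
  cmem a ha := C_mem_PP W₀ m O ha
  tmem l B hB τ hτ o ho := by
    rw [mem_PP, map_sub, evP_X, evP_C, ho, htr l B hB τ hτ, sub_self]

end Fermat.Agent.RTM
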