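import Fermat.Agent.RTM.Loc
import Fermat.Agent.LevelRaise.GalInput

/-!
The maximal ideal of an irreducible residual representation is non-Eisenstein.
-/

set_option autoImplicit false

set_option maxHeartbeats 400000
noncomputable section

open IsLocalRing CuspForm

namespace Fermat.Agent.RTM

open Fermat.Agent.TW

variable (W₀ : WeierstrassCurve ℤ) (hΔ : W₀.Δ ≠ 0) {p : ℕ} (hp : p.Prime) (hp2 : p ≠ 2)
  (hirr : W₀.ModRepIsIrreducible p)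

include hΔ hp hp2 hirr

/-- primes `ℓ ≡ 1 mod M` with `a_ℓ ≢ ℓ + 1 mod p` -/
theorem exists_nonEis_prime {m : ℕ} (hm : m ≠ 0) {M : ℕ} (hM : M ≠ 0) :
    ∃ ℓ : ℕ, ℓ.Prime ∧ ¬ ℓ ∣ m ∧ ℓ ≠ p ∧ W₀.IsGoodPrimeFor ℓ ∧ ((ℓ : ℕ) : ZMod M) = 1 ∧
      ((W₀.apOfModel ℓ : ℤ) : ZMod p) ≠ 1 + ℓ := by
  have hpf : Fact p.Prime := ⟨hp⟩
  have hE : (W₀.map (Int.castRingHom ℚ)).IsElliptic := by
    constructor
    have h1 : (W₀.map (Int.castRingHom ℚ)).Δ = ((W₀.Δ : ℤ) : ℚ) := by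
      rw [WeierstrassCurve.map_Δ]; rfl
    rw [h1, isUnit_iff_ne_zero]
    exact_mod_cast hΔ
  have hWE : W₀.IsIntegralModelOf (W₀.map (Int.castRingHom ℚ)) := ⟨1, one_smul _ _⟩
  obtain ⟨ℓ, hℓ, ⟨-, hg, hℓm, hℓp⟩, hℓM, -, hne⟩ :=
    LRGal.exists_good_prime (W₀.map (Int.castRingHom ℚ)) p hWE hirr hp2 (N := m) (q := 2)
      (Nat.pos_of_ne_zero hm) Nat.prime_two M 1 (Nat.pos_of_ne_zero hM) one_pos
  refine ⟨ℓ, hℓ, fun h => hℓm (h.mul_right 2), hℓp, hg, ?_, hne⟩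
  have h4 : ((ℓ - 1 : ℕ) : ZMod M) = 0 := (ZMod.natCast_eq_zero_iff _ _).mpr hℓM
  rw [Nat.cast_sub hℓ.one_le, Nat.cast_one, sub_eq_zero] at h4
  exact h4

variable (O : Type) [CommRing O] [IsLocalRing O]

/-- **the ideal of `W₀` is non-Eisenstein** -/
theorem nonEis_PP {m : ℕ} (hm : m ≠ 0) {M : ℕ} (hM : M ≠ 0) (hpO : (p : O) ∈ maximalIdeal O) :
    NonEis M (PP W₀ m O) := by
  obtain ⟨ℓ, hℓ, hℓm, -, -, hM1, hne⟩ := exists_nonEis_prime W₀ hΔ hp hp2 hirr hm hM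
  refine ⟨⟨ℓ, hℓ, hℓm⟩, hM1, fun h => hne ?_⟩
  have h0 : (p : ResidueField O) = 0 := by
    rw [← map_natCast (residue O), residue_eq_zero_iff]
    exact hpO
  have hpf : Fact p.Prime := ⟨hp⟩
  have hchar : CharP (ResidueField O) p := (CharP.charP_iff_prime_eq_zero hp).mpr h0
  rw [eis_mem_PP_iff] at h
  apply (ZMod.castHom (dvd_refl p) (ResidueField O)).injective
  rw [map_add, map_one, map_natCast, map_intCast, h, add_comm]

end Fermat.Agent.RTM
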