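import Fermat.Agent.RTM.IsLev
import Fermat.Agent.RTan.Pts2
import Fermat.Agent.RT8.UniTame
import Fermat.Agent.RT8.Build
import Fermat.Agent.FlatT.FlatMRep
import Fermat.Agent.LocEll.Final
import Fermat.Agent.RTan.GX

/-!
Local properties of the representations of the modular levels.
-/

set_option autoImplicit false
set_option linter.unusedSectionVars false

noncomputable section

open scoped MatrixGroups
open CongruenceSubgroup CuspForm ModularCurve.Period IsLocalRing

namespace Fermat.Agent.RTM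

open Fermat.Agent.HeckeHom Fermat.Agent.LocEll Fermat.Agent.TW Fermat.Agent.DefRing
  Fermat.Agent.LocRing Fermat.Agent.RTan
open Fermat.Agent.TWP (Pl Pl_lies Qb)

section cyc

variable {O : Type} [CommRing O] {p : ℕ} [hp : Fact p.Prime] {χ : GQ → O} (hχ : CycChar p χ)

include hχ in
/-- values of the cyclotomic character on Frobenius elements -/
theorem cyc_frob_mem {l : ℕ} (hl : l.Prime) (hlp : l ≠ p) {B : ValuationSubring Qb}
    (hB : B.LiesOverPrime l) {τ : GQ} (hτ : B.IsFrobeniusAt τ l) (n : ℕ) :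
    χ τ - (l : O) ∈ Ideal.span {((p : O) ^ n)} :=
  hχ.spec n τ l fun μ hμ => QuadRep.frobenius_smul_root hl hB hτ (pow_pos hp.out.pos n)
    (Nat.Coprime.pow_left _ ((Nat.coprime_primes hp.out hl).mpr (Ne.symm hlp))) μ hμ

include hχ in
theorem cyc_frob [IsLocalRing O] [IsNoetherianRing O] (hpO : (p : O) ∈ maximalIdeal O) {l : ℕ}
    (hl : l.Prime) (hlp : l ≠ p) {B : ValuationSubring Qb} (hB : B.LiesOverPrime l) {τ : GQ}
    (hτ : B.IsFrobeniusAt τ l) : χ τ = (l : O) := by
  have h1 : ∀ n : ℕ, χ τ - (l : O) ∈ maximalIdeal O ^ n := by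
    intro n
    have h2 := cyc_frob_mem hχ hl hlp hB hτ n
    rw [Ideal.mem_span_singleton] at h2
    obtain ⟨y, hy⟩ := h2
    rw [hy]
    exact Ideal.mul_mem_right _ _ (Ideal.pow_mem_pow hpO n)
  have h3 : χ τ - (l : O) ∈ (⨅ n : ℕ, maximalIdeal O ^ n) := by
    rw [Ideal.mem_iInf]; exact h1
  rw [Ideal.iInf_pow_eq_bot_of_isLocalRing _ (maximalIdeal.isMaximal O).ne_top] at h3
  exact sub_eq_zero.1 h3

include hχ in
/-- **Determinants** are determined by the Frobenius elements. -/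
theorem det_of_frob {T : Type} [CommRing T] [IsLocalRing T] [IsNoetherianRing T] [Algebra O T]
    (hpT : (p : T) ∈ maximalIdeal T) {r : GQ →* M2 T} (hc : MatCont T r) (S : Finset ℕ)
    (h : ∀ l : ℕ, l.Prime → l ∉ S → ∀ B : ValuationSubring Qb,
      B.LiesOverPrime l → ∀ τ : GQ, B.IsFrobeniusAt τ l → (r τ).det = (l : T)) (σ : GQ) :
    (r σ).det = algebraMap O T (χ σ) := by
  have hmem : (r σ).det - algebraMap O T (χ σ) ∈ (⨅ n : ℕ, maximalIdeal T ^ n : Ideal T) := by
    rw [Ideal.mem_iInf]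
    intro n
    obtain ⟨L, hL, hL1⟩ := hc n
    have hne : NeZero (p ^ n) := ⟨(pow_pos hp.out.pos n).ne'⟩
    obtain ⟨ζ, hζ⟩ := HasEnoughRootsOfUnity.exists_primitiveRoot Qb (p ^ n)
    have hζfd : FiniteDimensional ℚ (IntermediateField.adjoin ℚ {ζ}) :=
      IntermediateField.adjoin.finiteDimensional (Algebra.IsAlgebraic.isAlgebraic ζ).isIntegral
    obtain ⟨l, hl, hlS, -, B, hB, τ, hτ, hτσ⟩ := Cheb.exists_frobenius_eq
      (L ⊔ IntermediateField.adjoin ℚ {ζ}) inferInstance σ (insert p S)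
    rw [Finset.mem_insert, not_or] at hlS
    have h1 := hL1 (σ⁻¹ * τ) (fun x hx => by
      rw [AlgEquiv.mul_apply, hτσ x ((le_sup_left : L ≤ _) hx), ← AlgEquiv.mul_apply,
        inv_mul_cancel, AlgEquiv.one_apply])
    -- determinants
    have h2 : (r τ).det - (r σ).det ∈ maximalIdeal T ^ n := by
      have e1 : r τ = r σ * r (σ⁻¹ * τ) := by rw [← map_mul, mul_inv_cancel_left]
      have e2 : (r (σ⁻¹ * τ)).det - 1 ∈ maximalIdeal T ^ n := by
        have h00 := h1 0 0
        have h01 := h1 0 1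
        have h10 := h1 1 0
        have h11 := h1 1 1
        set X := r (σ⁻¹ * τ) with hX
        rw [Matrix.sub_apply, Matrix.one_apply_eq] at h00 h11
        rw [Matrix.sub_apply, Matrix.one_apply_ne (by decide), sub_zero] at h01 h10
        have e3 : X.det - 1 = (X 0 0 - 1) * X 1 1 + (X 1 1 - 1) - X 0 1 * X 1 0 := by
          rw [Matrix.det_fin_two]; ring
        rw [e3]
        exact Ideal.sub_mem _ (Ideal.add_mem _ (Ideal.mul_mem_right _ _ h00) h11)
          (Ideal.mul_mem_right _ _ h01)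
      have e3 : (r τ).det - (r σ).det = (r σ).det * ((r (σ⁻¹ * τ)).det - 1) := by
        rw [e1, Matrix.det_mul]; ring
      rw [e3]
      exact Ideal.mul_mem_left _ _ e2
    rw [h l hl hlS.2 B hB τ hτ] at h2
    -- the character
    have h3 : χ σ - (l : O) ∈ Ideal.span {((p : O) ^ n)} := by
      refine hχ.spec n σ l fun μ hμ => ?_
      have h4 := QuadRep.frobenius_smul_root hl hB hτ (pow_pos hp.out.pos n)
        (Nat.Coprime.pow_left _ ((Nat.coprime_primes hp.out hl).mpr (Ne.symm hlS.1))) μ hμ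
      rw [← h4]
      obtain ⟨j, -, rfl⟩ := hζ.eq_pow_of_pow_eq_one hμ
      refine (hτσ _ ((le_sup_right : IntermediateField.adjoin ℚ {ζ} ≤ _) ?_)).symm
      exact pow_mem (IntermediateField.mem_adjoin_simple_self ℚ ζ) j
    rw [Ideal.mem_span_singleton] at h3
    obtain ⟨y, hy⟩ := h3
    have h5 : algebraMap O T (χ σ) - (l : T) ∈ maximalIdeal T ^ n := by
      have e4 : algebraMap O T (χ σ) - (l : T) = (p : T) ^ n * algebraMap O T y := by
        rw [← map_natCast (algebraMap O T) l, ← map_sub, hy, map_mul, map_pow, map_natCast]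
      rw [e4]
      exact Ideal.mul_mem_right _ _ (Ideal.pow_mem_pow hpT n)
    have e5 : (r σ).det - algebraMap O T (χ σ) =
        -((l : T) - (r σ).det) - (algebraMap O T (χ σ) - (l : T)) := by ring
    rw [e5]
    exact Ideal.sub_mem _ (neg_mem h2) h5
  rw [Ideal.iInf_pow_eq_bot_of_isLocalRing _ (Ideal.IsPrime.ne_top inferInstance)] at hmem
  exact sub_eq_zero.mp hmem

end cyc

variable {O : Type} [CommRing O] [IsDomain O] [IsDiscreteValuationRing O]
  [IsAdicComplete (maximalIdeal O) O] [Finite (ResidueField O)] [CharZero O]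
  {rbar : GQ →* M2 (ResidueField O)} {sd : SliceData rbar}

/-- a matrix is zero if it is so at all points -/
theorem mat_eq_zero_of_pts {T : Type} [CommRing T] [Algebra O T]
    [Module.Finite O T] [Module.Free O T] [IsReduced T]
    {E : Type} [Field E] [IsAlgClosed E] [Algebra O E]
    (hE : Function.Injective (algebraMap O E)) (X : M2 T)
    (h : ∀ f : T →ₐ[O] E, X.map f = 0) : X = 0 :=
  Matrix.ext fun a b => pts_injective hE _ fun f => congrFun (congrFun (h f) a) b

theorem isNoetherianRing_T (C : RT8.Cpt sd) : IsNoetherianRing C.T :=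
  IsNoetherianRing.of_finite O C.T

theorem p_mem_T {p : ℕ} (hpO : (p : O) ∈ maximalIdeal O) (C : RT8.Cpt sd) :
    (p : C.T) ∈ maximalIdeal C.T := by
  rw [← map_natCast (algebraMap O C.T)]
  exact map_nonunit (algebraMap O C.T) _ hpO

section lev

variable {p n m : ℕ} [hp : Fact p.Prime] [NeZero n] {C : RT8.Cpt sd} (h : IsLev p n m C)
  (hpO : (p : O) ∈ maximalIdeal O) (hm : m ≠ 0) (hnm : ∀ q : ℕ, q.Prime → q ∣ n → q ∣ m)

include h hpO hm hnm in
/-- the determinant -/
theorem IsLev.det {χ : GQ → O} (hχ : CycChar p χ) (σ : GQ) :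
    (C.r σ).det = algebraMap O C.T (χ σ) := by
  have := isNoetherianRing_T C
  exact det_of_frob hχ (p_mem_T hpO C) C.cont m.divisors (fun l hl hlS B hB τ hτ =>
    h.det_frob hm hnm hl (fun hlm => hlS (Nat.mem_divisors.mpr ⟨hlm, hm⟩)) B hB τ hτ) σ

/-- the algebraically closed field of coefficients -/
abbrev EE (O : Type) [CommRing O] [IsDomain O] : Type := AlgebraicClosure (FractionRing O)

instance : CharZero (EE O) := charZero_of_injective_algebraMap (R := FractionRing O)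
  (algebraMap (FractionRing O) (EE O)).injective

omit [IsDiscreteValuationRing O] [IsAdicComplete (maximalIdeal O) O] [Finite (ResidueField O)]
  [CharZero O] in
theorem algebraMap_EE_injective : Function.Injective (algebraMap O (EE O)) := by
  rw [IsScalarTower.algebraMap_eq O (FractionRing O) (EE O)]
  exact (algebraMap (FractionRing O) (EE O)).injective.comp (IsFractionRing.injective O _)

/-- a point of a level, over a complete discrete valuation ring -/
structure LPt (n m : ℕ) [NeZero n] (C : RT8.Cpt sd) (f : C.T →ₐ[O] EE O) : Type 1 where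
  pt : OPt O C.T
  ι : pt.A →ₐ[O] EE O
  inj : Function.Injective ι
  eq : ∀ x, ι (pt.χ x) = f x
  cont : MatCont pt.A (mapRep (pt.χ : C.T →+* pt.A) C.r)
  a : ℕ → EE O
  ha : ∀ s : ℕ, s.Prime → ¬ s ∣ m → ∀ B : ValuationSubring Qb,
    B.LiesOverPrime s → ∀ τ : GQ, B.IsFrobeniusAt τ s →
      (ι : pt.A →+* EE O) (mapRep (pt.χ : C.T →+* pt.A) C.r τ).trace = a s
  ne : ∃ φ : parabolicHoms (EE O) (Gamma0 n) (EE O), φ ≠ 0 ∧ φ ∈ VE (EE O) n m a

include h hm hnm in
theorem IsLev.exists_lpt (f : C.T →ₐ[O] EE O) : Nonempty (LPt n m C f) := by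
  obtain ⟨pt, ι, hι, hf⟩ := exists_opt algebraMap_EE_injective f
  have hloc : IsLocalHom (pt.χ : C.T →+* pt.A) := isLocalHom_of_algHom pt.χ
  obtain ⟨a, ha⟩ := h.exists_a hm hnm (f : C.T →+* EE O)
  have ha' : ∀ s : ℕ, s.Prime → ¬ s ∣ m → ∀ B : ValuationSubring Qb,
      B.LiesOverPrime s → ∀ τ : GQ, B.IsFrobeniusAt τ s →
        (ι : pt.A →+* EE O) (mapRep (pt.χ : C.T →+* pt.A) C.r τ).trace = a s := by
    intro s hs hsm B hB τ hτ
    rw [← ha s hs hsm B hB τ hτ, trace_mapRep]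
    exact hf _
  exact ⟨⟨pt, ι, hι, hf, mapRep_cont _ hloc C.r C.cont, a, ha', h.pts hm hnm _ a ha⟩⟩

/-- relations at the points of a level -/
theorem LPt.map_eq {f : C.T →ₐ[O] EE O} (P : LPt n m C f) (X : M2 C.T)
    (h : X.map P.pt.χ = 0) : X.map f = 0 := by
  refine Matrix.ext fun i j => ?_
  have h1 : P.pt.χ (X i j) = 0 := congrFun (congrFun h i) j
  rw [Matrix.map_apply, ← P.eq, h1]
  exact map_zero P.ι

theorem p_mem_A (hpO : (p : O) ∈ maximalIdeal O) (pt : OPt O C.T) :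
    (p : pt.A) ∈ maximalIdeal pt.A := by
  rw [← map_natCast (algebraMap O pt.A)]
  exact map_nonunit (algebraMap O pt.A) _ hpO

omit [IsDomain O] [IsDiscreteValuationRing O] [IsAdicComplete (maximalIdeal O) O]
  [Finite (ResidueField O)] [CharZero O] hp [NeZero n] in
theorem VE_mono {E : Type} [Field E] {n m m' : ℕ} (hmm : m ∣ m') {a : ℕ → E}
    {φ : parabolicHoms E (Gamma0 n) E} (hφ : φ ∈ VE E n m a) : φ ∈ VE E n m' a :=
  fun s hs hsn hsm => hφ s hs hsn fun h => hsm (h.trans hmm)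

include h hpO hm hnm in
/-- **Unipotence** of the inertia group at primes whose square does not divide the level. -/
theorem IsLev.unip {q : ℕ} (hq : q.Prime) (hqp : q ≠ p) (hq2 : ¬ q ^ 2 ∣ n)
    {A : ValuationSubring Qb} (hA : A.LiesOverPrime q) {σ : GQ}
    (hσ : σ ∈ A.inertiaSubgroupIn ℚ) : (C.r σ - 1) * (C.r σ - 1) = 0 := by
  by_cases hqn : q ∣ n
  · have h1 := h.free
    have h2 := h.red
    refine mat_eq_zero_of_pts (algebraMap_EE_injective (O := O)) _ fun f => ?_
    obtain ⟨P⟩ := h.exists_lpt hm hnm f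
    refine P.map_eq _ ?_
    obtain ⟨φ, hφ0, hφ⟩ := P.ne
    have hm' : m * (n * p) ≠ 0 := mul_ne_zero hm (mul_ne_zero (NeZero.ne n) hp.out.ne_zero)
    have h3 := (loc_uni (p_mem_A hpO P.pt) (P.ι : P.pt.A →+* EE O) P.inj hq hqp hqn hq2 hm'
      (Dvd.intro_left m rfl) P.a hφ0 (VE_mono (Dvd.intro _ rfl) hφ) _ P.cont
      (fun s hs hsm => P.ha s hs fun h => hsm (h.trans (Dvd.intro _ rfl))) hA hσ).2.2
    rw [map_mul2, map_sub2, map_one2]
    exact h3
  · rw [h.unr q hq hqn hqp A hA σ hσ, sub_self, mul_zero]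

include h hpO hm hnm in
/-- **Unipotent pairs** -/
theorem IsLev.isUni {χ : GQ → O} (hχ : CycChar p χ) {q : Nat.Primes}
    (hq2 : ¬ (q : ℕ) ^ 2 ∣ n) {φ τ : GQ} (hT : TameAt p rbar q φ τ) :
    IsUni ((q : ℕ) : C.T) (C.r φ) (C.r τ - 1) := by
  obtain ⟨c, hc, hτc⟩ := hT.root
  have hun : ∀ σ ∈ (Pl q).inertiaSubgroupIn ℚ, (C.r σ - 1) * (C.r σ - 1) = 0 := fun σ hσ =>
    h.unip hpO hm hnm q.2 hT.ne hq2 (Pl_lies q) hσ
  have hdφ : (C.r φ).det = ((q : ℕ) : C.T) := by
    rw [h.det hpO hm hnm hχ, cyc_frob hχ hpO q.2 hT.ne (Pl_lies q) hT.frob, map_natCast]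
  have hdτ : (C.r τ).det = 1 := by
    have := isNoetherianRing_T C
    rw [h.det hpO hm hnm hχ]
    have h1 : χ τ = 1 := hχ.eq_one hpO fun k μ hμ =>
      QuadRep.inertia_smul_root q.2 (Pl_lies q) hT.mem (pow_pos hp.out.pos k)
        (Nat.Coprime.pow_left _ ((Nat.coprime_primes hp.out q.2).mpr (Ne.symm hT.ne))) μ hμ
    rw [h1, map_one]
  have hcpl : IsAdicComplete (maximalIdeal C.T) C.T :=
    IsLocalRing.isAdicComplete_of_module_finite (𝒪 := O) (T := C.T)
  exact RT8.isUni_of_unip (p_mem_T hpO C) C.r C.cont hT.ne hc hT.mem hτc hT.frob hun hdφ hdτ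

omit hp in
theorem isUni_map' {R S : Type} [CommRing R] [CommRing S] (f : R →+* S) {q : R}
    {F N : Matrix (Fin 2) (Fin 2) R} (h : IsUni q F N) : IsUni (f q) (F.map f) (N.map f) := by
  refine ⟨?_, ?_, ?_, ?_, ?_⟩
  · have h1 : (F.map f).det = f F.det := (RingHom.map_det f F).symm
    rw [h1, h.detF]
  · have h1 := congrArg (fun X : Matrix (Fin 2) (Fin 2) R => X.map f) h.FN
    simp only [Matrix.map_mul] at h1
    rw [h1]
    refine Matrix.ext fun i j => ?_
    simp [Matrix.mul_apply, mul_add]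
  · rw [← Matrix.map_mul, h.NN]
    exact Matrix.map_zero f (map_zero f)
  · have h1 : (N.map f).trace = f N.trace := by simp [Matrix.trace_fin_two]
    rw [h1, h.trN, map_zero]
  · have h1 : (N.map f).det = f N.det := (RingHom.map_det f N).symm
    rw [h1, h.detN, map_zero]

include h hpO hm hnm in
/-- **Steinberg pairs** -/
theorem IsLev.isStPm {χ : GQ → O} (hχ : CycChar p χ) {q : Nat.Primes}
    (hq2 : ¬ (q : ℕ) ^ 2 ∣ n) {φ τ : GQ} (hT : TameAt p rbar q φ τ)
    (htr : (C.r φ).trace ^ 2 = (((q : ℕ) : C.T) + 1) ^ 2) :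
    RT8.IsStPm ((q : ℕ) : C.T) (C.r φ) (C.r τ - 1) := by
  have h1 := h.free
  have h2 := h.red
  have hU := h.isUni hpO hm hnm hχ hq2 hT
  refine RT8.isStPm_of_family (T' := fun _ : C.T →ₐ[O] EE O => EE O)
    (fun f => (f : C.T →+* EE O)) (fun x hx => pts_injective algebraMap_EE_injective x hx)
    fun f => ?_
  have hq0 : ((f : C.T →+* EE O) ((q : ℕ) : C.T)) ≠ 0 := by
    rw [map_natCast]
    exact Nat.cast_ne_zero.mpr q.2.ne_zero
  refine RT8.isStPm_of_isUni hq0 (isUni_map' (f : C.T →+* EE O) hU) ?_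
  have e1 : ((C.r φ).map (f : C.T →+* EE O)).trace = f (C.r φ).trace :=
    trace_map' (f : C.T →+* EE O)
  rw [e1]
  have h3 := congrArg f htr
  rw [map_pow, map_pow, map_add, map_one] at h3
  exact h3

include h hm hnm hpO in
/-- **Flatness** at `p` -/
theorem IsLev.flatM (hp2 : p ≠ 2) (hpn : ¬ p ∣ n) (hpm : p ∣ m)
    (hspan : Submodule.span (ResidueField O) (Set.range rbar) = ⊤) : FlatM p O C.r := by
  have h1 := h.free
  obtain ⟨π, hπ⟩ := h.att
  exact FlatT.flatM_hecke hp2 hpn hpO (Nat.mem_divisors.mpr ⟨hpm, hm⟩)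
    (fun q hq hqn => Nat.mem_divisors.mpr ⟨hnm q hq hqn, hm⟩) π hspan C.r C.cont C.red hπ

end lev

end Fermat.Agent.RTM
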