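import Fermat.Agent.RTM.Gal
import Fermat.Agent.RTM.Lev
import Fermat.Agent.RTM.HG
import Fermat.Agent.RT8.DegT
import Fermat.Agent.RTan.Mod

/-!
The modular side of the patching argument: the list of the facts which are needed.
-/

set_option autoImplicit false
set_option linter.unusedSectionVars false

noncomputable section

namespace Fermat.Agent.RTM

open IsLocalRing Fermat.Agent.DefRing Fermat.Agent.RTan Fermat.Agent.LocRing
open Fermat.Agent.TWP (Pl Qb)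
open Fermat.Agent.ORD (Pair)

variable {O : Type} [CommRing O] [IsDomain O] [IsDiscreteValuationRing O]
  [IsAdicComplete (maximalIdeal O) O] [Finite (ResidueField O)] [CharZero O]
  {rbar : GQ →* M2 (ResidueField O)} {sd : SliceData rbar} {p : ℕ} [Fact p.Prime]
  {W : WeierstrassCurve ℤ} {χ : GQ → O} {m : ℕ}

/-- Galois data at `p` in the multiplicative case. -/
structure GalP (G : Gal sd p W χ m) where
  b : Bas p χ rbar
  φ : GQ
  τ : GQ
  pair : Pair p (Pl (ExtCitation.pPrime p)) φ τ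
  ord : OrdAt p χ G.pt.r
  z₀ : O
  sq : z₀ ^ 2 = 1
  zpt : b.z G.pt.r φ = algebraMap O G.pt.T z₀

/-- The product of the Taylor–Wiles primes. -/
def Gal.Q (G : Gal sd p W χ m) (n : ℕ) : ℕ := ∏ i, (G.q n i : ℕ)

/-- The levels of the patching systems: `H¹(Γ₀(N), O)_𝔪 ≠ 0` by `nz_of_res`. -/
structure Ok (W : WeierstrassCurve ℤ) (p m N : ℕ) : Prop where
  dvd : N ∣ m
  sqf : Squarefree N
  two : 2 ∣ N ∨ 5 ≤ p
  res : W.IsResiduallyModularOfLevel p N

theorem Ok.neZero {N : ℕ} (h : Ok W p m N) : NeZero N := ⟨h.sqf.ne_zero⟩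

/-- Degeneracy maps at `p` in the ordinary case: `b.z` is the eigenvalue of Frobenius on the
unramified quotient. -/
structure DegZ {g n : ℕ} {P : Fin g → RT8.TWP rbar} {B B₂ : RT8.BMod sd} (L : RT8.TMod p P n B)
    (L₂ : RT8.TMod p P n B₂) (𝓕 : Set GQ) (b : Bas p χ rbar) (φ : GQ) (z₀ : O) extends
    RT8.DegT L L₂ 𝓕 where
  comp : ∀ zi : L₂.C.T, b.z L₂.C.r φ * zi = 1 → ∀ x y, down (up (x, y)) =
    ((((p : ℕ) : L₂.C.T) + 1) • x + (b.z L₂.C.r φ + ((p : ℕ) : L₂.C.T) * zi) • y,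
      (b.z L₂.C.r φ + ((p : ℕ) : L₂.C.T) * zi) • x + (((p : ℕ) : L₂.C.T) + 1) • y)
  new : ∀ x : L.M, ∃ y, (b.z L.C.r φ - algebraMap O L.C.T z₀) • x = up y

/-- **The modular side.** For all the levels `N` with `Ok W p m N`: a base module, the
Taylor–Wiles modules, and their properties. -/
structure Supply (G : Gal sd p W χ m) where
  /-- the base modules: `(B N h).M = (Fin _ → Loc 𝔪 (HG m N _ O))` -/
  B : ∀ N, Ok W p m N → RT8.BMod sd
  /-- the modules of Taylor–Wiles level `n` -/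
  L : ∀ n N (h : Ok W p m N), RT8.TMod p (G.P n) n (B N h)
  levB : ∀ N (h : Ok W p m N) [NeZero N], IsLev p N m (B N h).C
  levL : ∀ n N (h : Ok W p m N) (k : ℕ) [NeZero k], k = N * G.Q n ^ 2 →
    IsLev p k (m * G.Q n) (L n N h).C
  dpos : ∀ N h, 0 < (B N h).d
  faith : ∀ N h (t : (B N h).C.T), (∀ x : (B N h).M, t • x = 0) → t = 0
  /-- degeneracy maps at a prime `l ≠ p` (`l = 2` allowed if `5 ≤ p`) -/
  deg : ∀ (l : Nat.Primes), (l : ℕ) ≠ p → ∀ (N : ℕ) (h : Ok W p m N) (h' : Ok W p m (N * l)) (n : ℕ),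
    Nonempty (RT8.DegPT (L n (N * l) h') (L n N h) (RT8.FrobsOut (m * G.Q n)) l (G.φ l))
  /-- new levels: traces of Frobenius -/
  newst : ∀ (l : Nat.Primes), (l : ℕ) ≠ p → ∀ (N : ℕ) (h' : Ok W p m (N * l)),
    (2 ∣ N ∨ 5 ≤ p) → ¬ W.IsResiduallyModularOfLevel p N → ∀ n,
      ((L n (N * l) h').C.r (G.φ l)).trace ^ 2 = (((l : ℕ) : (L n (N * l) h').C.T) + 1) ^ 2
  /-- new levels: exactness mod `𝔪_O` -/
  exact : ∀ (l : Nat.Primes), (l : ℕ) ≠ p → (l : ℕ) ≠ 2 → ∀ (N : ℕ) (h' : Ok W p m (N * l)),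
    2 ∣ N → ¬ W.IsResiduallyModularOfLevel p N →
      RT8.ExactM (B (N * l) h') ((B (N * l) h').C.r (G.τ l) - 1)
  /-- ordinarity at `p` in the multiplicative case, for all levels (divisible by `p` or not) -/
  ord : ∀ (_ : GalP G) (n N : ℕ) (h : Ok W p m N), OrdAt p χ (L n N h).C.r
  /-- `p`-new levels -/
  newp : ∀ (P : GalP G), rbar P.τ = 1 → ∀ (N : ℕ) (h' : Ok W p m (N * p)),
    ¬ W.IsResiduallyModularOfLevel p N → ∀ n (x : (L n (N * p) h').M),
      (P.b.z (L n (N * p) h').C.r P.φ - algebraMap O _ P.z₀) • x = 0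
  /-- degeneracy maps at `p` -/
  degp : ∀ (P : GalP G), rbar P.τ = 1 → ∀ (N : ℕ) (h : Ok W p m N) (h' : Ok W p m (N * p)) (n : ℕ),
    (L n N h).C.r P.τ = 1 ∧ Nonempty (DegZ (L n (N * p) h') (L n N h)
      (RT8.FrobsOut (m * G.Q n)) P.b P.φ P.z₀)

end Fermat.Agent.RTM
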