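import Fermat.Agent.TW.ThetaTW
import Fermat.Agent.TWDeg.DegTW

/-!
Reduction of the local–global compatibility to larger levels.
-/

set_option autoImplicit false
set_option linter.unusedSectionVars false

noncomputable section

namespace Fermat.Agent.RTM

open IsLocalRing Module Matrix Fermat.Agent.DefRing Fermat.Agent.TW Fermat.Agent.TWDeg

variable {D : Type} [CommGroup D] {W : TWD D} {l : ℕ} (hl : l.Prime) (hlQ : l ∉ W.Q)
  {m : ℕ} {hM : W.M ∣ m} (hM' : (raise W hl hlQ).M ∣ m) (hlN : ¬ l ∣ W.N)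
  {O : Type} [CommRing O] [IsLocalRing O] {rbar : GQ →* M2 (ResidueField O)}
  {E : Type} [Field E] [CharZero E]

include hlN in
/-- The local–global compatibility at level `N l` implies that at level `N`. -/
theorem lgHyp_of_raise (h : LGHyp (raise W hl hlQ) hM' rbar E) : LGHyp W hM rbar E := by
  intro O' _ _ _ _ _ _ _ _ _ ι hι r hr hred v hv hT ψ hψ q B hB s hs ζ hζ c hc
  let Dg := degTW W hl hlQ E E (fun _ => .chi) hM hM' hlN
  have hsm : ∀ (e : E) (x : (XF hM).H (funRep (M := W.M) E E W.YQ)), Dg.I (e • x) = e • Dg.I x := by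
    intro e x
    rw [← Stg.C_smul, map_smul, Stg.C_smul]
  have hv' : Dg.I v ≠ 0 := by
    intro h0
    have h1 := Dg.JI v
    rw [h0, map_zero] at h1
    have h2 : ((Dg.q + 1 : ℕ) : E) • v = 0 := by
      rw [Nat.cast_smul_eq_nsmul]
      exact h1.symm
    rcases smul_eq_zero.mp h2 with h3 | h3
    · exact Nat.cast_ne_zero.mpr (Nat.succ_ne_zero _) h3
    · exact hv h3
  refine h O' ι hι r hr hred (Dg.I v) hv' (fun l' B' hB' τ hτ => ⟨?_, (hT l' B' hB' τ hτ).2⟩) ψ
    (fun δ₀ => ?_) q B hB s hs ζ hζ c hc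
  · rw [← Stg.X_smul, ← map_smul, Stg.X_smul, (hT l' B' hB' τ hτ).1, hsm]
  · obtain ⟨δ, hδ⟩ : ∃ δ : W.Q → D, δ = δ₀ := ⟨δ₀, rfl⟩
    subst hδ
    have h1 := (degTW_act (R := E) (A := E) W hl hlQ hM hM' hlN δ).I v
    have h2 : actH hM E W.YQ δ v = ψ δ • v := hψ δ
    rw [actH_apply] at h2
    rw [h2] at h1
    exact h1.symm.trans (hsm _ _)

end Fermat.Agent.RTM
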