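import Fermat.Agent.RTM.Flds
import Fermat.Agent.RTM.LGRaise

/-!
Reduction of the local–global compatibility to even levels.
-/

set_option autoImplicit false
set_option linter.unusedSectionVars false

noncomputable section

namespace Fermat.Agent.RTM

open IsLocalRing Fermat.Agent.DefRing Fermat.Agent.RTan Fermat.Agent.LocRing
open Fermat.Agent.TWP (Pl Pl_lies Qb)
open Fermat.Agent.TW Fermat.Agent.TWDeg

variable {O : Type} [CommRing O] [IsDomain O] [IsDiscreteValuationRing O]
  [IsAdicComplete (maximalIdeal O) O] [Finite (ResidueField O)] [CharZero O]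
  {rbar : GQ →* M2 (ResidueField O)} {sd : SliceData rbar} {p : ℕ} [hp : Fact p.Prime]
  {W : WeierstrassCurve ℤ} {χ : GQ → O} {m : ℕ} {G : Gal sd p W χ m} (A : Amb G)

include A in
/-- It is enough to know the local–global compatibility for even levels. -/
theorem Amb.lg_of (h2m : 2 ∣ m) (hLG : ∀ {N : ℕ} (hN : N ∣ m) (_ : 2 ∣ N) (n : ℕ)
      (hM : (A.tw₀ hN n).M ∣ m * G.Q n),
      LGHyp (A.tw₀ hN n) hM rbar (AlgebraicClosure (FractionRing O)))
    {N : ℕ} (h : Ok W p m N) (n : ℕ) :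
    LGHyp (A.tw h n) (A.hM h n) rbar (AlgebraicClosure (FractionRing O)) := by
  by_cases h2 : 2 ∣ N
  · exact hLG h.dvd h2 n (A.hM h n)
  · have hco : Nat.Coprime N 2 := ((Nat.Prime.coprime_iff_not_dvd Nat.prime_two).mpr h2).symm
    have hN2 : N * 2 ∣ m := hco.mul_dvd_of_dvd_of_dvd h.dvd h2m
    have hM' : (A.tw₀ hN2 n).M ∣ m * G.Q n := by
      rw [A.tw₀_M]
      exact mul_dvd_mul_right hN2 _
    have hQ : 2 ∉ (A.tw₀ h.dvd n).Q := fun h1 => by
      obtain ⟨i, hi⟩ := A.mem_Q₀ h.dvd n h1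
      exact G.avoid n i (by rw [hi]; exact h2m)
    have : CharZero (AlgebraicClosure (FractionRing O)) :=
      inferInstanceAs (CharZero (EE O))
    exact lgHyp_of_raise Nat.prime_two hQ (W := A.tw₀ h.dvd n) (hM := A.hM h n) hM' h2
      (hLG hN2 (dvd_mul_left 2 N) n hM')

end Fermat.Agent.RTM
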