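import Fermat.Agent.RTM.Flds

/-!
The supply.
-/

set_option autoImplicit false
set_option linter.unusedSectionVars false

noncomputable section

namespace Fermat.Agent.RTM

open IsLocalRing Fermat.Agent.DefRing Fermat.Agent.RTan Fermat.Agent.LocRing
open Fermat.Agent.TWP (Pl Pl_lies Qb)
open Fermat.Agent.TW Fermat.Agent.TWDeg

variable {O : Type} [CommRing O] [IsDomain O] [IsDiscreteValuationRing O]
  [IsAdicComplete (maximalIdeal O) O] [Finite (ResidueField O)] [CharZero O]
  {rbar : GQ →* M2 (ResidueField O)} {sd : SliceData rbar} {p : ℕ} [hp : Fact p.Prime]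
  {W : WeierstrassCurve ℤ} {χ : GQ → O} {m : ℕ} {G : Gal sd p W χ m} (A : Amb G) (E : A.Ex)

/-- the facts at `p` -/
structure Amb.AtP : Prop where
  ord : ∀ (_ : GalP G) (n N : ℕ) (h : Ok W p m N), OrdAt p χ (A.L E n N h).C.r
  newp : ∀ (P : GalP G), rbar P.τ = 1 → ∀ (N : ℕ) (h' : Ok W p m (N * p)),
    ¬ W.IsResiduallyModularOfLevel p N → ∀ n (x : (A.L E n (N * p) h').M),
      (P.b.z (A.L E n (N * p) h').C.r P.φ - algebraMap O _ P.z₀) • x = 0
  degp : ∀ (P : GalP G), rbar P.τ = 1 → ∀ (N : ℕ) (h : Ok W p m N) (h' : Ok W p m (N * p)) (n : ℕ),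
    (A.L E n N h).C.r P.τ = 1 ∧ Nonempty (DegZ (A.L E n (N * p) h') (A.L E n N h)
      (RT8.FrobsOut (m * G.Q n)) P.b P.φ P.z₀)

/-- **The supply** -/
def Amb.supply (F : A.AtP E) : Supply G where
  B := A.B
  L := A.L E
  levB N h _ := A.levB N h
  levL n N h k _ e := A.levL E n N h k e
  dpos := A.dpos
  faith := A.faith
  deg l hlp N h h' n := A.deg E l hlp N h h' n
  newst l hlp N h' h2 hres n := A.newst E l hlp N h' h2 hres n
  exact l hlp hl2 N h' h2 hres := A.exact l hlp hl2 N h' h2 hres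
  ord := F.ord
  newp := F.newp
  degp := F.degp

end Fermat.Agent.RTM
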