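import Fermat.Agent.RTM.LevP
import Fermat.Agent.RTM.SupplyMk

/-!
Ordinarity at `p` of the modules of the patching systems.
-/

set_option autoImplicit false
set_option linter.unusedSectionVars false

noncomputable section

namespace Fermat.Agent.RTM

open IsLocalRing Fermat.Agent.DefRing Fermat.Agent.RTan Fermat.Agent.LocRing
open Fermat.Agent.TWP (Pl Pl_lies Qb)
open Fermat.Agent.TW Fermat.Agent.TWDeg

variable {O : Type} [CommRing O] [IsDomain O] [IsDiscreteValuationRing O]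
  [IsAdicComplete (maximalIdeal O) O] [Finite (ResidueField O)] [CharZero O]
  {rbar : GQ →* M2 (ResidueField O)} {sd : SliceData rbar} {p : ℕ} [hp : Fact p.Prime]
  {W : WeierstrassCurve ℤ} {χ : GQ → O} {m : ℕ} {G : Gal sd p W χ m} (A : Amb G) (E : A.Ex)

include A in
/-- `p` does not divide the product of the Taylor–Wiles primes -/
theorem Amb.p_ndvd_Q (n : ℕ) : ¬ p ∣ G.Q n := by
  intro h
  rw [Gal.Q, hp.out.prime.dvd_finsetProd_iff] at h
  obtain ⟨i, -, h⟩ := h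
  rw [Nat.prime_dvd_prime_iff_eq hp.out (G.q n i).2] at h
  exact A.q_ne n i h.symm

include A in
theorem Amb.p2_ndvd {N : ℕ} (h : Ok W p m N) (n : ℕ) : ¬ p ^ 2 ∣ N * G.Q n ^ 2 := by
  intro h1
  have hco : Nat.Coprime (p ^ 2) (G.Q n ^ 2) :=
    Nat.Coprime.pow _ _ ((Nat.Prime.coprime_iff_not_dvd hp.out).mpr (A.p_ndvd_Q n))
  have h2 : p ^ 2 ∣ N := hco.dvd_of_dvd_mul_right h1
  have h3 : IsUnit p := h.sqf p (by rwa [pow_two] at h2)
  exact hp.out.not_isUnit h3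

include A in
theorem Amb.p_ndvd_k {N : ℕ} (hpN : ¬ p ∣ N) (n : ℕ) : ¬ p ∣ N * G.Q n ^ 2 := by
  intro h1
  rcases (Nat.Prime.dvd_mul hp.out).mp h1 with h2 | h2
  · exact hpN h2
  · exact A.p_ndvd_Q n (hp.out.dvd_of_dvd_pow h2)

theorem dvd_k_of {N m Q : ℕ} (h : N ∣ m) (q : ℕ) (hq : q.Prime) (hqk : q ∣ N * Q ^ 2) :
    q ∣ m * Q := by
  rcases (Nat.Prime.dvd_mul hq).mp hqk with h2 | h2
  · exact (h2.trans h).mul_right _
  · exact (hq.dvd_of_dvd_pow h2).mul_left _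

theorem ordAt_rbar_of (P : GalP G) : OrdAt p χ rbar := by
  have := G.dom
  exact ordAt_rbar G.pt.red P.ord

/-- **Ordinarity** -/
theorem Amb.ord (hu1 : U1) (hu2 : U2) (P : GalP G) (n N : ℕ) (h : Ok W p m N) :
    OrdAt p χ (A.L E n N h).C.r := by
  have hk : NeZero (N * G.Q n ^ 2) := ⟨mul_ne_zero h.sqf.ne_zero (pow_ne_zero 2 (Amb.Q_ne n))⟩
  exact (A.levL E n N h _ rfl).ordAt A.hp2 A.hpO (A.m'_ne n) (A.hpm.trans (dvd_mul_right _ _))
    (dvd_k_of h.dvd) A.hχ A.hspan P.b (ordAt_rbar_of P) hu1 hu2 (A.p2_ndvd h n)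

/-- **Triviality of the monodromy** at the levels prime to `p` -/
theorem Amb.tau_one (hu1 : U1) (hu2 : U2) (P : GalP G) (n N : ℕ) (h : Ok W p m N)
    (hpN : ¬ p ∣ N) : (A.L E n N h).C.r P.τ = 1 := by
  have hk : NeZero (N * G.Q n ^ 2) := ⟨mul_ne_zero h.sqf.ne_zero (pow_ne_zero 2 (Amb.Q_ne n))⟩
  exact (A.levL E n N h _ rfl).tau_eq_one A.hp2 A.hpO (A.m'_ne n)
    (A.hpm.trans (dvd_mul_right _ _)) (dvd_k_of h.dvd) A.hχ A.hspan P.b (ordAt_rbar_of P) hu1 hu2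
    (A.p_ndvd_k hpN n) P.pair

end Fermat.Agent.RTM
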