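import Fermat.Agent.NewPoint.Good
import Fermat.Agent.ERep.Trace
import Fermat.Agent.Cheb.Exist
import Fermat.Agent.Tate.Final
import Fermat.Agent.Cusps.GenusFinal

/-!
Comparison of the Galois representations of an eigenform and of an elliptic curve: congruences at
almost all primes imply congruences at all good primes.
-/

set_option autoImplicit false
set_option linter.unusedSectionVars false

noncomputable section

open scoped TensorProduct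
open Polynomial IsLocalRing

namespace Fermat.Agent.RTM

open Fermat.Agent.QuadRep Fermat.Agent.HGModule Fermat.Agent.HeckeGal Fermat.Agent.HGAssembly

local notation "G" => (AlgebraicClosure ℚ ≃ₐ[ℚ] AlgebraicClosure ℚ)

/-- continuity of a function on the Galois group -/
def ContF {O : Type} [CommRing O] [IsLocalRing O] (t : G → O) : Prop :=
  ∀ n : ℕ, ∃ L : IntermediateField ℚ (AlgebraicClosure ℚ), FiniteDimensional ℚ L ∧
    ∀ σ τ : G, (∀ x ∈ L, τ x = σ x) → t τ - t σ ∈ maximalIdeal O ^ n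

section Quad

variable {p : ℕ} [Fact p.Prime] {O : Type} [CommRing O] [IsLocalRing O]
  [IsAdicComplete (maximalIdeal O) O] {Λ : Type} [AddCommGroup Λ] [Module O Λ] [Module.Free O Λ]
  [Nontrivial Λ]

theorem contF_of_quad (hp : (p : O) ∈ maximalIdeal O) (ρ : G →* Module.End O Λ)
    (hρ : GaloisActionIsAdicContinuous O ρ) (t : G → O)
    (h : ∀ σ, ρ σ + cyc p O hp σ • ρ σ⁻¹ = t σ • (1 : Module.End O Λ)) : ContF t := by
  intro n
  obtain ⟨L₁, hL₁, h₁⟩ := hρ n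
  obtain ⟨L₂, hL₂, h₂⟩ := exists_finite_cyc (O := O) hp n
  refine ⟨L₁ ⊔ L₂, IntermediateField.finiteDimensional_sup L₁ L₂, fun σ τ hστ => ?_⟩
  set g : G := σ⁻¹ * τ with hg
  have hgx : ∀ x ∈ L₁ ⊔ L₂, g x = x := by
    intro x hx
    rw [hg, AlgEquiv.mul_apply, hστ x hx, ← AlgEquiv.mul_apply, inv_mul_cancel, AlgEquiv.one_apply]
  have hgx' : ∀ x ∈ L₁ ⊔ L₂, g⁻¹ x = x := by
    intro x hx
    conv_lhs => rw [← hgx x hx]
    rw [← AlgEquiv.mul_apply, inv_mul_cancel, AlgEquiv.one_apply]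
  have hτ : τ = σ * g := by rw [hg, mul_inv_cancel_left]
  have hτ' : τ⁻¹ = g⁻¹ * σ⁻¹ := by rw [hτ, mul_inv_rev]
  have k1 : ∀ v, ρ g v - v ∈ (maximalIdeal O ^ n) • (⊤ : Submodule O Λ) :=
    h₁ g fun x hx => hgx x ((le_sup_left : L₁ ≤ L₁ ⊔ L₂) hx)
  have k2 : ∀ v, ρ g⁻¹ v - v ∈ (maximalIdeal O ^ n) • (⊤ : Submodule O Λ) :=
    h₁ g⁻¹ fun x hx => hgx' x ((le_sup_left : L₁ ≤ L₁ ⊔ L₂) hx)
  have k3 : cyc p O hp g - 1 ∈ maximalIdeal O ^ n :=
    h₂ g fun x hx => hgx x ((le_sup_right : L₂ ≤ L₁ ⊔ L₂) hx)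
  have key : ∀ v : Λ, (t τ - t σ) • v ∈ (maximalIdeal O ^ n) • (⊤ : Submodule O Λ) := by
    intro v
    have e1 := LinearMap.congr_fun (h τ) v
    have e2 := LinearMap.congr_fun (h σ) v
    rw [LinearMap.smul_apply, Module.End.one_apply] at e1 e2
    have e : (t τ - t σ) • v =
        ρ σ (ρ g v - v) + (cyc p O hp (σ * g)) • (ρ g⁻¹ (ρ σ⁻¹ v) - ρ σ⁻¹ v)
          + (cyc p O hp σ * (cyc p O hp g - 1)) • ρ σ⁻¹ v := by
      rw [sub_smul, ← e1, ← e2, hτ', hτ]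
      simp only [map_mul, Module.End.mul_apply, LinearMap.add_apply, LinearMap.smul_apply, map_sub,
        smul_sub, mul_sub, sub_smul, mul_one]
      abel
    rw [e]
    refine Submodule.add_mem _ (Submodule.add_mem _ ?_ ?_) ?_
    · have : ρ σ (ρ g v - v) ∈ Submodule.map (ρ σ) ((maximalIdeal O ^ n) • (⊤ : Submodule O Λ)) :=
        Submodule.mem_map_of_mem (k1 v)
      rw [Submodule.map_smul''] at this
      exact Submodule.smul_mono le_rfl le_top this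
    · exact Submodule.smul_mem _ _ (k2 _)
    · exact Submodule.smul_mem_smul (Ideal.mul_mem_left _ _ k3) Submodule.mem_top
  let b := Module.Free.chooseBasis O Λ
  have hne : Nonempty (Module.Free.ChooseBasisIndex O Λ) := b.index_nonempty
  obtain ⟨j₀⟩ := hne
  have h5 := map_mem_of_mem_smul_top (b.coord j₀) _ (key (b j₀))
  rw [map_smul, b.coord_apply, b.repr_self, Finsupp.single_eq_same, smul_eq_mul, mul_one] at h5
  exact h5

end Quad

/-- **Congruence of trace functions.** -/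
theorem congr_of_ae {O : Type} [CommRing O] [IsLocalRing O] {t₁ t₂ : G → O} (h₁ : ContF t₁)
    (h₂ : ContF t₂) (n : ℕ) (S : Finset ℕ)
    (h : ∀ ℓ : ℕ, ℓ.Prime → ℓ ∉ S → ∀ A : ValuationSubring (AlgebraicClosure ℚ),
      A.LiesOverPrime ℓ → ∀ τ : G, A.IsFrobeniusAt τ ℓ → t₁ τ - t₂ τ ∈ maximalIdeal O ^ n)
    (σ : G) : t₁ σ - t₂ σ ∈ maximalIdeal O ^ n := by
  obtain ⟨L₁, hL₁, h₁⟩ := h₁ n
  obtain ⟨L₂, hL₂, h₂⟩ := h₂ n
  obtain ⟨ℓ, hℓ, hℓS, -, A, hA, τ, hτ, hτσ⟩ :=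
    Cheb.exists_frobenius_eq (L₁ ⊔ L₂) (IntermediateField.finiteDimensional_sup L₁ L₂) σ S
  have e1 := h₁ σ τ fun x hx => hτσ x ((le_sup_left : L₁ ≤ L₁ ⊔ L₂) hx)
  have e2 := h₂ σ τ fun x hx => hτσ x ((le_sup_right : L₂ ≤ L₁ ⊔ L₂) hx)
  have e3 := h ℓ hℓ hℓS A hA τ hτ
  have e4 : t₁ σ - t₂ σ = (t₁ τ - t₂ τ) - (t₁ τ - t₁ σ) + (t₂ τ - t₂ σ) := by ring
  rw [e4]
  exact add_mem (sub_mem e3 e1) e2

section Form

variable {p : ℕ} [Fact p.Prime] {N : ℕ} [NeZero N] {S : Set ℕ}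
  (O : Type) [CommRing O] [IsDomain O] [IsDiscreteValuationRing O]
  [IsAdicComplete (maximalIdeal O) O] [CharZero O]

theorem eq_of_smul_one {Λ : Type} [AddCommGroup Λ] [Module O Λ] [Module.Free O Λ]
    [Module.Finite O Λ] [Nontrivial Λ] {a b : O}
    (h : a • (1 : Module.End O Λ) = b • 1) : a = b := NewPoint.scalar_injective h

/-- the trace function of a point of the Hecke algebra -/
theorem exists_trF (hS : ∀ q : ℕ, q.Prime → q ∣ N → q ∈ S) (hpS : p ∈ S) (hSf : S.Finite)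
    (hp : (p : O) ∈ maximalIdeal O)
    (χ : CuspForm.heckeAlgebra N 2 S →+* O) : ∃ t : G → O, ContF t ∧
      ∀ (ℓ : ℕ) (hℓ : ℓ.Prime) (hℓN : ¬ ℓ ∣ N) (hℓS : ℓ ∉ S),
        ∀ A : ValuationSubring (AlgebraicClosure ℚ), A.LiesOverPrime ℓ → ∀ τ : G,
          A.IsFrobeniusAt τ ℓ → t τ = χ (CuspForm.heckeAlgebra.T hℓ hℓN hℓS) := by
  classical
  obtain ⟨D⟩ := Tate.nonempty_module (fun N _ => Cusps.genusEq N) p N S hS
  obtain ⟨Λ, i1, i2, i3, i4, i5, ρ, hcont, hfrob, -, -⟩ := exists_lattice_rep_strong D O hp χ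
  let a : ℕ → O := fun ℓ => if h : ℓ.Prime ∧ ¬ ℓ ∣ N ∧ ℓ ∉ S then
    χ (CuspForm.heckeAlgebra.T h.1 h.2.1 h.2.2) else 0
  have ha : ∀ (ℓ : ℕ) (hℓ : ℓ.Prime) (hℓN : ¬ ℓ ∣ N) (hℓS : ℓ ∉ S),
      a ℓ = χ (CuspForm.heckeAlgebra.T hℓ hℓN hℓS) := fun ℓ hℓ hℓN hℓS =>
    dif_pos ⟨hℓ, hℓN, hℓS⟩
  have hquad := exists_quad_relation hp ρ hcont hSf.toFinset (hSf.mem_toFinset.mpr hpS) a (by
      intro ℓ hℓ hℓS A hA τ hτ
      have hℓS' : ℓ ∉ S := fun h => hℓS (hSf.mem_toFinset.mpr h)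
      have hℓN : ¬ ℓ ∣ N := fun h => hℓS' (hS ℓ hℓ h)
      rw [ha ℓ hℓ hℓN hℓS']
      exact hfrob ℓ hℓ hℓN hℓS' (fun e => hℓS' (e ▸ hpS)) A hA τ hτ)
  choose t ht using hquad
  refine ⟨t, contF_of_quad hp ρ hcont t ht, fun ℓ hℓ hℓN hℓS A hA τ hτ => ?_⟩
  have hℓp : ℓ ≠ p := fun e => hℓS (e ▸ hpS)
  have h1 := ht τ
  rw [cyc_frobenius (O := O) hp hℓ hℓp hA hτ,
    quad_inv ρ τ _ _ (hfrob ℓ hℓ hℓN hℓS hℓp A hA τ hτ)] at h1
  exact (eq_of_smul_one O h1).symm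

end Form

section Elliptic

open Fermat.Agent.ERep

variable (E : WeierstrassCurve ℚ) [E.IsElliptic] (p : ℕ) [hpf : Fact p.Prime]
  {W : WeierstrassCurve ℤ} (hWE : W.IsIntegralModelOf E) (hΔ : W.Δ ≠ 0)

include hWE hΔ in
/-- the trace function of an elliptic curve -/
theorem exists_trE : ∃ t : G → ℤ_[p], ContF t ∧
      ∀ ℓ : ℕ, ℓ.Prime → ℓ ≠ p → W.IsGoodPrimeFor ℓ →
        ∀ A : ValuationSubring (AlgebraicClosure ℚ), A.LiesOverPrime ℓ → ∀ τ : G,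
          A.IsFrobeniusAt τ ℓ → t τ = ((W.apOfModel ℓ : ℤ) : ℤ_[p]) := by
  classical
  have hp : (p : ℤ_[p]) ∈ maximalIdeal ℤ_[p] := ERep.p_mem p
  let S : Finset ℕ := insert p W.Δ.natAbs.primeFactors
  have hquad := exists_quad_relation hp (repE E p) (continuous_repE (E := E) (p := p)) S
    (Finset.mem_insert_self _ _) (fun ℓ => ((W.apOfModel ℓ : ℤ) : ℤ_[p])) (by
      intro ℓ hℓ hℓS A hA τ hτ
      have hℓp : ℓ ≠ p := fun e => hℓS (e ▸ Finset.mem_insert_self _ _)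
      have hg : W.IsGoodPrimeFor ℓ := by
        intro h
        apply hℓS
        refine Finset.mem_insert_of_mem (Nat.mem_primeFactors.mpr ⟨hℓ, ?_, ?_⟩)
        · exact Int.natCast_dvd.mp h
        · exact Int.natAbs_ne_zero.mpr hΔ
      exact repE_frob E p hWE hℓ hA hℓp hg hτ)
  choose t ht using hquad
  refine ⟨t, contF_of_quad hp (repE E p) (continuous_repE (E := E) (p := p)) t ht,
    fun ℓ hℓ hℓp hg A hA τ hτ => ?_⟩
  have h1 := ht τ
  rw [cyc_frobenius (O := ℤ_[p]) hp hℓ hℓp hA hτ,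
    quad_inv (repE E p) τ _ _ (repE_frob E p hWE hℓ hA hℓp hg hτ)] at h1
  exact (eq_of_smul_one ℤ_[p] h1).symm

end Elliptic

end Fermat.Agent.RTM
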