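import Fermat.Agent.LocEll.Main
import Fermat.Agent.S21
import Fermat.Agent.TW.GlueT

/-!
Eigenvectors for characters of the Hecke algebra in parabolic homomorphisms.
-/

set_option autoImplicit false

noncomputable section

open scoped TensorProduct MatrixGroups
open CongruenceSubgroup CuspForm ModularCurve.Period

namespace Fermat.Agent.RTM

open Fermat.Agent.HeckeHom Fermat.Agent.LocEll

section Abs

variable {E A V : Type*} [Field E] [CommRing A] [Algebra E A] [Module.Finite E A]
  [AddCommGroup V] [Module E V] [Module.Finite E V]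

/-- A character of an algebra acting faithfully has an eigenvector. -/
theorem exists_eigenvector (ρ : A →ₐ[E] Module.End E V) (hρ : Function.Injective ρ)
    (θ : A →ₐ[E] E) : ∃ v : V, v ≠ 0 ∧ ∀ a, ρ a v = θ a • v := by
  let _ : Module A V := Module.compHom V (ρ : A →+* Module.End E V)
  have hsmul : ∀ (a : A) (v : V), a • v = ρ a v := fun _ _ => rfl
  have htow : IsScalarTower E A V := ⟨fun e a v => by
    rw [hsmul, hsmul, map_smul]; rfl⟩
  have hfin : Module.Finite A V := Module.Finite.of_restrictScalars_finite E A V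
  have hart : IsArtinianRing A := IsArtinianRing.of_finite E A
  have hann : Module.annihilator A V = ⊥ := by
    rw [eq_bot_iff]
    intro a ha
    rw [Module.mem_annihilator] at ha
    have h1 : ρ a = 0 := LinearMap.ext fun v => ha v
    exact hρ (h1.trans (map_zero ρ).symm)
  have hprime : (RingHom.ker (θ : A →+* E)).IsPrime := RingHom.ker_isPrime _
  have hmin : RingHom.ker (θ : A →+* E) ∈ (Module.annihilator A V).minimalPrimes := by
    rw [hann]
    refine ⟨⟨hprime, bot_le⟩, fun q hq hle => ?_⟩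
    have hmax : q.IsMaximal := by
      have := hq.1
      exact IsArtinianRing.isMaximal_of_isPrime q
    exact (hmax.eq_of_le hprime.ne_top hle).ge
  have hass : IsAssociatedPrime (RingHom.ker (θ : A →+* E)) V :=
    Module.associatedPrimes.minimalPrimes_annihilator_subset_associatedPrimes A V hmin
  obtain ⟨-, v, hv⟩ := (isAssociatedPrime_iff (M := V)).mp hass
  have hiff : ∀ a, θ a = 0 ↔ a • v = 0 := by
    intro a
    have h1 : a ∈ RingHom.ker (θ : A →+* E) ↔ a ∈ (⊥ : Submodule A V).colon {v} := by rw [hv]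
    rw [Submodule.mem_colon_singleton, Submodule.mem_bot] at h1
    exact h1
  refine ⟨v, ?_, fun a => ?_⟩
  · rintro rfl
    have h1 := (hiff 1).mpr (smul_zero _)
    rw [map_one] at h1
    exact one_ne_zero h1
  · have h1 := (hiff (a - algebraMap E A (θ a))).mp (by
      rw [map_sub, AlgHom.commutes]; exact sub_self _)
    rw [sub_smul, sub_eq_zero, algebraMap_smul] at h1
    exact h1

end Abs

section Hecke

variable {n m : ℕ} [NeZero n] (hm : m ≠ 0) (hnm : ∀ q : ℕ, q.Prime → q ∣ n → q ∣ m)
  {E : Type} [Field E] [CharZero E]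

include hm hnm in
/-- **Characters of the Hecke algebra have eigenvectors.** -/
theorem exists_VE (θ : heckeAlgebra n 2 ((m.divisors : Finset ℕ) : Set ℕ) →+* E) (a : ℕ → E)
    (ha : ∀ (s : ℕ) (hs : s.Prime) (hsn : ¬ s ∣ n) (hsS : s ∉ ((m.divisors : Finset ℕ) : Set ℕ)),
      θ (heckeAlgebra.T hs hsn hsS) = a s) :
    ∃ φ : parabolicHoms E (Gamma0 n) E, φ ≠ 0 ∧ φ ∈ VE E n m a := by
  have hS : ∀ q : ℕ, q.Prime → q ∣ n → q ∈ ((m.divisors : Finset ℕ) : Set ℕ) := fun q hq h =>
    Finset.mem_coe.mpr (Nat.mem_divisors.mpr ⟨hnm q hq h, hm⟩)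
  have hES : ES n := S21.result n
  have hhfin := Fermat.Agent.Period.finite_heckeAlgebra n 2 ((m.divisors : Finset ℕ) : Set ℕ)
  have hfinV : Module.Finite E (parabolicHoms E (Gamma0 n) E) := inferInstance
  let L : E ⊗[ℤ] (heckeAlgebra n 2 ((m.divisors : Finset ℕ) : Set ℕ)) →ₐ[E] E :=
    Algebra.TensorProduct.lift (Algebra.ofId E E) θ.toIntAlgHom fun _ _ => mul_comm _ _
  have hL : ∀ T, L (1 ⊗ₜ T) = θ T := fun T => by
    show Algebra.TensorProduct.lift (Algebra.ofId E E) θ.toIntAlgHom _ (1 ⊗ₜ T) = θ T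
    rw [Algebra.TensorProduct.lift_tmul, map_one, one_mul]
    rfl
  obtain ⟨v, hv, hev⟩ := exists_eigenvector (thetaR hES hS E) (thetaR_injective hES hS E) L
  refine ⟨v, hv, fun s hs hsn hsm => ?_⟩
  have hsS : s ∉ ((m.divisors : Finset ℕ) : Set ℕ) := fun h =>
    hsm (Nat.mem_divisors.mp (Finset.mem_coe.mp h)).1
  have h1 := hev (1 ⊗ₜ heckeAlgebra.T hs hsn hsS)
  rw [thetaR_tmul, one_smul, theta_T, hL, ha s hs hsn hsS] at h1
  exact h1

end Hecke

end Fermat.Agent.RTM
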