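import Fermat.Agent.RTan.TWData
import Fermat.Agent.RT8.Build

/-!
The Galois side of the patching argument.
-/

set_option autoImplicit false
set_option linter.unusedSectionVars false

noncomputable section

namespace Fermat.Agent.RTM

open IsLocalRing Fermat.Agent.DefRing Fermat.Agent.RTan Fermat.Agent.PT Fermat.Agent.LocRing
open Fermat.Agent.PTC (ptd sL allL muA cyclo_spec)
open Fermat.Agent.TWP (twAct Pl rl Γl Qb SQ RD UnrOut TWSet)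

/-- The Galois side: `bad` is a natural number containing all the primes which may ramify
(including `p`), the Taylor–Wiles primes do not divide `bad`. -/
structure Gal {O : Type} [CommRing O] [IsDomain O] [IsDiscreteValuationRing O]
    [IsAdicComplete (maximalIdeal O) O] [Finite (ResidueField O)]
    {rbar : GQ →* M2 (ResidueField O)} (sd : SliceData rbar) (p : ℕ) [Fact p.Prime]
    (W : WeierstrassCurve ℤ) (χ : GQ → O) (bad : ℕ) where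
  /-- base set of places -/
  S : Finset Nat.Primes
  hpS : ExtCitation.pPrime p ∈ S
  unrOut : UnrOut S rbar
  rd : RD p rbar
  /-- number of Taylor–Wiles primes -/
  g : ℕ
  /-- Taylor–Wiles primes -/
  q : ℕ → Fin g → Nat.Primes
  P : ℕ → Fin g → RT8.TWP rbar
  tw : ∀ n, TWSet p rbar n S g (q n) (fun i => (P n i).φ)
  ec : ∀ n, (Nat.card (ResidueField O) : ℝ) *
    chi (sL (SQ S (q n))) (dualAct (muA p) (twAct 1 rbar)) ≤ 1
  avoid : ∀ n i, ¬ (q n i : ℕ) ∣ bad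
  inert : ∀ n i, (P n i).s ∈ (Pl (q n i)).inertiaSubgroupIn ℚ
  gen : ∀ n i, ∃ c : (ZMod (q n i))ˣ, (∀ x : (ZMod (q n i))ˣ, x ∈ Subgroup.zpowers c) ∧
    ∀ ζ : Qb, ζ ^ (q n i : ℕ) = 1 → (P n i).s ζ = ζ ^ (c : ZMod (q n i)).val
  mem : ∀ l : Nat.Primes, (l : ℕ) ∣ bad → l ∈ S
  /-- tame pairs -/
  φ : Nat.Primes → GQ
  τ : Nat.Primes → GQ
  tame : ∀ l : Nat.Primes, (l : ℕ) ≠ p → TameAt p rbar l (φ l) (τ l)
  /-- the point to be proved modular -/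
  pt : RT8.Cpt sd
  dom : IsDomain pt.T
  char0 : CharZero pt.T
  pt_uni : ∀ l : Nat.Primes, (l : ℕ) ≠ p →
    IsUni ((l : ℕ) : pt.T) (pt.r (φ l)) (pt.r (τ l) - 1)
  pt_det : ∀ σ, (pt.r σ).det = algebraMap O pt.T (χ σ)
  pt_tr : ∀ l : Nat.Primes, (l : ℕ) ≠ p → ¬ ((l : ℕ) : ℤ) ∣ W.Δ →
    ∀ B : ValuationSubring Qb, B.LiesOverPrime l → ∀ σ : GQ, B.IsFrobeniusAt σ l →
      (pt.r σ).trace = ((W.apOfModel l : ℤ) : pt.T)
  pt_good : ∀ l : Nat.Primes, (l : ℕ) ≠ p → ¬ ((l : ℕ) : ℤ) ∣ W.Δ →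
    ∀ B : ValuationSubring Qb, B.LiesOverPrime l → ∀ σ ∈ B.inertiaSubgroupIn ℚ, pt.r σ = 1
  pt_bad : ∀ l : Nat.Primes, (l : ℕ) ≠ p → ((l : ℕ) : ℤ) ∣ W.Δ → pt.r (τ l) ≠ 1
  /-- residual data -/
  rbar_tr : ∀ l : Nat.Primes, (l : ℕ) ≠ p → ¬ ((l : ℕ) : ℤ) ∣ W.Δ →
    ∀ B : ValuationSubring Qb, B.LiesOverPrime l → ∀ σ : GQ, B.IsFrobeniusAt σ l →
      (rbar σ).trace = ((W.apOfModel l : ℤ) : ResidueField O)
  rbar_bad : ∀ l : Nat.Primes, (l : ℕ) ≠ p → ¬ p ∣ padicValInt l W.Δ →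
    ((l : ℕ) : ℤ) ∣ W.Δ → rbar (τ l) ≠ 1

end Fermat.Agent.RTM
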