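import Fermat.Agent.RTM.TWE
import Fermat.Agent.RTM.Supply

/-!
The Galois side for an elliptic curve, including the data at `p`.
-/

set_option autoImplicit false
set_option linter.unusedSectionVars false

noncomputable section

namespace Fermat.Agent.RTM

open IsLocalRing Matrix
open Fermat.Agent.RTE (EW rbE chiO ptE)
open Fermat.Agent.TWP (Pl)
open Fermat.Agent.DefRing (SliceData M2 GQ)
open Fermat.Agent.RTan (OrdAt Bas FlatM)

variable {O : Type} [CommRing O] [IsDomain O] [IsDiscreteValuationRing O]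
  [IsAdicComplete (maximalIdeal O) O] [Finite (ResidueField O)] [CharZero O]
  {p : ℕ} [hp : Fact p.Prime] {W : WeierstrassCurve ℤ} [(EW W).IsElliptic]
  (hpO : (p : O) ∈ maximalIdeal O) (f : ℤ_[p] →+* O) (i : GaloisField p 2 →+* ResidueField O)

include hpO i in
/-- **Existence of the Galois side**, with the data at `p`. -/
theorem HypW.exists_galE (h : HypW W p) (hf : Function.Injective f)
    (sd : SliceData (rbE (EW W) p f)) {bad : ℕ} (hbad : bad ≠ 0) (hpb : p ∣ bad)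
    (hΔb : ∀ l : ℕ, l.Prime → (l : ℤ) ∣ W.Δ → l ∣ bad) :
    ∃ G : Gal sd p W (chiO p f) bad,
      ((p : ℤ) ∣ W.Δ → OrdAt p (chiO p f) (rbE (EW W) p f) ∧ Nonempty (GalP G)) ∧
      (¬ (p : ℤ) ∣ W.Δ → FlatM p O G.pt.r) := by
  obtain ⟨G, hG⟩ := h.exists_gal hpO f i hf sd hbad hpb hΔb
  refine ⟨G, fun hΔ => ⟨h.ord_rb f hΔ, ?_⟩, fun hΔ => ?_⟩
  · obtain ⟨b⟩ := h.exists_bas hpO f hΔ
    obtain ⟨φ, τ, hP⟩ := exists_pairP p h.p2
    obtain ⟨z₀, hz, hzb⟩ := h.z_pt hpO f sd hΔ b hP.frob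
    refine ⟨⟨b, φ, τ, hP, ?_, z₀, hz, ?_⟩⟩
    · rw [hG]
      exact h.ord_pt hpO f sd hΔ
    · rw [hG]
      exact hzb
  · rw [hG]
    exact h.flat_pt hpO f sd hΔ

end Fermat.Agent.RTM
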