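import Fermat.Agent.RTM.LiftW
import Fermat.Agent.RTM.Witt
import Fermat.Agent.RTE.Model
import Fermat.Agent.RTan.PtZ
import Fermat.Agent.FlatT.PtE

/-!
The Galois side of the patching argument, for an elliptic curve.
-/

set_option autoImplicit false
set_option linter.unusedSectionVars false

noncomputable section

namespace Fermat.Agent.RTM

open WeierstrassCurve IsLocalRing Fermat.Agent.DefRing Fermat.Agent.RTan Fermat.Agent.LocRing
open Fermat.Agent.TWP (Pl Pl_lies Qb RD UnrOut TWSet)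
open Fermat.Agent.RTE (EW rbE rN ptE chiO)
open Fermat.Agent.ERep (NonScalar)

section gen

variable {O : Type} [CommRing O] [IsDomain O] [IsDiscreteValuationRing O]
  [IsAdicComplete (maximalIdeal O) O] [Finite (ResidueField O)] [CharZero O]
  {p : ℕ} [hp : Fact p.Prime] {W : WeierstrassCurve ℤ}

/-- tame pairs at all primes -/
theorem exists_tame_pairs (p : ℕ) [hp : Fact p.Prime] :
    ∃ (c : Nat.Primes → Qb) (φ τ : Nat.Primes → GQ), ∀ l : Nat.Primes, (l : ℕ) ≠ p →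
      c l ^ p = ((l : ℕ) : Qb) ∧ τ l ∈ (Pl l).inertiaSubgroupIn ℚ ∧ τ l (c l) ≠ c l ∧
        (Pl l).IsFrobeniusAt (φ l) l := by
  have h : ∀ l : Nat.Primes, ∃ (c : Qb) (φ τ : GQ), (l : ℕ) ≠ p →
      c ^ p = ((l : ℕ) : Qb) ∧ τ ∈ (Pl l).inertiaSubgroupIn ℚ ∧ τ c ≠ c ∧
        (Pl l).IsFrobeniusAt φ l := by
    intro l
    by_cases hl : (l : ℕ) = p
    · exact ⟨0, 1, 1, fun h => absurd hl h⟩
    · obtain ⟨c, φ, τ, h⟩ := TWP.exists_tame_pair p l hl
      exact ⟨c, φ, τ, fun _ => h⟩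
  choose c φ τ h using h
  exact ⟨c, φ, τ, h⟩

/-- **Existence of the Galois data.** -/
theorem exists_gal (hp2 : p ≠ 2) (hpO : (p : O) ∈ maximalIdeal O) (hΔ : W.Δ ≠ 0)
    (hss : W.IsSemistableModel) (h2 : (2 : ℤ) ∣ W.Δ) (hirr : W.ModRepIsIrreducible p)
    (hcase : RTE.Case W p) [(EW W).IsElliptic] (f : ℤ_[p] →+* O) (hf : Function.Injective f)
    (i : GaloisField p 2 →+* ResidueField O) (m : ℕ) (hm : m ≠ 0) (hpm : p ∣ m)
    (hΔm : ∀ q : ℕ, q.Prime → (q : ℤ) ∣ W.Δ → q ∣ m) :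
    ∃ (sd : SliceData (rbE (EW W) p f)) (G : Gal sd p W (chiO p f) m),
      (¬ (p : ℤ) ∣ W.Δ → FlatM p O G.pt.r) ∧ ((p : ℤ) ∣ W.Δ → Nonempty (GalP G)) := by
  have hWE := RTE.isIntegralModelOf_EW W
  have hns : NonScalar (EW W) p := RTE.nonScalar_EW p hirr
  have hrd : RD p (rbE (EW W) p f) := RTE.rd_EW hss h2 hp2 hcase hirr hpO f i
  obtain ⟨sd⟩ := exists_sliceData (rbE (EW W) p f) (span_of_rd hrd hp2)
  let S₁ : Finset Nat.Primes := m.primeFactors.subtype Nat.Prime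
  have hS₁ : ∀ l : Nat.Primes, l ∈ S₁ ↔ (l : ℕ) ∣ m := by
    intro l
    exact Finset.mem_subtype.trans (Nat.mem_primeFactors.trans
      ⟨fun h => h.2.1, fun h => ⟨l.2, h, hm⟩⟩)
  have hpS₁ : ExtCitation.pPrime p ∈ S₁ := (hS₁ _).mpr hpm
  have hun : UnrOut S₁ (rbE (EW W) p f) := by
    refine RTE.unrOut_rbE (EW W) p f hWE hpO S₁ fun q hq => ?_
    rw [hS₁] at hq
    exact ⟨fun h => hq (h ▸ hpm), fun h => hq (hΔm q q.2 h)⟩
  obtain ⟨S, g, q, P, hS, hTW⟩ := exists_TWdata hp2 hrd hpS₁ hun m.primeFactors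
  obtain ⟨c, φ, τ, ht⟩ := exists_tame_pairs p
  have hunS : UnrOut S (rbE (EW W) p f) := by
    refine RTE.unrOut_rbE (EW W) p f hWE hpO S fun q hq => ?_
    have hq' : q ∉ S₁ := fun h => hq (hS h)
    rw [hS₁] at hq'
    exact ⟨fun h => hq' (h ▸ hpm), fun h => hq' (hΔm q q.2 h)⟩
  let G : Gal sd p W (chiO p f) m :=
    { S := S
      hpS := hS hpS₁
      unrOut := hunS
      rd := hrd
      g := g
      q := q
      P := P
      tw := fun n => (hTW n).1
      ec := fun n => (hTW n).2.2.1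
      avoid := fun n j h => (hTW n).2.1 j (Nat.mem_primeFactors.mpr ⟨(q n j).2, h, hm⟩)
      inert := fun n j => ((hTW n).2.2.2 j).1
      gen := fun n j => ((hTW n).2.2.2 j).2
      mem := fun l hl => hS ((hS₁ l).mpr hl)
      φ := φ
      τ := τ
      tame := fun l hl => RTE.tameAt_rbE (EW W) p f hWE hpO hss hl (ht l hl).1 (ht l hl).2.1
        (ht l hl).2.2.1 (ht l hl).2.2.2
      pt := ptE (EW W) p hpO f sd
      dom := inferInstanceAs (IsDomain O)
      char0 := inferInstanceAs (CharZero O)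
      pt_uni := fun l hl => RTE.rN_isUni (EW W) p hWE f sd hns hp2 hss l.2 (Pl_lies l) hl
        (ht l hl).2.2.2 (ht l hl).2.1
      pt_det := fun σ => RTE.rN_det (EW W) p hWE f sd hns σ
      pt_tr := fun l hl hgood B hB σ hσ => RTE.rN_trace_frob (EW W) p hWE f sd hns l.2 hB hl
        hgood hσ
      pt_good := fun l hl hgood B hB σ hσ => RTE.rN_inertia_good (EW W) p hWE f sd l.2 hB hl
        hgood hσ
      pt_bad := fun l hl hbad => RTE.rN_tame (EW W) p hWE f sd hf hl hbad (hss l l.2 hbad)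
        (ht l hl).1 (ht l hl).2.1 (ht l hl).2.2.1 hp2
      rbar_tr := by
        intro l hl hgood B hB σ hσ
        have h1 := RTE.trace_rE_frob (EW W) p hWE f hns l.2 hB hl hgood hσ
        rw [RTE.rbE_eq, Matrix.trace_fin_two]
        rw [Matrix.trace_fin_two] at h1
        rw [RingHom.mapMatrix_apply, Matrix.map_apply, Matrix.map_apply, ← map_add, h1,
          map_intCast]
      rbar_bad := fun l hl hval hbad => RTE.rbE_tame (EW W) p hWE hpO f hl hbad (hss l l.2 hbad)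
        (ht l hl).1 (ht l hl).2.1 (ht l hl).2.2.1 hp2 hval }
  refine ⟨sd, G, fun hgood => FlatT.flatM_rN (EW W) p hWE hgood f sd, fun hbad => ?_⟩
  -- the multiplicative case
  have hc₄ : ¬ (p : ℤ) ∣ W.c₄ := hss p hp.out hbad
  have hA : (Pl (ExtCitation.pPrime p)).LiesOverPrime p := Pl_lies (ExtCitation.pPrime p)
  have hord : OrdAt p (chiO p f) (rN (EW W) p f sd) :=
    RTE.rN_ordAt (EW W) p hWE f sd hns hp2 hbad hc₄
  have hordr : OrdAt p (chiO p f) (rbE (EW W) p f) := by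
    intro σ₀ hσ₀
    exact RTE.ordM_map p ((residue O).comp f) rfl
      (RTE.ordM_matE (EW W) p hWE hns hA hbad hc₄ hp2 hσ₀)
  have hdet : ∀ σ, (rbE (EW W) p f σ).det = residue O (chiO p f σ) := by
    intro σ
    rw [RTE.rbE_eq, ← RingHom.map_det, RTE.det_rE (EW W) p hWE f hns]
  obtain ⟨b⟩ := exists_bas hp2 (RTE.cycChar_chiO p f) hpO hdet hordr
  obtain ⟨φp, τp, hpair⟩ := ORD.exists_pair hA hp2
  obtain ⟨w, z, hline⟩ := RTE.rN_line (EW W) p hWE f sd hns hp2 hA hbad hc₄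
  obtain ⟨hz, hz2⟩ := bz_of_lineAt b (RTE.rN_red (EW W) p f sd) hline hpair.frob
  exact ⟨{
    b := b
    φ := φp
    τ := τp
    pair := hpair
    ord := hord
    z₀ := ((z φp : ℤ) : O)
    sq := hz2
    zpt := hz }⟩

end gen

end Fermat.Agent.RTM
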