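import Fermat.Agent.RTM.Eig
import Fermat.Agent.TW.HMod
import Fermat.Agent.RTan.OrdJ2

/-!
Modular levels: the points of the Hecke algebras.
-/

set_option autoImplicit false
set_option linter.unusedSectionVars false

noncomputable section

open scoped MatrixGroups
open CongruenceSubgroup CuspForm ModularCurve.Period IsLocalRing

namespace Fermat.Agent.RTM

open Fermat.Agent.HeckeHom Fermat.Agent.LocEll Fermat.Agent.TW Fermat.Agent.DefRing

variable {O : Type} [CommRing O] [IsDomain O] [IsDiscreteValuationRing O]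
  [IsAdicComplete (maximalIdeal O) O] [Finite (ResidueField O)] [CharZero O]
  {rbar : GQ →* M2 (ResidueField O)} {sd : SliceData rbar}

/-- `C` is the Hecke algebra of a module of level `Γ₀(n)`; the Hecke operators at the primes
dividing `m` are excluded. -/
structure IsLev (p n m : ℕ) [NeZero n] (C : RT8.Cpt sd) : Prop where
  free : Module.Free O C.T
  red : IsReduced C.T
  att : ∃ π : heckeAlgebra n 2 ((m.divisors : Finset ℕ) : Set ℕ) →+* C.T, IsAtt C.r π
  unr : UnrNp p n C.r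

section hrep

variable {p n m : ℕ} [NeZero n] {M : Type} [AddCommGroup M] [Module (TPoly m O) M] [Module O M]

/-- The Hecke algebras of Hecke modules are levels. -/
theorem IsLev.of_hrep (R : HRep (m := m) p n sd M) (hm : m ≠ 0)
    (hnm : ∀ q : ℕ, q.Prime → q ∣ n → q ∣ m) : IsLev p n m R.C where
  free := R.free
  red := R.red
  unr := R.unr
  att := by
    obtain ⟨f, hf, hfT, hf0⟩ := exists_polyHecke (n := n) hnm _ (coe_divisors hm)
    let π₀ : TPoly m ℤ →+* R.C.T := (R.φ : TPoly m O →+* R.C.T).comp (TWD.Shap.pz m O)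
    let f₀ : TPoly m ℤ →+* heckeAlgebra n 2 ((m.divisors : Finset ℕ) : Set ℕ) := f
    have hker : RingHom.ker f₀ ≤ RingHom.ker π₀ := by
      intro P hP
      have h1 : f P = 0 := hP
      rw [hf0] at h1
      rw [RingHom.mem_ker]
      exact R.rel hnm P h1
    let π : heckeAlgebra n 2 ((m.divisors : Finset ℕ) : Set ℕ) →+* R.C.T :=
      f₀.liftOfSurjective hf ⟨π₀, hker⟩
    have hπ : ∀ P, π (f P) = R.φ (TWD.Shap.pz m O P) := fun P =>
      RingHom.liftOfRightInverse_comp_apply _ _ _ ⟨π₀, hker⟩ P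
    refine ⟨π, fun l hl hlN hlS B hB τ hτ => ?_⟩
    have hlm : ¬ l ∣ m := fun h => hlS (by
      rw [coe_divisors hm]
      exact h)
    rw [← hfT l hl hlN hlS hlm, hπ, MvPolynomial.map_X]
    exact R.tr ⟨l, hl, hlm⟩ B hB τ hτ

end hrep

variable {p n m : ℕ} [NeZero n] {C : RT8.Cpt sd} (h : IsLev p n m C)

include h in
/-- Frobenius determinants -/
theorem IsLev.det_frob (hm : m ≠ 0) (hnm : ∀ q : ℕ, q.Prime → q ∣ n → q ∣ m) {s : ℕ}
    (hs : s.Prime) (hsm : ¬ s ∣ m) (B : ValuationSubring (AlgebraicClosure ℚ))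
    (hB : B.LiesOverPrime s) (τ : GQ) (hτ : B.IsFrobeniusAt τ s) : (C.r τ).det = (s : C.T) := by
  obtain ⟨π, hπ⟩ := h.att
  exact (hπ s hs (fun h => hsm (hnm s hs h))
    (fun h => hsm (Nat.mem_divisors.mp (Finset.mem_coe.mp h)).1) B hB τ hτ).2

include h in
/-- **Points**: every point of the Hecke algebra comes from an eigenvector of level `Γ₀(n)`. -/
theorem IsLev.pts (hm : m ≠ 0) (hnm : ∀ q : ℕ, q.Prime → q ∣ n → q ∣ m) {E : Type} [Field E]
    [CharZero E] (f : C.T →+* E) (a : ℕ → E)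
    (ha : ∀ s : ℕ, s.Prime → ¬ s ∣ m → ∀ B : ValuationSubring (AlgebraicClosure ℚ),
      B.LiesOverPrime s → ∀ τ : GQ, B.IsFrobeniusAt τ s → f (C.r τ).trace = a s) :
    ∃ φ : parabolicHoms E (Gamma0 n) E, φ ≠ 0 ∧ φ ∈ VE E n m a := by
  obtain ⟨π, hπ⟩ := h.att
  refine exists_VE hm hnm (f.comp π) a fun s hs hsn hsS => ?_
  have hsm : ¬ s ∣ m := fun h => hsS (Finset.mem_coe.mpr (Nat.mem_divisors.mpr ⟨h, hm⟩))
  have hB : (TWP.Pl ⟨s, hs⟩).LiesOverPrime s := TWP.Pl_lies ⟨s, hs⟩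
  obtain ⟨τ, hτ⟩ := Frob.exists_isFrobeniusAt (L := AlgebraicClosure ℚ) hs hB
  rw [← ha s hs hsm _ hB τ hτ, (hπ s hs hsn hsS _ hB τ hτ).1]
  rfl

include h in
/-- the eigenvalues of a point -/
theorem IsLev.exists_a (hm : m ≠ 0) (hnm : ∀ q : ℕ, q.Prime → q ∣ n → q ∣ m) {E : Type} [Field E]
    (f : C.T →+* E) : ∃ a : ℕ → E, ∀ s : ℕ, s.Prime → ¬ s ∣ m →
      ∀ B : ValuationSubring (AlgebraicClosure ℚ),
      B.LiesOverPrime s → ∀ τ : GQ, B.IsFrobeniusAt τ s → f (C.r τ).trace = a s := by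
  classical
  obtain ⟨π, hπ⟩ := h.att
  have h1 : ∀ s : ℕ, s.Prime → ¬ s ∣ m → ¬ s ∣ n ∧ s ∉ ((m.divisors : Finset ℕ) : Set ℕ) :=
    fun s hs hsm => ⟨fun h => hsm (hnm s hs h),
      fun h => hsm (Nat.mem_divisors.mp (Finset.mem_coe.mp h)).1⟩
  refine ⟨fun s => if h : s.Prime ∧ ¬ s ∣ m then
    f (π (heckeAlgebra.T h.1 (h1 s h.1 h.2).1 (h1 s h.1 h.2).2)) else 0,
    fun s hs hsm B hB τ hτ => ?_⟩
  simp only [dif_pos (And.intro hs hsm)]
  rw [(hπ s hs (h1 s hs hsm).1 (h1 s hs hsm).2 B hB τ hτ).1]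

end Fermat.Agent.RTM
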