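import Fermat.Agent.RTM.Lev
import Fermat.Agent.RTan.UP
import Fermat.Agent.RTan.FT
import Fermat.Agent.TWDeg.LocNewPf

/-!
Ordinarity at `p` of the modular levels.
-/

set_option autoImplicit false
set_option linter.unusedSectionVars false

noncomputable section

open scoped MatrixGroups
open CongruenceSubgroup CuspForm ModularCurve.Period IsLocalRing Matrix

namespace Fermat.Agent.RTM

open Fermat.Agent.HeckeHom Fermat.Agent.LocEll Fermat.Agent.TW Fermat.Agent.DefRing
  Fermat.Agent.LocRing Fermat.Agent.RTan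
open Fermat.Agent.TWP (Pl Pl_lies Qb)
open Fermat.Agent.TWDeg (eigSp)
open Fermat.Agent.ORD (Pair)

section line

variable {O : Type} [CommRing O] {χ : GQ → O} {k : Type} [Field k] [Algebra O k]

/-- the line of a triangular representation -/
theorem resLine_of_tri {B : ValuationSubring Qb} {r : GQ →* M2 k} {g : M2 k}
    (hg : IsUnit g.det) (h : Tri B χ (cj g hg r)) : ResLine B r := by
  have hgg : g * g⁻¹ = 1 := Matrix.mul_nonsing_inv _ hg
  have hgg' : g⁻¹ * g = 1 := Matrix.nonsing_inv_mul _ hg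
  have hr : ∀ σ, r σ * g = g * cj g hg r σ := by
    intro σ
    show r σ * g = g * (g⁻¹ * r σ * g)
    rw [← mul_assoc, ← mul_assoc, hgg, one_mul]
  have key : ∀ (σ : GQ) (u : Fin 2 → k), r σ *ᵥ (g *ᵥ u) = g *ᵥ (cj g hg r σ *ᵥ u) := by
    intro σ u
    rw [mulVec_mulVec, mulVec_mulVec, hr]
  refine ⟨g *ᵥ Pi.single 0 1, ?_, fun s hs => ⟨cj g hg r s 0 0, ?_⟩, fun s hs u =>
    ⟨((cj g hg r s - 1) *ᵥ (g⁻¹ *ᵥ u)) 0, ?_⟩⟩
  · intro h0
    have h1 : g⁻¹ *ᵥ (g *ᵥ (Pi.single 0 1 : Fin 2 → k)) = 0 := by rw [h0, mulVec_zero]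
    rw [mulVec_mulVec, hgg', one_mulVec] at h1
    have h2 := congrFun h1 0
    simp at h2
  · rw [key, ← mulVec_smul]
    congr 1
    ext i
    fin_cases i
    · simp
    · have h1 := h.low s hs
      simp [h1]
  · have h1 : r s *ᵥ u - u = g *ᵥ ((cj g hg r s - 1) *ᵥ (g⁻¹ *ᵥ u)) := by
      have e1 : u = g *ᵥ (g⁻¹ *ᵥ u) := by rw [mulVec_mulVec, hgg, one_mulVec]
      calc r s *ᵥ u - u = r s *ᵥ (g *ᵥ (g⁻¹ *ᵥ u)) - g *ᵥ (g⁻¹ *ᵥ u) := by rw [← e1]
        _ = g *ᵥ (cj g hg r s *ᵥ (g⁻¹ *ᵥ u)) - g *ᵥ (g⁻¹ *ᵥ u) := by rw [key]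
        _ = _ := by rw [← mulVec_sub, sub_mulVec, one_mulVec]
    rw [h1, ← mulVec_smul]
    congr 1
    ext i
    fin_cases i
    · simp
    · have h2 := h.low s (inertia_le_decomp hs)
      have h3 := h.quo s hs
      simp [Matrix.mulVec, dotProduct, Fin.sum_univ_two, h2, h3]

end line

section res

variable {O : Type} [CommRing O] [IsDomain O] [IsDiscreteValuationRing O]
  [IsAdicComplete (maximalIdeal O) O] [Finite (ResidueField O)] [CharZero O]
  {rbar : GQ →* M2 (ResidueField O)}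

variable {A : Type} [CommRing A] [IsLocalRing A] [Algebra O A] [IsLocalHom (algebraMap O A)]

/-- the map of residue fields -/
def resHom (O A : Type) [CommRing O] [IsLocalRing O] [CommRing A] [IsLocalRing A] [Algebra O A]
    [IsLocalHom (algebraMap O A)] : ResidueField O →ₐ[O] ResidueField A :=
  { ResidueField.map (algebraMap O A) with
    commutes' := fun o => ResidueField.map_residue (algebraMap O A) o }

theorem resHom_residue (o : O) : resHom O A (residue O o) = residue A (algebraMap O A o) :=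
  ResidueField.map_residue (algebraMap O A) o

/-- the residual representation of a lift -/
theorem mapRep_residue {ρ : GQ →* M2 A} (h : Red rbar ρ) :
    mapRep (residue A) ρ = mapRep (resHom O A : ResidueField O →+* ResidueField A) rbar := by
  refine MonoidHom.ext fun σ => Matrix.ext fun i j => ?_
  obtain ⟨o, ho⟩ := residue_surjective (R := O) (rbar σ i j)
  have h1 := h σ i j o ho
  rw [← residue_eq_zero_iff, map_sub, sub_eq_zero] at h1
  rw [mapRep_apply, mapRep_apply, ← ho, h1]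
  exact (resHom_residue o).symm

/-- spanning is preserved by field extensions -/
theorem span_map {k k' : Type} [Field k] [Field k'] (f : k →+* k') (r : GQ →* M2 k)
    (h : Submodule.span k (Set.range r) = ⊤) :
    Submodule.span k' (Set.range (mapRep f r)) = ⊤ := by
  have h1 : ∀ X : M2 k, X.map f ∈ Submodule.span k' (Set.range (mapRep f r)) := by
    intro X
    have hX : X ∈ Submodule.span k (Set.range r) := by rw [h]; trivial
    induction hX using Submodule.span_induction with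
    | mem x hx =>
      obtain ⟨σ, rfl⟩ := hx
      exact Submodule.subset_span ⟨σ, rfl⟩
    | zero =>
      rw [Matrix.map_zero f (map_zero f)]
      exact Submodule.zero_mem _
    | add x y _ _ hx hy =>
      rw [Matrix.map_add f (fun a b => map_add f a b)]
      exact Submodule.add_mem _ hx hy
    | smul c x _ hx =>
      have e1 : (c • x).map f = f c • x.map f := Matrix.ext fun i j => map_mul f c (x i j)
      rw [e1]
      exact Submodule.smul_mem _ _ hx
  rw [eq_top_iff]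
  intro Y _
  have h2 : Y = ∑ i, ∑ j, Y i j • (Matrix.single i j (1 : k)).map f := by
    conv_lhs => rw [Matrix.matrix_eq_sum_single Y]
    refine Finset.sum_congr rfl fun i _ => Finset.sum_congr rfl fun j _ => ?_
    rw [Matrix.map_single, map_one, Matrix.smul_single, smul_eq_mul, mul_one]
  rw [h2]
  exact Submodule.sum_mem _ fun i _ => Submodule.sum_mem _ fun j _ =>
    Submodule.smul_mem _ _ (h1 _)

/-- the residual line of a lift of an ordinary residual representation -/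
theorem resLine_lift {p : ℕ} [hp : Fact p.Prime] {χ : GQ → O} (b : Bas p χ rbar)
    (hord : OrdAt p χ rbar) (hdet : ∀ σ, (rbar σ).det = residue O (χ σ)) {ρ : GQ →* M2 A}
    (h : Red rbar ρ) : ResLine (Pl (ExtCitation.pPrime p)) (mapRep (residue A) ρ) := by
  rw [mapRep_residue h]
  have h1 : OrdAt p χ (mapRep (resHom O A : ResidueField O →+* ResidueField A) rbar) :=
    OrdAt.map (resHom O A) hord
  have hu : IsUnit (b.g rbar).det := isUnit_iff_ne_zero.mpr b.det
  have hg : IsUnit (b.g (mapRep (resHom O A : ResidueField O →+* ResidueField A) rbar)).det := by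
    rw [← b.g_map (resHom O A) rbar]
    have e1 : ((b.g rbar).map (resHom O A)).det = resHom O A (b.g rbar).det :=
      (RingHom.map_det (resHom O A : ResidueField O →+* ResidueField A) (b.g rbar)).symm
    rw [e1]
    exact hu.map _
  refine resLine_of_tri (χ := χ) hg ((h1 b.σ₀ b.mem).tri (χ := χ) b.inv b.mem (fun σ => ?_) hg)
  have e1 : (mapRep (resHom O A : ResidueField O →+* ResidueField A) rbar σ).det =
      resHom O A (rbar σ).det :=
    (RingHom.map_det (resHom O A : ResidueField O →+* ResidueField A) (rbar σ)).symm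
  rw [e1, hdet]
  exact (resHom O A).commutes _

end res

section lev

variable {O : Type} [CommRing O] [IsDomain O] [IsDiscreteValuationRing O]
  [IsAdicComplete (maximalIdeal O) O] [Finite (ResidueField O)] [CharZero O]
  {rbar : GQ →* M2 (ResidueField O)} {sd : SliceData rbar} {p n m : ℕ} [hp : Fact p.Prime]
  [NeZero n] {C : RT8.Cpt sd}

section pt

variable {f : C.T →ₐ[O] EE O} (P : LPt n m C f)

/-- the representation of a point -/
abbrev LPt.rep : GQ →* M2 P.pt.A := mapRep (P.pt.χ : C.T →+* P.pt.A) C.r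

theorem LPt.red : Red rbar P.rep :=
  C.red.map P.pt.χ (isLocalHom_of_algHom P.pt.χ)

theorem LPt.ha' (h : IsLev p n m C) (hm : m ≠ 0) (hnm : ∀ q : ℕ, q.Prime → q ∣ n → q ∣ m) :
    ∀ s : ℕ, s.Prime → ¬ s ∣ m → ∀ B : ValuationSubring Qb,
      B.LiesOverPrime s → ∀ τ : GQ, B.IsFrobeniusAt τ s →
        (P.ι : P.pt.A →+* EE O) (P.rep τ).trace = P.a s ∧ (P.rep τ).det = (s : P.pt.A) := by
  intro s hs hsm B hB τ hτ
  refine ⟨P.ha s hs hsm B hB τ hτ, ?_⟩
  have e1 : (P.rep τ).det = P.pt.χ (C.r τ).det :=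
    (RingHom.map_det (P.pt.χ : C.T →+* P.pt.A) (C.r τ)).symm
  rw [e1, h.det_frob hm hnm hs hsm B hB τ hτ, map_natCast]

theorem LPt.line {B : ValuationSubring Qb} {z : EE O}
    (h : HasLine p B (mapRep (P.ι : P.pt.A →+* EE O) P.rep) z) :
    HasLine p B (mapRep (f : C.T →+* EE O) C.r) z := by
  have e1 : mapRep (P.ι : P.pt.A →+* EE O) P.rep = mapRep (f : C.T →+* EE O) C.r :=
    MonoidHom.ext fun σ => Matrix.ext fun i j => P.eq (C.r σ i j)
  rwa [e1] at h

theorem LPt.span (hspan : Submodule.span (ResidueField O) (Set.range rbar) = ⊤) :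
    Submodule.span (ResidueField P.pt.A) (Set.range (mapRep (residue P.pt.A) P.rep)) = ⊤ := by
  rw [mapRep_residue P.red]
  exact span_map _ _ hspan

end pt

theorem resHom_injective {A : Type} [CommRing A] [IsLocalRing A] [Algebra O A]
    [IsLocalHom (algebraMap O A)] : Function.Injective (resHom O A) :=
  (resHom O A : ResidueField O →+* ResidueField A).injective

/-- residual determinants -/
theorem det_rbar {T : Type} [CommRing T] [IsLocalRing T] [Algebra O T]
    [IsLocalHom (algebraMap O T)] {χ : GQ → O} {r : GQ →* M2 T} (hr : Red rbar r)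
    (hdet : ∀ σ, (r σ).det = algebraMap O T (χ σ)) (σ : GQ) :
    (rbar σ).det = residue O (χ σ) := by
  apply resHom_injective (A := T)
  have e1 : (mapRep (resHom O T : ResidueField O →+* ResidueField T) rbar σ).det =
      resHom O T (rbar σ).det :=
    (RingHom.map_det (resHom O T : ResidueField O →+* ResidueField T) (rbar σ)).symm
  rw [← e1, ← mapRep_residue hr, resHom_residue, ← hdet]
  exact (RingHom.map_det (residue T) (r σ)).symm

/-- the residual eigenvalue -/
theorem residue_z {T : Type} [CommRing T] [IsLocalRing T] [Algebra O T]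
    [IsLocalHom (algebraMap O T)] {χ : GQ → O} {r : GQ →* M2 T} (hr : Red rbar r)
    (b : Bas p χ rbar) (φ : GQ) : residue T (b.z r φ) = resHom O T (b.z rbar φ) := by
  have h1 := b.map_z (IsScalarTower.toAlgHom O T (ResidueField T)) r (b.isUnit_det hr) φ
  have h2 := b.map_z (resHom O T) rbar (isUnit_iff_ne_zero.mpr b.det) φ
  rw [h2, ← mapRep_residue hr]
  exact h1

theorem z_sub_mem' {T : Type} [CommRing T] [IsLocalRing T] [Algebra O T]
    [IsLocalHom (algebraMap O T)] {χ : GQ → O} {r : GQ →* M2 T} (hr : Red rbar r)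
    (b : Bas p χ rbar) {φ : GQ} {z₀ : O} (hz : b.z rbar φ = residue O z₀) :
    b.z r φ - algebraMap O T z₀ ∈ maximalIdeal T := by
  rw [← residue_eq_zero_iff, map_sub, residue_z hr b, hz, resHom_residue, sub_self]

/-- the residual eigenvalue, from a lift -/
theorem z_rbar {T : Type} [CommRing T] [IsLocalRing T] [Algebra O T]
    [IsLocalHom (algebraMap O T)] {χ : GQ → O} {r : GQ →* M2 T} (hr : Red rbar r)
    (b : Bas p χ rbar) {φ : GQ} {z₀ : O} (hz : b.z r φ = algebraMap O T z₀) :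
    b.z rbar φ = residue O z₀ := by
  apply resHom_injective (A := T)
  rw [← residue_z hr b, hz, resHom_residue]

/-- residual ordinarity, from a lift -/
theorem ordAt_rbar {T : Type} [CommRing T] [IsLocalRing T] [Algebra O T]
    [IsLocalHom (algebraMap O T)] {χ : GQ → O} {r : GQ →* M2 T} (hr : Red rbar r)
    (hord : OrdAt p χ r) : OrdAt p χ rbar := by
  have h1 : OrdAt p χ (mapRep (IsScalarTower.toAlgHom O T (ResidueField T) :
      T →+* ResidueField T) r) := OrdAt.map (IsScalarTower.toAlgHom O T (ResidueField T)) hord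
  have e1 : mapRep (IsScalarTower.toAlgHom O T (ResidueField T) : T →+* ResidueField T) r =
      mapRep (resHom O T : ResidueField O →+* ResidueField T) rbar := mapRep_residue hr
  rw [e1] at h1
  intro σ₀ hσ₀
  constructor
  · intro σ hσ
    refine Matrix.ext fun i j => resHom_injective (A := T) ?_
    have h2 := congrFun (congrFun (stab_map (e := χ σ₀) (σ₀ := σ₀) (resHom O T) rbar σ) i) j
    rw [(h1 σ₀ hσ₀).stab σ hσ] at h2
    exact h2.trans (map_zero (resHom O T)).symm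
  · intro σ hσ
    refine Matrix.ext fun i j => resHom_injective (A := T) ?_
    have h2 := congrFun (congrFun (quot_map (e := χ σ₀) (σ₀ := σ₀) (resHom O T) rbar σ) i) j
    rw [(h1 σ₀ hσ₀).quot σ hσ] at h2
    exact h2.trans (map_zero (resHom O T)).symm

variable (h : IsLev p n m C) (hp2 : p ≠ 2) (hpO : (p : O) ∈ maximalIdeal O) (hm : m ≠ 0)
  (hpm : p ∣ m) (hnm : ∀ q : ℕ, q.Prime → q ∣ n → q ∣ m) {χ : GQ → O} (hχ : CycChar p χ)
  (hspan : Submodule.span (ResidueField O) (Set.range rbar) = ⊤) (b : Bas p χ rbar)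
  (hord : OrdAt p χ rbar)

include h hp2 hpO hm hpm hnm hχ hspan b hord in
/-- the line at `p`, when the eigensystem occurs in a level prime to `p` -/
theorem IsLev.line_old (hu2 : U2) {f : C.T →ₐ[O] EE O} (P : LPt n m C f) {n' : ℕ} [NeZero n']
    (hpn' : ¬ p ∣ n') (hn'm : ∀ q : ℕ, q.Prime → q ∣ n' → q ∣ m) {a : ℕ → EE O}
    (ha : ∀ s : ℕ, s.Prime → ¬ s ∣ m → a s = P.a s) (hne : eigSp (EE O) m n' a ≠ ⊥) :
    ∃ z : EE O, HasLine p (Pl (ExtCitation.pPrime p)) (mapRep (f : C.T →+* EE O) C.r) z ∧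
      ∀ ψ ∈ eigSp (EE O) m n' a, z • heckeHom hp.out hpn' (EE O) ψ =
        (z ^ 2 + (p : EE O)) • ψ := by
  have hdet := h.det hpO hm hnm hχ
  obtain ⟨z, hz, hz'⟩ := hu2 p hp2 m n' hm hpm hn'm hpn' (EE O) a P.pt.A (p_mem_A hpO P.pt)
    (P.ι : P.pt.A →+* EE O) P.inj P.rep P.cont
    (fun s hs hsm B hB τ hτ => by
      rw [ha s hs hsm]
      exact P.ha' h hm hnm s hs hsm B hB τ hτ) (P.span hspan) hne
    (Pl (ExtCitation.pPrime p)) (Pl_lies (ExtCitation.pPrime p))
    (resLine_lift b hord (det_rbar C.red hdet) P.red)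
  exact ⟨z, P.line hz, hz'⟩

include h hp2 hpO hm hpm hnm hspan in
/-- the line at `p`, when the eigensystem is new at `p` -/
theorem IsLev.line_new (hu1 : U1) {f : C.T →ₐ[O] EE O} (P : LPt n m C f) {n' : ℕ} [NeZero n']
    (hpn' : ¬ p ∣ n') (hn'm : ∀ q : ℕ, q.Prime → q ∣ n' → q ∣ m) {a : ℕ → EE O}
    (ha : ∀ s : ℕ, s.Prime → ¬ s ∣ m → a s = P.a s)
    (hdim : 2 * Module.finrank (EE O) (eigSp (EE O) m n' a) <
      Module.finrank (EE O) (eigSp (EE O) m (n' * p) a)) :
    ∃ z : EE O, HasLine p (Pl (ExtCitation.pPrime p)) (mapRep (f : C.T →+* EE O) C.r) z ∧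
      z ^ 2 = 1 := by
  obtain ⟨z, hz, hz'⟩ := hu1 p hp2 m n' hm hpm (fun q hq hqn => by
      rcases (Nat.Prime.dvd_mul hq).mp hqn with h1 | h1
      · exact hn'm q hq h1
      · rw [(Nat.prime_dvd_prime_iff_eq hq hp.out).mp h1]; exact hpm) hpn' (EE O) a P.pt.A
    (p_mem_A hpO P.pt) (P.ι : P.pt.A →+* EE O) P.inj P.rep P.cont
    (fun s hs hsm B hB τ hτ => by
      rw [ha s hs hsm]
      exact P.ha' h hm hnm s hs hsm B hB τ hτ) (P.span hspan) hdim
    (Pl (ExtCitation.pPrime p)) (Pl_lies (ExtCitation.pPrime p))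
  exact ⟨z, P.line hz, hz'⟩

omit [NeZero n] in
theorem eigSp_ne_bot_of_VE {a : ℕ → EE O}
    (h : ∃ φ : parabolicHoms (EE O) (Gamma0 n) (EE O), φ ≠ 0 ∧ φ ∈ VE (EE O) n m a) :
    eigSp (EE O) m n a ≠ ⊥ := by
  obtain ⟨φ, hφ0, hφ⟩ := h
  rw [Submodule.ne_bot_iff]
  exact ⟨(φ : Additive (Gamma0 n) →+ EE O), ⟨φ.2, fun s hs hsn hsm =>
    (LocEll.mem_VE.mp hφ) s hs hsn hsm⟩, fun h0 => hφ0 (Subtype.ext h0)⟩

include h hp2 hpO hm hpm hnm hχ hspan b hord in
/-- the line at `p` -/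
theorem IsLev.line (hu1 : U1) (hu2 : U2) (hp2n : ¬ p ^ 2 ∣ n) (f : C.T →ₐ[O] EE O) :
    ∃ z : EE O,
      HasLine p (Pl (ExtCitation.pPrime p)) (mapRep (f : C.T →+* EE O) C.r) z := by
  obtain ⟨P⟩ := h.exists_lpt hm hnm f
  have hne := eigSp_ne_bot_of_VE P.ne
  by_cases hpn : p ∣ n
  · obtain ⟨n', hn'⟩ := hpn
    rw [mul_comm] at hn'
    subst hn'
    have hpn' : ¬ p ∣ n' := fun h' => hp2n (by
      rw [pow_two]
      exact mul_dvd_mul_right h' p)
    have hn'0 : NeZero n' := ⟨fun h0 => NeZero.ne (n' * p) (by rw [h0, zero_mul])⟩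
    have hn'm : ∀ q : ℕ, q.Prime → q ∣ n' → q ∣ m := fun q hq hqn => hnm q hq (hqn.mul_right p)
    by_cases hb : eigSp (EE O) m n' P.a = ⊥
    · obtain ⟨z, hz, -⟩ := h.line_new hp2 hpO hm hpm hnm hspan hu1 P hpn' hn'm
        (a := P.a) (fun _ _ _ => rfl) (by
          rw [hb, finrank_bot, mul_zero]
          have h1 : Nontrivial (eigSp (EE O) m (n' * p) P.a) :=
            (Submodule.nontrivial_iff_ne_bot).mpr hne
          exact Module.finrank_pos (R := EE O) (M := eigSp (EE O) m (n' * p) P.a))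
      exact ⟨z, hz⟩
    · obtain ⟨z, hz, -⟩ := h.line_old hp2 hpO hm hpm hnm hχ hspan b hord hu2 P hpn' hn'm
        (a := P.a) (fun _ _ _ => rfl) hb
      exact ⟨z, hz⟩
  · obtain ⟨z, hz, -⟩ := h.line_old hp2 hpO hm hpm hnm hχ hspan b hord hu2 P hpn hnm
      (a := P.a) (fun _ _ _ => rfl) hne
    exact ⟨z, hz⟩

include h hp2 hpO hm hpm hnm hχ hspan b hord in
/-- **Ordinarity of the modular levels.** -/
theorem IsLev.ordAt (hu1 : U1) (hu2 : U2) (hp2n : ¬ p ^ 2 ∣ n) : OrdAt p χ C.r := by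
  have h1 := h.free
  have h2 := h.red
  exact ordAt_of_pts algebraMap_EE_injective (h.det hpO hm hnm hχ)
    (h.line hp2 hpO hm hpm hnm hχ hspan b hord hu1 hu2 hp2n)

include h hp2 hpO hm hpm hnm hχ hspan b hord in
/-- **The monodromy element acts trivially in the levels prime to `p`.** -/
theorem IsLev.tau_eq_one (hu1 : U1) (hu2 : U2) (hpn : ¬ p ∣ n) {φ τ : GQ}
    (hpair : Pair p (Pl (ExtCitation.pPrime p)) φ τ) : C.r τ = 1 := by
  have := isNoetherianRing_T C
  refine RTan.tau_eq_one hp2 hpO hχ b C.red (h.det hpO hm hnm hχ)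
    (h.ordAt hp2 hpO hm hpm hnm hχ hspan b hord hu1 hu2 fun h' => hpn ?_)
    (h.flatM hpO hm hnm hp2 hpn hpm hspan) hpair
  exact (dvd_pow_self p two_ne_zero).trans h'

omit hp in
theorem two_ne_zero_res (hp : p.Prime) (hp2 : p ≠ 2) (hpO : (p : O) ∈ maximalIdeal O) :
    (2 : ResidueField O) ≠ 0 := by
  intro h2
  obtain ⟨k, hk⟩ := hp.odd_of_ne_two hp2
  have h3 : (p : ResidueField O) = 0 := by
    rw [← map_natCast (residue O), residue_eq_zero_iff]
    exact hpO
  rw [hk] at h3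
  push_cast at h3
  rw [h2, zero_mul, zero_add] at h3
  exact one_ne_zero h3

include h hp2 hpO hm hpm hnm hspan in
/-- **The eigenvalue of Frobenius at the points new at `p`.** -/
theorem IsLev.z_new (hu1 : U1) {φ : GQ} (hφ : (Pl (ExtCitation.pPrime p)).IsFrobeniusAt φ p)
    {z₀ : O} (hz₀ : z₀ ^ 2 = 1) (hres : b.z rbar φ = residue O z₀) {n' : ℕ} [NeZero n']
    (hpn' : ¬ p ∣ n') (hn'm : ∀ q : ℕ, q.Prime → q ∣ n' → q ∣ m) (f : C.T →ₐ[O] EE O)
    {a : ℕ → EE O} (ha : ∀ s : ℕ, s.Prime → ¬ s ∣ m → ∀ B : ValuationSubring Qb,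
      B.LiesOverPrime s → ∀ τ : GQ, B.IsFrobeniusAt τ s → f (C.r τ).trace = a s)
    (hdim : 2 * Module.finrank (EE O) (eigSp (EE O) m n' a) <
      Module.finrank (EE O) (eigSp (EE O) m (n' * p) a)) :
    f (b.z C.r φ) = algebraMap O (EE O) z₀ := by
  obtain ⟨P⟩ := h.exists_lpt hm hnm f
  have ha' : ∀ s : ℕ, s.Prime → ¬ s ∣ m → a s = P.a s := by
    intro s hs hsm
    obtain ⟨B, hB, τ, hτ⟩ := Frob.exists_liesOverPrime_isFrobeniusAt
      (L := AlgebraicClosure ℚ) hs
    rw [← ha s hs hsm B hB τ hτ, ← P.ha s hs hsm B hB τ hτ, trace_mapRep]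
    exact (P.eq _).symm
  obtain ⟨z, hz, hz1⟩ := h.line_new hp2 hpO hm hpm hnm hspan hu1 P hpn' hn'm ha' hdim
  have h1 : f (b.z C.r φ) = z := map_z_pt b C.red f hz hφ
  -- the element of the discrete valuation ring
  have h2 : P.pt.χ (b.z C.r φ) = b.z P.rep φ :=
    b.map_z P.pt.χ C.r (b.isUnit_det C.red) φ
  have h3 : b.z P.rep φ ^ 2 = 1 := by
    apply P.inj
    rw [map_pow, map_one, ← h2, P.eq, h1, hz1]
  have h4 : b.z P.rep φ = algebraMap O P.pt.A z₀ :=
    sign_eq (two_ne_zero_res hp.out hp2 hpO) h3 hz₀ (z_sub_mem' P.red b hres)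
  rw [← P.eq, h2, h4]
  exact P.ι.commutes z₀

include h hp2 hpO hm hpm hnm hχ hspan b hord in
/-- **The eigenvalue of Frobenius at the points of the levels prime to `p`.** -/
theorem IsLev.z_old (hu2 : U2) {φ : GQ} (hφ : (Pl (ExtCitation.pPrime p)).IsFrobeniusAt φ p)
    {n' : ℕ} [NeZero n'] (hpn' : ¬ p ∣ n') (hn'm : ∀ q : ℕ, q.Prime → q ∣ n' → q ∣ m)
    (f : C.T →ₐ[O] EE O)
    {a : ℕ → EE O} (ha : ∀ s : ℕ, s.Prime → ¬ s ∣ m → ∀ B : ValuationSubring Qb,
      B.LiesOverPrime s → ∀ τ : GQ, B.IsFrobeniusAt τ s → f (C.r τ).trace = a s)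
    {ψ : Additive (Gamma0 n') →+ EE O} (hψ : ψ ∈ eigSp (EE O) m n' a) (hψ0 : ψ ≠ 0) {c : EE O}
    (hc : heckeHom hp.out hpn' (EE O) ψ = c • ψ) :
    f (b.z C.r φ) ^ 2 - c * f (b.z C.r φ) + (p : EE O) = 0 := by
  obtain ⟨P⟩ := h.exists_lpt hm hnm f
  have ha' : ∀ s : ℕ, s.Prime → ¬ s ∣ m → a s = P.a s := by
    intro s hs hsm
    obtain ⟨B, hB, τ, hτ⟩ := Frob.exists_liesOverPrime_isFrobeniusAt
      (L := AlgebraicClosure ℚ) hs
    rw [← ha s hs hsm B hB τ hτ, ← P.ha s hs hsm B hB τ hτ, trace_mapRep]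
    exact (P.eq _).symm
  obtain ⟨z, hz, hz1⟩ := h.line_old hp2 hpO hm hpm hnm hχ hspan b hord hu2 P hpn' hn'm ha'
    (fun h0 => hψ0 (by
      rw [h0] at hψ
      exact (Submodule.mem_bot _).mp hψ))
  have h1 : f (b.z C.r φ) = z := map_z_pt b C.red f hz hφ
  have h2 := hz1 ψ hψ
  rw [hc, smul_smul] at h2
  have h3 : (z * c - (z ^ 2 + (p : EE O))) • ψ = 0 := by rw [sub_smul, h2, sub_self]
  rcases smul_eq_zero.mp h3 with h4 | h4
  · rw [h1]
    linear_combination -h4
  · exact absurd h4 hψ0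

end lev

end Fermat.Agent.RTM
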