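import Fermat.Agent.RTM.Supply

/-!
The patching systems of the modular levels, and the proof of modularity from the modular side
and the Galois side.
-/

set_option autoImplicit false
set_option linter.unusedSectionVars false

noncomputable section

namespace Fermat.Agent.RTM

open IsLocalRing Fermat.Agent.DefRing Fermat.Agent.RTan Fermat.Agent.LocRing
open Fermat.Agent.TWP (Pl Pl_lies Qb)
open Fermat.Agent.ORD (Pair)
open Fermat.Agent.TW (NonEis Loc HG)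

section mono

variable {O : Type} [CommRing O] [IsDomain O] [IsDiscreteValuationRing O] [CharZero O]
  {p : ℕ} [hp : Fact p.Prime] {W : WeierstrassCurve ℤ} {m : ℕ}
  (hm : m ≠ 0) (hpm : p ∣ m) (hpO : (p : O) ∈ maximalIdeal O) (hΔ : W.Δ ≠ 0)
  (hΔm : ∀ q : ℕ, q.Prime → (q : ℤ) ∣ W.Δ → q ∣ m)
  (hE : ∀ M : ℕ, M ≠ 0 → NonEis M (PP W m O))

include hm hpm hpO hΔ hΔm hE in
/-- monotonicity of the levels -/
theorem Ok.mul {N : ℕ} (h : Ok W p m N) {l : ℕ} (hl : l.Prime) (hlN : ¬ l ∣ N) (hlm : l ∣ m) :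
    Ok W p m (N * l) := by
  have hco : Nat.Coprime l N := (Nat.Prime.coprime_iff_not_dvd hl).mpr hlN
  have hdvd : N * l ∣ m := hco.symm.mul_dvd_of_dvd_of_dvd h.dvd hlm
  refine ⟨hdvd, (Nat.squarefree_mul hco.symm).mpr ⟨h.sqf, hl.squarefree⟩,
    h.two.imp_left fun h => h.mul_right l, ?_⟩
  refine res_of_nz W O hm hp.out hpO hΔ hdvd hE ?_
  exact nz_mul hl hco h.dvd hdvd (PP W m O) (nz_of_res W O hm hp.out hpm hpO hΔm h.dvd h.res)

end mono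

section lev

/-- the primes of the patching systems -/
abbrev LamP (p m : ℕ) : Type := ↥(m.primeFactors.erase p)

variable {p m : ℕ}

theorem LamP.prime (l : LamP p m) : (l.1).Prime :=
  Nat.prime_of_mem_primeFactors (Finset.mem_of_mem_erase l.2)

theorem LamP.ne (l : LamP p m) : l.1 ≠ p := Finset.ne_of_mem_erase l.2

theorem LamP.dvd (l : LamP p m) : l.1 ∣ m :=
  Nat.dvd_of_mem_primeFactors (Finset.mem_of_mem_erase l.2)

/-- the prime as an element of `Nat.Primes` -/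
def LamP.pr (l : LamP p m) : Nat.Primes := ⟨l.1, l.prime⟩

/-- constructor -/
def LamP.mk' (hm : m ≠ 0) {l : ℕ} (hl : l.Prime) (hlp : l ≠ p) (hlm : l ∣ m) : LamP p m :=
  ⟨l, Finset.mem_erase.mpr ⟨hlp, Nat.mem_primeFactors.mpr ⟨hl, hlm, hm⟩⟩⟩

/-- the level -/
def levN (S : Finset (LamP p m)) (b : Bool) : ℕ := (∏ l ∈ S, l.1) * (if b then p else 1)

theorem levN_insert {S : Finset (LamP p m)} {b : Bool} {l : LamP p m} (hl : l ∉ S) :
    levN (insert l S) b = levN S b * l.1 := by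
  rw [levN, levN, Finset.prod_insert hl]; ring

theorem levN_true (S : Finset (LamP p m)) : levN S true = levN S false * p := by
  rw [levN, levN]; simp

theorem levN_erase {S : Finset (LamP p m)} {b : Bool} {l : LamP p m} (hl : l ∈ S) :
    levN S b = levN (S.erase l) b * l.1 := by
  rw [← levN_insert (Finset.notMem_erase l S), Finset.insert_erase hl]

theorem dvd_levN_iff (hp : p.Prime) {S : Finset (LamP p m)} {b : Bool} {q : ℕ} (hq : q.Prime) :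
    q ∣ levN S b ↔ (∃ l ∈ S, l.1 = q) ∨ (b = true ∧ q = p) := by
  rw [levN, hq.dvd_mul, Prime.dvd_finsetProd_iff hq.prime]
  refine or_congr ⟨?_, ?_⟩ ?_
  · rintro ⟨l, hl, h⟩
    exact ⟨l, hl, ((Nat.prime_dvd_prime_iff_eq hq l.prime).mp h).symm⟩
  · rintro ⟨l, hl, rfl⟩
    exact ⟨l, hl, dvd_rfl⟩
  · cases b
    · simp [hq.one_lt.ne']
    · simp [Nat.prime_dvd_prime_iff_eq hq hp]

theorem not_dvd_levN (hp : p.Prime) {S : Finset (LamP p m)} {b : Bool} {l : LamP p m}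
    (hl : l ∉ S) : ¬ l.1 ∣ levN S b := by
  rw [dvd_levN_iff hp l.prime]
  rintro (⟨l', hl', h⟩ | ⟨-, h⟩)
  · exact hl (Subtype.ext h ▸ hl')
  · exact l.ne h

theorem dvd_levN {S : Finset (LamP p m)} {b : Bool} {l : LamP p m} (hl : l ∈ S) :
    l.1 ∣ levN S b := (Finset.dvd_prod_of_mem (fun l : LamP p m => l.1) hl).mul_right _

theorem levN_sqf (hp : p.Prime) (S : Finset (LamP p m)) (b : Bool) : Squarefree (levN S b) := by
  induction S using Finset.induction_on with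
  | empty =>
    rw [levN, Finset.prod_empty, one_mul]
    cases b
    · simp
    · simpa using hp.squarefree
  | insert l S hl ih =>
    rw [levN_insert hl, Nat.squarefree_mul]
    · exact ⟨ih, l.prime.squarefree⟩
    · exact ((Nat.Prime.coprime_iff_not_dvd l.prime).mpr (not_dvd_levN hp hl)).symm

theorem levN_dvd (hp : p.Prime) (hpm : p ∣ m) (S : Finset (LamP p m)) (b : Bool) :
    levN S b ∣ m := by
  induction S using Finset.induction_on with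
  | empty =>
    rw [levN, Finset.prod_empty, one_mul]
    cases b
    · simp
    · simpa using hpm
  | insert l S hl ih =>
    rw [levN_insert hl]
    exact ((Nat.Prime.coprime_iff_not_dvd l.prime).mpr
      (not_dvd_levN hp hl)).symm.mul_dvd_of_dvd_of_dvd ih l.dvd

/-- every squarefree divisor of `m` is a level -/
theorem exists_levN (hp : p.Prime) (hm : m ≠ 0) {N : ℕ} (hN : Squarefree N) (hNm : N ∣ m) {b : Bool}
    (hb : p ∣ N ↔ b = true) : ∃ S : Finset (LamP p m), levN S b = N := by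
  classical
  refine ⟨Finset.univ.filter fun l => l.1 ∣ N, ?_⟩
  rw [Nat.Squarefree.ext_iff (levN_sqf hp _ _) hN]
  intro q hq
  rw [dvd_levN_iff hp hq]
  constructor
  · rintro (⟨l, hl, rfl⟩ | ⟨h, rfl⟩)
    · exact (Finset.mem_filter.mp hl).2
    · exact hb.mpr h
  · intro h
    by_cases hqp : q = p
    · subst hqp
      exact Or.inr ⟨hb.mp h, rfl⟩
    · exact Or.inl ⟨LamP.mk' hm hq hqp (h.trans hNm), Finset.mem_filter.mpr
        ⟨Finset.mem_univ _, h⟩, rfl⟩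

end lev

section sys

variable {O : Type} [CommRing O] [IsDomain O] [IsDiscreteValuationRing O]
  [IsAdicComplete (maximalIdeal O) O] [Finite (ResidueField O)] [CharZero O]
  {rbar : GQ →* M2 (ResidueField O)} {sd : SliceData rbar} {p : ℕ} [hp : Fact p.Prime]
  {W : WeierstrassCurve ℤ} {χ : GQ → O} {m : ℕ} {G : Gal sd p W χ m} (M : Supply G)
  (hm : m ≠ 0) (hpm : p ∣ m) (hpO : (p : O) ∈ maximalIdeal O)
  (hΔm : ∀ q : ℕ, q.Prime → (q : ℤ) ∣ W.Δ → q ∣ m) (hχ : CycChar p χ)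

/-- the index set of the levels -/
abbrev KP (W : WeierstrassCurve ℤ) (p m : ℕ) (c : Bool) : Type :=
  {k : Finset (LamP p m) × Bool // Ok W p m (levN k.1 k.2) ∧ (k.2 = true → c = true)}

variable (G) in
include hpm in
theorem q_ne (n : ℕ) (i : Fin G.g) : (G.q n i : ℕ) ≠ p := fun h => G.avoid n i (by rw [h]; exact hpm)

variable (G) in
theorem coprime_Q {l : ℕ} (hl : l.Prime) (hlm : l ∣ m) (n : ℕ) : Nat.Coprime l (G.Q n) := by
  refine Nat.Coprime.prod_right fun i _ => (Nat.coprime_primes hl (G.q n i).2).mpr ?_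
  rintro rfl
  exact G.avoid n i hlm

variable (G) in
theorem Q_ne_zero (n : ℕ) : G.Q n ≠ 0 :=
  Finset.prod_ne_zero_iff.mpr fun i _ => (G.q n i).2.ne_zero

theorem Ok.not_sq {N : ℕ} (h : Ok W p m N) {l : ℕ} (hl : l.Prime) : ¬ l ^ 2 ∣ N := by
  intro h2
  rw [pow_two] at h2
  exact hl.one_lt.ne' (Nat.isUnit_iff.mp (h.sqf l h2))

variable (G) in
theorem Ok.not_sq' {N : ℕ} (h : Ok W p m N) (n : ℕ) {l : ℕ} (hl : l.Prime) (hlm : l ∣ m) :
    ¬ l ^ 2 ∣ N * G.Q n ^ 2 := by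
  intro h2
  exact h.not_sq hl (((coprime_Q G hl hlm n).pow 2 2).dvd_of_dvd_mul_right h2)

theorem Ok.mem {N : ℕ} (h : Ok W p m N) (q : ℕ) (_ : q.Prime) (hqN : q ∣ N) : q ∣ m :=
  hqN.trans h.dvd

variable (G) in
theorem Ok.mem' {N : ℕ} (h : Ok W p m N) (n : ℕ) (q : ℕ) (hq : q.Prime)
    (hqN : q ∣ N * G.Q n ^ 2) : q ∣ m * G.Q n := by
  rcases hq.dvd_mul.mp hqN with h1 | h1
  · exact (h.mem q hq h1).mul_right _
  · exact (hq.dvd_of_dvd_pow h1).mul_left _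

variable (G) in
theorem Ok.neZero' {N : ℕ} (h : Ok W p m N) (n : ℕ) : NeZero (N * G.Q n ^ 2) :=
  ⟨mul_ne_zero h.sqf.ne_zero (pow_ne_zero 2 (Q_ne_zero G n))⟩

/-- **The system of the modular levels.** -/
def Supply.sys (c : Bool) : RT8.MSys sd p G.g (LamP p m) (KP W p m c) where
  ℓ l := l.1
  φ l := G.φ l.pr
  τ l := G.τ l.pr
  pt := G.pt
  B k := M.B _ k.2.1
  P := G.P
  L n k := M.L n _ k.2.1
  ram k := k.1.1
  hpt l := G.pt_uni l.pr l.ne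
  hB k l := by
    have := k.2.1.neZero
    exact (M.levB _ k.2.1).isUni hpO hm k.2.1.mem hχ (k.2.1.not_sq l.prime) (G.tame l.pr l.ne)
  hL n k l := by
    have := k.2.1.neZero' G n
    exact (M.levL n _ k.2.1 _ rfl).isUni hpO (mul_ne_zero hm (Q_ne_zero G n)) (k.2.1.mem' G n) hχ
      (k.2.1.not_sq' G n l.prime l.dvd) (G.tame l.pr l.ne)
  hIpt n i := G.pt_good (G.q n i) (q_ne G hpm n i)
    (fun h => G.avoid n i (hΔm _ (G.q n i).2 h)) (Pl (G.q n i)) (Pl_lies _) _ (G.inert n i)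
  hram n k l hl := by
    have := k.2.1.neZero' G n
    refine (M.levL n _ k.2.1 _ rfl).unr l.1 l.prime ?_ l.ne (Pl l.pr) (Pl_lies l.pr) _
      (G.tame l.pr l.ne).mem
    intro h1
    rcases l.prime.dvd_mul.mp h1 with h2 | h2
    · exact not_dvd_levN hp.out hl h2
    · exact (Nat.Prime.coprime_iff_not_dvd l.prime).mp (coprime_Q G l.prime l.dvd n)
        (l.prime.dvd_of_dvd_pow h2)

/-- **The global data of the system.** -/
def Supply.tan (c : Bool) : MTan (M.sys hm hpm hpO hΔm hχ c) χ where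
  S := G.S
  hpS := G.hpS
  unrOut := G.unrOut
  rd := G.rd
  q := G.q
  τQ n i := (G.P n i).φ
  lev := id
  tw := G.tw
  ec := G.ec
  prime l := l.prime
  inj _ _ h := Subtype.ext h
  mem l := G.mem l.pr l.dvd
  tame l := G.tame l.pr l.ne
  det_pt := G.pt_det
  det n k σ := by
    have := k.2.1.neZero' G n
    exact (M.levL n _ k.2.1 _ rfl).det hpO (mul_ne_zero hm (Q_ne_zero G n)) (k.2.1.mem' G n) hχ σ
  unr_pt v hvp hv A hA σ hσ := by
    have hvp' : (v : ℕ) ≠ p := fun h => hvp (Subtype.ext h)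
    refine G.pt_good v hvp' (fun h => ?_) A hA σ hσ
    exact hv (LamP.mk' hm v.2 hvp' (hΔm _ v.2 h)) rfl
  unr n k v hvp hv hvQ A hA σ hσ := by
    have := k.2.1.neZero' G n
    have hvp' : (v : ℕ) ≠ p := fun h => hvp (Subtype.ext h)
    refine (M.levL n _ k.2.1 _ rfl).unr v v.2 (fun h1 => ?_) hvp' A hA σ hσ
    rcases v.2.dvd_mul.mp h1 with h2 | h2
    · exact hv (LamP.mk' hm v.2 hvp' (k.2.1.mem v v.2 h2)) rfl
    · obtain ⟨i, -, h3⟩ := (Prime.dvd_finsetProd_iff v.2.prime _).mp (v.2.dvd_of_dvd_pow h2)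
      exact hvQ i (Subtype.ext ((Nat.prime_dvd_prime_iff_eq v.2 (G.q n i).2).mp h3))

/-- absolute irreducibility -/
theorem span_of_rd {k : Type} [Field k] {r : GQ →* M2 k} (hr : TWP.RD p r) (hp2 : p ≠ 2) :
    Submodule.span k (Set.range r) = ⊤ := by
  have hne : NeZero (p ^ (0 + 1)) := ⟨(pow_pos hp.out.pos _).ne'⟩
  obtain ⟨ζ, hζ⟩ := HasEnoughRootsOfUnity.exists_primitiveRoot Qb (p ^ (0 + 1))
  have h1 := TWP.span_eq_top (r := r) (N := (hζ.autToPow ℚ).ker) (hr.nd hp.out hp2 0 hζ)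
  rw [eq_top_iff, ← h1]
  refine Submodule.span_mono ?_
  rintro _ ⟨g, rfl⟩
  exact ⟨g.1, rfl⟩

/-- the common input of the modularity theorems -/
structure Inp {g : ℕ} {Λ K : Type} [Fintype Λ] [DecidableEq Λ] [Finite K]
    (X : RT8.MSys sd p g Λ K) (l₂ : Λ) where
  κ : Finset Λ → K
  S₀ : Finset Λ
  hl₂ : l₂ ∈ S₀
  hram : ∀ S, S₀ ⊆ S → X.ram (κ S) = S
  hd : 0 < (X.B (κ S₀)).d
  hnew : ∀ l ∈ S₀, l ≠ l₂ → RT8.NewM X (κ S₀) l
  h2 : RT8.TwoM X (κ S₀) l₂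
  W : ∀ S, S₀ ⊆ S → ∀ l ∉ S, RT8.DegPM X (κ (insert l S)) (κ S) l

theorem Supply.deg' (M : Supply G) {l : Nat.Primes} (hlp : (l : ℕ) ≠ p) {N N' : ℕ}
    (h : Ok W p m N) (h' : Ok W p m N') (e : N' = N * l) (n : ℕ) :
    Nonempty (RT8.DegPT (M.L n N' h') (M.L n N h) (RT8.FrobsOut (m * G.Q n)) l (G.φ l)) := by
  subst e
  exact M.deg l hlp N h h' n

theorem Supply.newst' (M : Supply G) {l : Nat.Primes} (hlp : (l : ℕ) ≠ p) {N N' : ℕ}
    (h' : Ok W p m N') (e : N' = N * l) (h2 : 2 ∣ N ∨ 5 ≤ p)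
    (hN : ¬ W.IsResiduallyModularOfLevel p N) (n : ℕ) :
    ((M.L n N' h').C.r (G.φ l)).trace ^ 2 = (((l : ℕ) : (M.L n N' h').C.T) + 1) ^ 2 := by
  subst e
  exact M.newst l hlp N h' h2 hN n

theorem Supply.exact' (M : Supply G) {l : Nat.Primes} (hlp : (l : ℕ) ≠ p) (hl2 : (l : ℕ) ≠ 2)
    {N N' : ℕ} (h' : Ok W p m N') (e : N' = N * l) (h2 : 2 ∣ N)
    (hN : ¬ W.IsResiduallyModularOfLevel p N) :
    RT8.ExactM (M.B N' h') ((M.B N' h').C.r (G.τ l) - 1) := by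
  subst e
  exact M.exact l hlp hl2 N h' h2 hN

theorem Supply.newp' (M : Supply G) (P : GalP G) (hτ : rbar P.τ = 1) {N N' : ℕ}
    (h' : Ok W p m N') (e : N' = N * p)
    (hN : ¬ W.IsResiduallyModularOfLevel p N) (n : ℕ) (x : (M.L n N' h').M) :
    (P.b.z (M.L n N' h').C.r P.φ - algebraMap O _ P.z₀) • x = 0 := by
  subst e
  exact M.newp P hτ N h' hN n x

theorem Supply.degp' (M : Supply G) (P : GalP G) (hτ : rbar P.τ = 1) {N N' : ℕ}
    (h : Ok W p m N) (h' : Ok W p m N') (e : N' = N * p) (n : ℕ) :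
    (M.L n N h).C.r P.τ = 1 ∧ Nonempty (DegZ (M.L n N' h') (M.L n N h)
      (RT8.FrobsOut (m * G.Q n)) P.b P.φ P.z₀) := by
  subst e
  exact M.degp P hτ N h h' n

/-- degeneracy data in the system -/
theorem Supply.degPM (hp2 : p ≠ 2) {c : Bool} {k k' : KP W p m c} {l : LamP p m}
    (e : levN k.1.1 k.1.2 = levN k'.1.1 k'.1.2 * l.1) :
    Nonempty (RT8.DegPM (M.sys hm hpm hpO hΔm hχ c) k k' l) :=
  ⟨RT8.DegPT.toDegPM (M.sys hm hpm hpO hΔm hχ c)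
    (fun n => (M.deg' (l := l.pr) l.ne k'.2.1 k.2.1 e n).some) (span_of_rd G.rd hp2)
    fun n => mul_ne_zero hm (Q_ne_zero G n)⟩

include hm hpm hpO hΔm in
/-- the set of the levels is monotone -/
theorem ok_union (hΔ : W.Δ ≠ 0) (hE : ∀ M : ℕ, M ≠ 0 → NonEis M (PP W m O)) {S : Finset (LamP p m)}
    {b : Bool} (h : Ok W p m (levN S b)) (T : Finset (LamP p m)) :
    Ok W p m (levN (T ∪ S) b) := by
  induction T using Finset.induction_on with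
  | empty => rwa [Finset.empty_union]
  | insert l T _ ih =>
    rw [Finset.insert_union]
    by_cases hl : l ∈ T ∪ S
    · rwa [Finset.insert_eq_of_mem hl]
    · rw [levN_insert hl]
      exact ih.mul hm hpm hpO hΔ hΔm hE l.prime (not_dvd_levN hp.out hl) l.dvd

include hm hpm hpO hΔm in
theorem ok_mono (hΔ : W.Δ ≠ 0) (hE : ∀ M : ℕ, M ≠ 0 → NonEis M (PP W m O))
    {S T : Finset (LamP p m)} {b : Bool} (h : Ok W p m (levN S b)) (hST : S ⊆ T) :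
    Ok W p m (levN T b) := by
  have h1 := ok_union hm hpm hpO hΔm hΔ hE h T
  rwa [Finset.union_eq_left.mpr hST] at h1

include hpO in
theorem isUnit_nat {k : ℕ} (hk : Nat.Coprime k p) : IsUnit (k : O) := by
  by_contra h
  have h1 : (k : O) ∈ maximalIdeal O := h
  obtain ⟨a, b, hab⟩ := Nat.isCoprime_iff_coprime.mpr hk
  have h2 := congrArg (fun z : ℤ => (z : O)) hab
  push_cast at h2
  have h3 : (1 : O) ∈ maximalIdeal O := by
    rw [← h2]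
    exact Ideal.add_mem _ (Ideal.mul_mem_left _ _ h1) (Ideal.mul_mem_left _ _ hpO)
  exact (maximalIdeal.isMaximal O).ne_top ((Ideal.eq_top_iff_one _).mpr h3)

include hpO in
theorem numC (hp2 : p ≠ 2) : RT8.NumC (fun l : LamP p m => (l.1 : O)) where
  hq l := isUnit_nat hpO ((Nat.coprime_primes l.prime hp.out).mpr l.ne)
  h2 := by
    have h := isUnit_nat hpO ((Nat.coprime_primes Nat.prime_two hp.out).mpr (Ne.symm hp2))
    exact_mod_cast h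
  h20 := two_ne_zero
  hq1 l := by
    have h : ((l.1 + 1 : ℕ) : O) ≠ 0 := Nat.cast_ne_zero.mpr (Nat.succ_ne_zero _)
    exact_mod_cast h
  hqm1 l := by
    rw [sub_ne_zero]
    exact_mod_cast l.prime.one_lt.ne'

theorem ok_of_res (hpm : p ∣ m) {S : Finset (LamP p m)} {b : Bool}
    (h2 : 2 ∣ levN S b ∨ 5 ≤ p) (h : W.IsResiduallyModularOfLevel p (levN S b)) :
    Ok W p m (levN S b) :=
  ⟨levN_dvd hp.out hpm S b, levN_sqf hp.out S b, h2, h⟩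

/-- **The common input.** -/
theorem exists_inp (hp2 : p ≠ 2) (hΔ : W.Δ ≠ 0) (hE : ∀ M : ℕ, M ≠ 0 → NonEis M (PP W m O))
    (h3 : 5 ≤ p ∨ ¬ p ∣ padicValInt 2 W.Δ) (h2Δ : (2 : ℤ) ∣ W.Δ) {b : Bool} {l₂ : LamP p m}
    (hl₂ : l₂.1 = 2) {S₁ : Finset (LamP p m)} (hl1 : l₂ ∈ S₁) (h1 : Ok W p m (levN S₁ b)) :
    ∃ I : Inp (M.sys hm hpm hpO hΔm hχ b) l₂, ∀ S, I.S₀ ⊆ S → (I.κ S).1 = (S, b) := by
  classical
  obtain ⟨S₀, ⟨hl, hok⟩, hmin⟩ := (wellFounded_lt :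
    WellFounded ((· < ·) : Finset (LamP p m) → Finset (LamP p m) → Prop)).has_min
      {S | l₂ ∈ S ∧ Ok W p m (levN S b)} ⟨S₁, hl1, h1⟩
  have hmono : ∀ S, S₀ ⊆ S → Ok W p m (levN S b) := fun S hS =>
    ok_mono hm hpm hpO hΔm hΔ hE hok hS
  let κ : Finset (LamP p m) → KP W p m b := fun S =>
    if h : Ok W p m (levN S b) then ⟨(S, b), h, id⟩ else ⟨(S₀, b), hok, id⟩
  have hκ : ∀ S (hS : S₀ ⊆ S), κ S = ⟨(S, b), hmono S hS, id⟩ := fun S hS => dif_pos (hmono S hS)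
  have hk0 : κ S₀ = ⟨(S₀, b), hok, id⟩ := hκ S₀ subset_rfl
  -- levels below `S₀`
  have hnot : ∀ l ∈ S₀, l ≠ l₂ → ¬ W.IsResiduallyModularOfLevel p (levN (S₀.erase l) b) := by
    intro l hlS hll h
    have h2 : l₂ ∈ S₀.erase l := Finset.mem_erase.mpr ⟨Ne.symm hll, hl⟩
    refine hmin (S₀.erase l) ⟨h2, ok_of_res hpm (Or.inl ?_) h⟩ (Finset.erase_ssubset hlS)
    rw [← hl₂]
    exact dvd_levN h2
  have hW : ∀ S, S₀ ⊆ S → ∀ l ∉ S, Nonempty (RT8.DegPM (M.sys hm hpm hpO hΔm hχ b)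
      (κ (insert l S)) (κ S) l) := by
    intro S hS l hlS
    refine M.degPM hm hpm hpO hΔm hχ hp2 ?_
    rw [hκ S hS, hκ (insert l S) (hS.trans (Finset.subset_insert _ _))]
    exact levN_insert hlS
  refine ⟨⟨κ, S₀, hl, fun S hS => ?_, ?_, fun l hlS hll => ?_, ?_, fun S hS l hlS =>
    (hW S hS l hlS).some⟩, fun S hS => ?_⟩
  · rw [hκ S hS]; rfl
  · exact M.dpos _ (κ S₀).2.1
  · rw [hk0]
    have hN := hnot l hlS hll
    have h2 : 2 ∣ levN (S₀.erase l) b := by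
      rw [← hl₂]
      exact dvd_levN (Finset.mem_erase.mpr ⟨Ne.symm hll, hl⟩)
    have hl2 : (l.pr : ℕ) ≠ 2 := fun h => hll (Subtype.ext (h.trans hl₂.symm))
    have e : levN S₀ b = levN (S₀.erase l) b * l.pr := levN_erase hlS
    refine ⟨fun n => ?_, M.exact' (l := l.pr) l.ne hl2 hok e h2 hN⟩
    have := hok.neZero' G n
    exact (M.levL n _ hok _ rfl).isStPm hpO (mul_ne_zero hm (Q_ne_zero G n)) (hok.mem' G n) hχ
      (hok.not_sq' G n l.prime l.dvd) (G.tame l.pr l.ne)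
      (M.newst' (l := l.pr) l.ne hok e (Or.inl h2) hN n)
  · have e : levN S₀ b = levN (S₀.erase l₂) b * l₂.pr := levN_erase hl
    rcases h3 with h3 | h3
    · right
      refine ⟨?_, ?_⟩
      · have h4 : Nat.Coprime 3 p := (Nat.coprime_primes Nat.prime_three hp.out).mpr (by omega)
        have h5 := isUnit_nat hpO h4
        have h6 : ((l₂.1 : ℕ) : O) + 1 = ((3 : ℕ) : O) := by rw [hl₂]; norm_num
        show IsUnit (((l₂.1 : ℕ) : O) + 1)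
        rw [h6]
        exact h5
      · by_cases h4 : W.IsResiduallyModularOfLevel p (levN (S₀.erase l₂) b)
        · left
          refine ⟨⟨(S₀.erase l₂, b), ok_of_res hpm (Or.inr h3) h4, id⟩,
            M.degPM hm hpm hpO hΔm hχ hp2 ?_⟩
          rw [hk0]
          exact e
        · right
          rw [hk0]
          exact fun n => M.newst' (l := l₂.pr) l₂.ne hok e (Or.inr h3) h4 n
    · left
      refine G.rbar_bad l₂.pr l₂.ne ?_ ?_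
      · show ¬ p ∣ padicValInt l₂.1 W.Δ
        rw [hl₂]; exact h3
      · show ((l₂.1 : ℕ) : ℤ) ∣ W.Δ
        rw [hl₂]; exact_mod_cast h2Δ
  · exact congrArg Subtype.val (hκ S hS)

/-- the conclusion of the modularity theorems -/
def Concl (M : Supply G) (b : Bool) (S : Finset (LamP p m)) : Prop :=
  ∃ (h : Ok W p m (levN S b)) (f : (M.B _ h).C.T →ₐ[O] G.pt.T),
    mapRep (f : (M.B _ h).C.T →+* G.pt.T) (M.B _ h).C.r = G.pt.r

theorem concl_of {b : Bool} {S : Finset (LamP p m)} {k : KP W p m b} (hk : k.1 = (S, b))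
    (h : ∃ f : ((M.sys hm hpm hpO hΔm hχ b).B k).C.T →ₐ[O] G.pt.T,
      mapRep (f : ((M.sys hm hpm hpO hΔm hχ b).B k).C.T →+* G.pt.T)
        ((M.sys hm hpm hpO hΔm hχ b).B k).C.r = G.pt.r) : Concl M b S := by
  obtain ⟨⟨S', b'⟩, hk'⟩ := k
  obtain ⟨rfl, rfl⟩ := Prod.mk.inj hk
  exact ⟨hk'.1, h⟩

section final

variable (hp2 : p ≠ 2) (hΔ : W.Δ ≠ 0) (hE : ∀ M : ℕ, M ≠ 0 → NonEis M (PP W m O))
  (h3 : 5 ≤ p ∨ ¬ p ∣ padicValInt 2 W.Δ) (h2Δ : (2 : ℤ) ∣ W.Δ) {l₂ : LamP p m}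
  (hl₂ : l₂.1 = 2) {S₁ : Finset (LamP p m)} (hl1 : l₂ ∈ S₁)

theorem pt_one {l : LamP p m} (hl : ¬ ((l.1 : ℕ) : ℤ) ∣ W.Δ) : G.pt.r (G.τ l.pr) = 1 :=
  G.pt_good l.pr l.ne hl (Pl l.pr) (Pl_lies _) _ (G.tame l.pr l.ne).mem

variable {S : Finset (LamP p m)} (hS : ∀ l ∉ S, ¬ ((l.1 : ℕ) : ℤ) ∣ W.Δ)

include hm hpm hpO hΔm hχ hp2 hΔ hE h3 h2Δ hl₂ hl1 hS in
/-- **flat case** -/
theorem modular_fl (hflat : FlatM p O G.pt.r) (h1 : Ok W p m (levN S₁ false)) :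
    Concl M false S := by
  obtain ⟨I, hI⟩ := exists_inp M hm hpm hpO hΔm hχ hp2 hΔ hE h3 h2Δ hl₂ hl1 h1
  obtain ⟨Z⟩ := (M.tan hm hpm hpO hΔm hχ false).exists_frm_fl hpO hp2 hχ hflat fun n k => by
    have := k.2.1.neZero' G n
    refine (M.levL n _ k.2.1 _ rfl).flatM hpO (mul_ne_zero hm (Q_ne_zero G n)) (k.2.1.mem' G n)
      hp2 (fun h => ?_) (hpm.mul_right _) (span_of_rd G.rd hp2)
    rcases hp.out.dvd_mul.mp h with h4 | h4
    · rcases (dvd_levN_iff hp.out hp.out).mp h4 with ⟨l, -, hl⟩ | ⟨hb, -⟩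
      · exact l.ne hl
      · exact absurd (k.2.2 hb) (by decide)
    · exact (Nat.Prime.coprime_iff_not_dvd hp.out).mp (coprime_Q G hp.out hpm n)
        (hp.out.dvd_of_dvd_pow h4)
  have h2 := RT8.MSys.modularA hp.out hpO (numC hpO hp2) Z le_rfl I.κ I.S₀ l₂ I.hl₂ I.hram I.hd
    I.hnew I.h2 I.W S G.dom (fun l hl => pt_one (hS l hl)) (G.pt_bad l₂.pr l₂.ne (by
      show ((l₂.1 : ℕ) : ℤ) ∣ W.Δ
      rw [hl₂]; exact_mod_cast h2Δ)) (fun t ht => M.faith _ _ t ht)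
  exact concl_of M hm hpm hpO hΔm hχ (hI S h2.1) h2.2

include hm hpm hpO hΔm hχ hp2 hΔ hE h3 h2Δ hl₂ hl1 hS in
/-- **strict case** -/
theorem modular_st (P : GalP G) (hτ : rbar P.τ ≠ 1) (h1 : Ok W p m (levN S₁ true)) :
    Concl M true S := by
  obtain ⟨I, hI⟩ := exists_inp M hm hpm hpO hΔm hχ hp2 hΔ hE h3 h2Δ hl₂ hl1 h1
  obtain ⟨Z⟩ := (M.tan hm hpm hpO hΔm hχ true).exists_frm_st hpO hp2 hχ P.ord
    (fun n k => M.ord P n _ k.2.1) P.b P.pair hτ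
  have h2 := RT8.MSys.modularA hp.out hpO (numC hpO hp2) Z le_rfl I.κ I.S₀ l₂ I.hl₂ I.hram I.hd
    I.hnew I.h2 I.W S G.dom (fun l hl => pt_one (hS l hl)) (G.pt_bad l₂.pr l₂.ne (by
      show ((l₂.1 : ℕ) : ℤ) ∣ W.Δ
      rw [hl₂]; exact_mod_cast h2Δ)) (fun t ht => M.faith _ _ t ht)
  exact concl_of M hm hpm hpO hΔm hχ (hI S h2.1) h2.2

include hm hpm hpO hΔm hχ hp2 hΔ hE h3 h2Δ hl₂ hl1 hS in
/-- **case (B)** -/
theorem modular_B (P : GalP G) (hτ : rbar P.τ = 1) (h1 : Ok W p m (levN S₁ true)) :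
    Concl M true S := by
  obtain ⟨I, hI⟩ := exists_inp M hm hpm hpO hΔm hχ hp2 hΔ hE h3 h2Δ hl₂ hl1 h1
  have hk0 := hI I.S₀ subset_rfl
  have hin : PModB (M.sys hm hpm hpO hΔm hχ true) P.b P.φ P.τ P.z₀ (I.κ I.S₀) I.S₀ := by
    obtain ⟨k, hk⟩ : ∃ k, I.κ I.S₀ = k := ⟨_, rfl⟩
    rw [hk] at hk0 ⊢
    obtain ⟨⟨T, b⟩, hk'⟩ := k
    obtain ⟨rfl, rfl⟩ := Prod.mk.inj hk0
    have h2 : 2 ∣ levN I.S₀ false := by
      rw [← hl₂]; exact dvd_levN I.hl₂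
    by_cases h4 : W.IsResiduallyModularOfLevel p (levN I.S₀ false)
    · right
      have h5 : Ok W p m (levN I.S₀ false) := ok_of_res hpm (Or.inl h2) h4
      have h6 := fun n => M.degp' P hτ h5 hk'.1 (levN_true _) n
      let k : KP W p m true := ⟨(I.S₀, true), hk'⟩
      let k' : KP W p m true := ⟨(I.S₀, false), h5, fun _ => rfl⟩
      let V : ∀ n, DegZ ((M.sys hm hpm hpO hΔm hχ true).L n k)
        ((M.sys hm hpm hpO hΔm hχ true).L n k') (RT8.FrobsOut (m * G.Q n)) P.b P.φ P.z₀ :=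
        fun n => (h6 n).2.some
      refine ⟨k', fun n => (V n).toDegT.toDegM (M.sys hm hpm hpO hΔm hχ true)
          (span_of_rd G.rd hp2) (mul_ne_zero hm (Q_ne_zero G n)), rfl, M.dpos _ _,
        fun n => (h6 n).1, fun n zi hzi x y => (V n).comp zi hzi x y,
        fun n x => (V n).new x⟩
    · left
      exact fun n x => M.newp' P hτ hk'.1 (levN_true _) h4 n x
  have h2 := (M.tan hm hpm hpO hΔm hχ true).modularB hpO hp2 hχ P.b P.ord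
    (fun n k => M.ord P n _ k.2.1) P.pair hτ P.z₀ P.sq P.zpt (numC hpO hp2) I.κ I.S₀ l₂ I.hl₂
    I.hram I.hd I.hnew I.h2 I.W hin S G.dom (fun l hl => pt_one (hS l hl))
    (G.pt_bad l₂.pr l₂.ne (by
      show ((l₂.1 : ℕ) : ℤ) ∣ W.Δ
      rw [hl₂]; exact_mod_cast h2Δ)) (fun t ht => M.faith _ _ t ht)
  exact concl_of M hm hpm hpO hΔm hχ (hI S h2.1) h2.2

include hm hpm hpO hΔm hχ hp2 hΔ hE h3 h2Δ hl₂ hl1 hS in
/-- all cases -/
theorem modular_all (hflat : ¬ (p : ℤ) ∣ W.Δ → FlatM p O G.pt.r)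
    (hP : (p : ℤ) ∣ W.Δ → Nonempty (GalP G)) {b : Bool} (hb : b = true ↔ (p : ℤ) ∣ W.Δ)
    (h1 : Ok W p m (levN S₁ b)) : Concl M b S := by
  by_cases h : (p : ℤ) ∣ W.Δ
  · obtain rfl := hb.mpr h
    obtain ⟨P⟩ := hP h
    by_cases hτ : rbar P.τ = 1
    · exact modular_B M hm hpm hpO hΔm hχ hp2 hΔ hE h3 h2Δ hl₂ hl1 hS P hτ h1
    · exact modular_st M hm hpm hpO hΔm hχ hp2 hΔ hE h3 h2Δ hl₂ hl1 hS P hτ h1
  · have hb' : b = false := Bool.eq_false_iff.mpr fun h' => h (hb.mp h')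
    subst hb'
    exact modular_fl M hm hpm hpO hΔm hχ hp2 hΔ hE h3 h2Δ hl₂ hl1 hS (hflat h) h1

end final

include hm in
/-- **Modularity from a point of the Hecke algebra.** -/
theorem modular_of_concl (hpm : p ∣ m) (hΔ : W.Δ ≠ 0)
    (hΔm : ∀ q : ℕ, q.Prime → (q : ℤ) ∣ W.Δ → q ∣ m) {b : Bool} {S : Finset (LamP p m)}
    (h : Concl M b S) : W.IsModularModelOfLevel (levN S b) := by
  obtain ⟨hok, f, hf⟩ := h
  have := hok.neZero
  have h0 := G.char0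
  obtain ⟨π, hπ⟩ := (M.levB _ hok).att
  refine isModularModelOfLevel_of_char W hΔ (fun q hq hqN => Finset.mem_coe.mpr
    (Nat.mem_divisors.mpr ⟨hok.mem q hq hqN, hm⟩)) (Finset.finite_toSet _)
    ((f : (M.B _ hok).C.T →+* G.pt.T).comp π) fun ℓ hℓ hℓN hℓS => ?_
  have hℓm : ¬ ℓ ∣ m := fun h => hℓS (Finset.mem_coe.mpr (Nat.mem_divisors.mpr ⟨h, hm⟩))
  have hB : (Pl ⟨ℓ, hℓ⟩).LiesOverPrime ℓ := Pl_lies ⟨ℓ, hℓ⟩
  obtain ⟨τ, hτ⟩ := Frob.exists_isFrobeniusAt (L := AlgebraicClosure ℚ) hℓ hB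
  rw [RingHom.comp_apply, ← (hπ ℓ hℓ hℓN hℓS _ hB τ hτ).1]
  have h1 : f ((M.B _ hok).C.r τ).trace = (G.pt.r τ).trace := by
    rw [← hf]
    exact (trace_map' (f : (M.B _ hok).C.T →+* G.pt.T)).symm
  refine h1.trans ?_
  exact G.pt_tr ⟨ℓ, hℓ⟩ (fun h => hℓm (by
    have h2 : ℓ = p := h
    rw [h2]; exact hpm)) (fun h => hℓm (hΔm ℓ hℓ h)) _ hB τ hτ

include M hm hpm hpO hΔm hχ in
/-- **Modularity lifting** -/
theorem lifting (hp2 : p ≠ 2) (hΔ : W.Δ ≠ 0) (hE : ∀ M : ℕ, M ≠ 0 → NonEis M (PP W m O))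
    (h3 : 5 ≤ p ∨ ¬ p ∣ padicValInt 2 W.Δ) (h2Δ : (2 : ℤ) ∣ W.Δ)
    (hflat : ¬ (p : ℤ) ∣ W.Δ → FlatM p O G.pt.r) (hP : (p : ℤ) ∣ W.Δ → Nonempty (GalP G))
    {N₀ : ℕ} (hN₀ : Squarefree N₀) (h2N₀ : 2 ∣ N₀) (hN₀m : N₀ ∣ m)
    (hpN₀ : p ∣ N₀ → (p : ℤ) ∣ W.Δ) (hres : W.IsResiduallyModularOfLevel p N₀) :
    ∃ N : ℕ, (Squarefree N ∧ 2 ∣ N) ∧ (∀ ℓ : ℕ, ℓ.Prime → (ℓ : ℤ) ∣ W.Δ → ℓ ∣ N) ∧
      (∀ q : ℕ, q.Prime → q ∣ N → (q : ℤ) ∣ W.Δ) ∧ W.IsModularModelOfLevel N := by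
  classical
  obtain ⟨b, hb⟩ : ∃ b : Bool, b = true ↔ (p : ℤ) ∣ W.Δ :=
    ⟨decide ((p : ℤ) ∣ W.Δ), decide_eq_true_iff⟩
  have h0 : Ok W p m N₀ := ⟨hN₀m, hN₀, Or.inl h2N₀, hres⟩
  -- the starting level
  obtain ⟨N₁, h1, h2N₁, hpN₁⟩ : ∃ N₁, Ok W p m N₁ ∧ 2 ∣ N₁ ∧ (p ∣ N₁ ↔ b = true) := by
    by_cases hp1 : (p : ℤ) ∣ W.Δ
    · by_cases hp2 : p ∣ N₀
      · exact ⟨N₀, h0, h2N₀, iff_of_true hp2 (hb.mpr hp1)⟩
      · exact ⟨N₀ * p, h0.mul hm hpm hpO hΔ hΔm hE hp.out hp2 hpm, h2N₀.mul_right p,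
          iff_of_true (dvd_mul_left _ _) (hb.mpr hp1)⟩
    · exact ⟨N₀, h0, h2N₀, iff_of_false (fun h => hp1 (hpN₀ h)) fun h => hp1 (hb.mp h)⟩
  obtain ⟨S₁, hS₁⟩ := exists_levN hp.out hm h1.sqf h1.dvd hpN₁
  subst hS₁
  obtain ⟨l₂, hl1, hl₂⟩ : ∃ l₂ ∈ S₁, l₂.1 = 2 := by
    rcases (dvd_levN_iff hp.out Nat.prime_two).mp h2N₁ with h | ⟨-, h⟩
    · exact h
    · exact absurd h.symm hp2
  have hS : ∀ l ∉ (Finset.univ.filter fun l : LamP p m => ((l.1 : ℕ) : ℤ) ∣ W.Δ),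
      ¬ ((l.1 : ℕ) : ℤ) ∣ W.Δ := fun l hl h => hl (Finset.mem_filter.mpr ⟨Finset.mem_univ _, h⟩)
  have h := modular_all M hm hpm hpO hΔm hχ hp2 hΔ hE h3 h2Δ hl₂ hl1 hS hflat hP hb h1
  refine ⟨_, ⟨levN_sqf hp.out _ _, ?_⟩, fun ℓ hℓ hℓΔ => ?_, fun q hq hqN => ?_,
    modular_of_concl M hm hpm hΔ hΔm h⟩
  · rw [← hl₂]
    refine dvd_levN (Finset.mem_filter.mpr ⟨Finset.mem_univ _, ?_⟩)
    rw [hl₂]; exact_mod_cast h2Δ
  · rw [dvd_levN_iff hp.out hℓ]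
    by_cases hℓp : ℓ = p
    · subst hℓp
      exact Or.inr ⟨hb.mpr hℓΔ, rfl⟩
    · exact Or.inl ⟨LamP.mk' hm hℓ hℓp (hΔm ℓ hℓ hℓΔ),
        Finset.mem_filter.mpr ⟨Finset.mem_univ _, hℓΔ⟩, rfl⟩
  · rcases (dvd_levN_iff hp.out hq).mp hqN with ⟨l, hl, rfl⟩ | ⟨hb', rfl⟩
    · exact (Finset.mem_filter.mp hl).2
    · exact hb.mp hb'

end sys

end Fermat.Agent.RTM
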