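import Fermat.Agent.RTM.SupplyMk

/-!
Modularity lifting for a curve.
-/

set_option autoImplicit false
set_option linter.unusedSectionVars false

noncomputable section

namespace Fermat.Agent.RTM

open IsLocalRing Fermat.Agent.DefRing Fermat.Agent.RTan Fermat.Agent.LocRing
open Fermat.Agent.TWP (Pl Pl_lies Qb)
open Fermat.Agent.TW Fermat.Agent.TWDeg

variable {O : Type} [CommRing O] [IsDomain O] [IsDiscreteValuationRing O]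
  [IsAdicComplete (maximalIdeal O) O] [Finite (ResidueField O)] [CharZero O]
  {rbar : GQ →* M2 (ResidueField O)} {p : ℕ} [hp : Fact p.Prime]
  {W : WeierstrassCurve ℤ} {χ : GQ → O}

/-- **Modularity lifting for a curve** -/
theorem liftingW (hp2 : p ≠ 2) (hpO : (p : O) ∈ maximalIdeal O) (hχ : CycChar p χ)
    (hΔ : W.Δ ≠ 0) (hirr : W.ModRepIsIrreducible p)
    (h3 : 5 ≤ p ∨ ¬ p ∣ padicValInt 2 W.Δ) (h2Δ : (2 : ℤ) ∣ W.Δ)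
    (hG : ∀ m : ℕ, m ≠ 0 → p ∣ m → (∀ q : ℕ, q.Prime → (q : ℤ) ∣ W.Δ → q ∣ m) →
      ∃ (sd : SliceData rbar) (G : Gal sd p W χ m), (¬ (p : ℤ) ∣ W.Δ → FlatM p O G.pt.r) ∧
        ((p : ℤ) ∣ W.Δ → Nonempty (GalP G)))
    (hA : ∀ (m : ℕ) (sd : SliceData rbar) (G : Gal sd p W χ m) (A : Amb G),
      ∃ E : A.Ex, A.AtP E)
    {N₀ : ℕ} (hN₀ : Squarefree N₀) (h2N₀ : 2 ∣ N₀) (hpN₀ : p ∣ N₀ → (p : ℤ) ∣ W.Δ)
    (hres : W.IsResiduallyModularOfLevel p N₀) :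
    ∃ N : ℕ, (Squarefree N ∧ 2 ∣ N) ∧ (∀ ℓ : ℕ, ℓ.Prime → (ℓ : ℤ) ∣ W.Δ → ℓ ∣ N) ∧
      (∀ q : ℕ, q.Prime → q ∣ N → (q : ℤ) ∣ W.Δ) ∧ W.IsModularModelOfLevel N := by
  have hΔ' : W.Δ.natAbs ≠ 0 := Int.natAbs_ne_zero.mpr hΔ
  have hm : p * W.Δ.natAbs * N₀ ≠ 0 :=
    mul_ne_zero (mul_ne_zero hp.out.ne_zero hΔ') hN₀.ne_zero
  have hpm : p ∣ p * W.Δ.natAbs * N₀ := (dvd_mul_right _ _).trans (dvd_mul_right _ _)
  have hΔm : ∀ q : ℕ, q.Prime → (q : ℤ) ∣ W.Δ → q ∣ p * W.Δ.natAbs * N₀ := fun q _ h =>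
    ((Int.natCast_dvd.mp h).mul_left p).mul_right N₀
  obtain ⟨sd, G, hfl, hP⟩ := hG _ hm hpm hΔm
  have A : Amb G := ⟨hp2, hm, hpm, hpO, hΔ, hΔm, hirr, hχ⟩
  obtain ⟨E, F⟩ := hA _ sd G A
  exact lifting (A.supply E F) hm hpm hpO hΔm hχ hp2 hΔ (fun M hM => A.hE _ hm M hM) h3 h2Δ hfl hP
    hN₀ h2N₀ (dvd_mul_left _ _) hpN₀ hres

end Fermat.Agent.RTM
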