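import Fermat.Agent.RTM.Main
import Fermat.Agent.TW.Alg
import Fermat.Agent.TW.Free
import Fermat.Agent.S21

/-!
`RES` and `MOD` for the localised modules of Taylor-Wiles type at base level.
-/

set_option autoImplicit false
set_option linter.unusedSectionVars false

set_option maxHeartbeats 400000
noncomputable section

open scoped TensorProduct MatrixGroups
open IsLocalRing CongruenceSubgroup CuspForm ModularCurve.Period

namespace Fermat.Agent.RTM

open Fermat.Agent.TW Fermat.Agent.HeckeHom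

section PP

variable (W₀ : WeierstrassCurve ℤ) (m : ℕ) (O : Type) [CommRing O] [IsLocalRing O]

/-- evaluation of the polynomial ring at the traces of `W₀`, mod `𝔪_O`. -/
def evP : TPoly m O →+* ResidueField O :=
  MvPolynomial.eval₂Hom (residue O) (fun l => ((W₀.apOfModel l : ℤ) : ResidueField O))

/-- evaluation of the polynomial ring at the traces of `W₀` -/
def evO : TPoly m O →ₐ[O] O := MvPolynomial.aeval (fun l => ((W₀.apOfModel l : ℤ) : O))

/-- The maximal ideal of the polynomial ring given by `W₀`. -/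
def PP : Ideal (TPoly m O) := RingHom.ker (evP W₀ m O)

theorem evP_C (a : O) : evP W₀ m O (MvPolynomial.C a) = residue O a :=
  MvPolynomial.eval₂Hom_C _ _ _

theorem evP_X (l : Pr m) : evP W₀ m O (MvPolynomial.X l) =
    ((W₀.apOfModel l : ℤ) : ResidueField O) :=
  MvPolynomial.eval₂Hom_X' _ _ _

theorem evP_surjective : Function.Surjective (evP W₀ m O) := by
  intro x
  obtain ⟨a, rfl⟩ := residue_surjective x
  exact ⟨MvPolynomial.C a, evP_C W₀ m O a⟩

instance isMaximal_PP : (PP W₀ m O).IsMaximal :=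
  RingHom.ker_isMaximal_of_surjective _ (evP_surjective W₀ m O)

theorem mem_PP {x : TPoly m O} : x ∈ PP W₀ m O ↔ evP W₀ m O x = 0 := RingHom.mem_ker

theorem C_mem_PP {a : O} (ha : a ∈ maximalIdeal O) :
    (MvPolynomial.C a : TPoly m O) ∈ PP W₀ m O := by
  rw [mem_PP, evP_C, residue_eq_zero_iff]
  exact ha

theorem X_sub_C_mem_PP (l : Pr m) :
    (MvPolynomial.X l - MvPolynomial.C ((W₀.apOfModel l : ℤ) : O) : TPoly m O) ∈ PP W₀ m O := by
  rw [mem_PP, map_sub, evP_X, evP_C, map_intCast, sub_self]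

theorem eis_mem_PP_iff (l : Pr m) : (MvPolynomial.X l - MvPolynomial.C (((l : ℕ) : O) + 1) :
      TPoly m O) ∈ PP W₀ m O ↔
    ((W₀.apOfModel l : ℤ) : ResidueField O) = ((l : ℕ) : ResidueField O) + 1 := by
  rw [mem_PP, map_sub, evP_X, evP_C, map_add, map_natCast, map_one, sub_eq_zero]

theorem residue_evO (x : TPoly m O) : residue O (evO W₀ m O x) = evP W₀ m O x := by
  have h : (residue O).comp (evO W₀ m O : TPoly m O →+* O) = evP W₀ m O := by
    refine MvPolynomial.ringHom_ext (fun a => ?_) (fun l => ?_)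
    · rw [RingHom.comp_apply, evP_C]
      congr 1
      exact (evO W₀ m O).commutes a
    · rw [RingHom.comp_apply, evP_X]
      show residue O (evO W₀ m O (MvPolynomial.X l)) = _
      rw [evO, MvPolynomial.aeval_X, map_intCast]
  exact DFunLike.congr_fun h x

end PP

section Surj

variable {m n : ℕ} [NeZero n] (hnm : ∀ q : ℕ, q.Prime → q ∣ n → q ∣ m)

/-- lifting homomorphisms to the Hecke algebra -/
theorem exists_lift {k : Type*} [CommRing k] (g : TPoly m ℤ →+* k)
    (hg : ∀ x, polyHecke hnm x = 0 → g x = 0) :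
    ∃ θ : heckeAlgebra n 2 (SS m) →+* k, ∀ x, θ (polyHecke hnm x) = g x := by
  have hsurj : Function.Surjective (polyHecke hnm : TPoly m ℤ →+* heckeAlgebra n 2 (SS m)) :=
    polyHecke_surjective hnm
  let θ := (polyHecke hnm : TPoly m ℤ →+* heckeAlgebra n 2 (SS m)).liftOfSurjective hsurj
    ⟨g, fun x hx => hg x hx⟩
  exact ⟨θ, fun x => RingHom.liftOfRightInverse_comp_apply _ _ _ ⟨g, fun x hx => hg x hx⟩ x⟩

end Surj

section Main

variable (W₀ : WeierstrassCurve ℤ) {D : Type} [CommGroup D] {W : TWD D} {t : ℕ → LT} {e : ℕ}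
  (S : W.Shap t e) {m : ℕ} (hM : W.M ∣ m) (hnm : ∀ q : ℕ, q.Prime → q ∣ e * W.dd → q ∣ m)
  (O : Type) [CommRing O] [IsDomain O] [CharZero O] [NeZero (e * W.dd)]

/-- the module -/
abbrev HH : Type := (XF hM).H (funRep (M := W.M) O O (W.Yt t))

/-- the polynomial ring to `O ⊗ 𝕋` -/
def toOT : TPoly m O →ₐ[O] O ⊗[ℤ] (heckeAlgebra (e * W.dd) 2 (SS m)) :=
  MvPolynomial.aeval fun l => 1 ⊗ₜ heckeAlgebra.T l.2.1 (fun h => l.2.2 (hnm _ l.2.1 h)) l.2.2

theorem toOT_X (l : Pr m) : toOT hnm O (MvPolynomial.X l) =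
    1 ⊗ₜ heckeAlgebra.T l.2.1 (fun h => l.2.2 (hnm _ l.2.1 h)) l.2.2 := by
  rw [toOT, MvPolynomial.aeval_X]

/-- compatibility of the actions -/
theorem equiv_toOT (hES : ES (e * W.dd)) (x : TPoly m O) :
    ∀ (z : HH (t := t) hM O) (ψ : parabolicHoms O (Gamma0 (e * W.dd)) O),
      (ψ : Additive (Gamma0 (e * W.dd)) →+ O) = S.equiv hM O O z →
      (thetaR hES (hS_of hnm) O (toOT hnm O x) ψ : Additive (Gamma0 (e * W.dd)) →+ O) =
        S.equiv hM O O (x • z) := by
  induction x using MvPolynomial.induction_on with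
  | C a =>
    intro z ψ h
    have e1 : toOT hnm O (MvPolynomial.C a) = algebraMap O _ a := (toOT hnm O).commutes a
    rw [e1, AlgHom.commutes, Module.algebraMap_end_apply, Stg.C_smul, map_smul, ← h]
    rfl
  | add x y hx hy =>
    intro z ψ h
    rw [map_add, map_add, LinearMap.add_apply, Submodule.coe_add, hx z ψ h, hy z ψ h, add_smul,
      map_add]
  | mul_X x l hx =>
    intro z ψ h
    rw [map_mul, map_mul, Module.End.mul_apply, mul_smul]
    refine hx _ _ ?_
    rw [toOT_X, thetaR_tmul, one_smul, theta_T, coe_parHecke, h, Stg.X_smul]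
    exact (S.equiv_T hM O O l (fun h => l.2.2 (hnm _ l.2.1 h)) z).symm

include S in
/-- an element killing the module is zero in `O ⊗ 𝕋` -/
theorem toOT_eq_zero (hES : ES (e * W.dd)) (x : TPoly m O)
    (hx : ∀ z : HH (t := t) hM O, x • z = 0) : toOT hnm O x = 0 := by
  apply thetaR_injective hES (hS_of hnm) O
  rw [map_zero]
  refine LinearMap.ext fun ψ => Subtype.ext ?_
  rw [equiv_toOT S hM hnm O hES x ((S.equiv hM O O).symm ψ) ψ
    ((S.equiv hM O O).apply_symm_apply _).symm, hx, map_zero]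
  rfl

end Main

section Res

variable (W₀ : WeierstrassCurve ℤ) {D : Type} [CommGroup D] {W : TWD D} {t : ℕ → LT} {e : ℕ}
  (S : W.Shap t e) {m : ℕ} (hM : W.M ∣ m) (hnm : ∀ q : ℕ, q.Prime → q ∣ e * W.dd → q ∣ m)
  (O : Type) [CommRing O] [IsDomain O] [CharZero O] [NeZero (e * W.dd)]
  [IsDiscreteValuationRing O]

include S hnm in
/-- **[RES]**: a residual character gives a nonzero localisation. -/
theorem nontrivial_of_char
    (θ : heckeAlgebra (e * W.dd) 2 (SS m) →+* ResidueField O)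
    (hθ : ∀ (ℓ : ℕ) (hℓ : ℓ.Prime) (hℓN : ¬ ℓ ∣ e * W.dd) (hℓS : ℓ ∉ SS m),
      θ (heckeAlgebra.T hℓ hℓN hℓS) = ((W₀.apOfModel ℓ : ℤ) : ResidueField O)) :
    Nontrivial (Loc (PP W₀ m O) (HH (W := W) (t := t) hM O)) := by
  classical
  by_contra hcon
  rw [not_nontrivial_iff_subsingleton] at hcon
  have hfin : Module.Finite O (HH (W := W) (t := t) hM O) := finite_H hM O
  obtain ⟨r, w, hw⟩ := Module.Finite.exists_fin (R := O) (M := HH (W := W) (t := t) hM O)
  have h1 : ∀ i : Fin r, ∃ s ∉ PP W₀ m O, s • w i = 0 := fun i =>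
    Loc.mk_eq_zero.mp (Subsingleton.elim _ _)
  choose s hs hs0 using h1
  have hprod : ∏ i, s i ∉ PP W₀ m O := by
    rw [Ideal.IsPrime.prod_mem_iff]
    rintro ⟨i, -, hi⟩
    exact hs i hi
  have hkill : ∀ z : HH (W := W) (t := t) hM O, (∏ i, s i) • z = 0 := by
    intro z
    have hz : z ∈ Submodule.span O (Set.range w) := hw ▸ Submodule.mem_top
    induction hz using Submodule.span_induction with
    | mem x hx =>
      obtain ⟨i, rfl⟩ := hx
      rw [← Finset.prod_erase_mul _ _ (Finset.mem_univ i), mul_smul, hs0, smul_zero]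
    | zero => rw [smul_zero]
    | add x y _ _ hx hy => rw [smul_add, hx, hy, add_zero]
    | smul a x _ hx => rw [← Stg.C_smul, smul_comm, hx, smul_zero]
  have h0 := toOT_eq_zero S hM hnm O (S21.result _) _ hkill
  apply hprod
  rw [mem_PP]
  let L : O ⊗[ℤ] (heckeAlgebra (e * W.dd) 2 (SS m)) →ₐ[ℤ] ResidueField O :=
    Algebra.TensorProduct.productMap (residue O).toIntAlgHom θ.toIntAlgHom
  have hL : ∀ a b, L (a ⊗ₜ b) = residue O a * θ b := fun a b =>
    Algebra.TensorProduct.productMap_apply_tmul _ _ a b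
  have hcomp : (L : _ →+* ResidueField O).comp
      (toOT hnm O : TPoly m O →+* O ⊗[ℤ] (heckeAlgebra (e * W.dd) 2 (SS m))) = evP W₀ m O := by
    refine MvPolynomial.ringHom_ext (fun a => ?_) (fun l => ?_)
    · rw [RingHom.comp_apply, evP_C]
      show L (toOT hnm O (MvPolynomial.C a)) = _
      have e1 : toOT hnm O (MvPolynomial.C a) = algebraMap O _ a := (toOT hnm O).commutes a
      rw [e1, Algebra.TensorProduct.algebraMap_apply, hL, map_one, mul_one]
      rfl
    · rw [RingHom.comp_apply, evP_X]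
      show L (toOT hnm O (MvPolynomial.X l)) = _
      rw [toOT_X, hL, map_one, one_mul, hθ]
  rw [← hcomp, RingHom.comp_apply]
  show L (toOT hnm O _) = 0
  rw [h0, map_zero]

include S hnm in
/-- a nonzero localisation gives a residual character -/
theorem exists_char_of_nontrivial [Fintype D] (hE : NonEis W.M (PP W₀ m O))
    (hne : Nontrivial (Loc (PP W₀ m O) (HH (W := W) (t := t) hM O))) :
    ∃ θ : heckeAlgebra (e * W.dd) 2 (SS m) →+* ResidueField O,
      ∀ (ℓ : ℕ) (hℓ : ℓ.Prime) (hℓN : ¬ ℓ ∣ e * W.dd) (hℓS : ℓ ∉ SS m),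
      θ (heckeAlgebra.T hℓ hℓN hℓS) = ((W₀.apOfModel ℓ : ℤ) : ResidueField O) := by
  obtain ⟨x, hx⟩ := exists_ne (0 : Loc (PP W₀ m O) (HH (W := W) (t := t) hM O))
  obtain ⟨θ, hθ⟩ := exists_lift hnm ((evP W₀ m O).comp (TWD.Shap.pz m O)) (by
    intro y hy
    have h1 := S.rel (PP W₀ m O) hM hnm (S21.result _) hE y hy x
    by_contra h2
    apply hx
    exact Loc.eq_zero_of_smul (s := TWD.Shap.pz m O y) (fun h => h2 ((mem_PP W₀ m O).mp h)) h1)
  refine ⟨θ, fun ℓ hℓ hℓN hℓS => ?_⟩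
  have h1 := hθ (MvPolynomial.X ⟨ℓ, hℓ, hℓS⟩)
  rw [polyHecke_X, RingHom.comp_apply, MvPolynomial.map_X, evP_X] at h1
  exact h1

variable (hm : m ≠ 0) {p : ℕ} (hp : p.Prime) (hpm : p ∣ m) (hpO : (p : O) ∈ maximalIdeal O)
  (hΔ : W₀.Δ ≠ 0) (hΔm : ∀ q : ℕ, q.Prime → (q : ℤ) ∣ W₀.Δ → q ∣ m)

theorem finite_SS (hm : m ≠ 0) : (SS m).Finite := by
  refine (Finset.finite_toSet m.divisors).subset fun q hq => ?_
  exact Finset.mem_coe.mpr (Nat.mem_divisors.mpr ⟨hq, hm⟩)

theorem natCast_residue (hpO : (p : O) ∈ maximalIdeal O) : (p : ResidueField O) = 0 := by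
  rw [← map_natCast (residue O), residue_eq_zero_iff]
  exact hpO

include S hnm hp hpm hpO hΔm in
/-- **[RES]**: residual modularity of level `n` implies `H¹(Γ₀(n), O)_𝔪 ≠ 0`. -/
theorem nontrivial_of_residual (hres : W₀.IsResiduallyModularOfLevel p (e * W.dd)) :
    Nontrivial (Loc (PP W₀ m O) (HH (W := W) (t := t) hM O)) := by
  obtain ⟨θ, hθ⟩ := exists_char_of_residual W₀ (hS_of hnm) hp hpm hΔm hres
    (natCast_residue O hpO)
  exact nontrivial_of_char W₀ S hM hnm O θ hθ

include S hnm hm hp hpO hΔ in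
/-- **[RES]**, converse. -/
theorem residual_of_nontrivial [Fintype D] (hE : NonEis W.M (PP W₀ m O))
    (hne : Nontrivial (Loc (PP W₀ m O) (HH (W := W) (t := t) hM O))) :
    W₀.IsResiduallyModularOfLevel p (e * W.dd) := by
  obtain ⟨θ, hθ⟩ := exists_char_of_nontrivial W₀ S hM hnm O hE hne
  exact residual_of_char W₀ hΔ (finite_SS hm) hp (natCast_residue O hpO) θ hθ

include S hnm hm hΔ in
/-- **[MOD]**: if relations on `H¹(Γ₀(n), O)_𝔪` hold for the traces of `W₀` then `W₀` is modular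
of level `n`. -/
theorem modular_of_eval [Fintype D] (hE : NonEis W.M (PP W₀ m O))
    (h : ∀ x : TPoly m ℤ, (∀ z : Loc (PP W₀ m O) (HH (W := W) (t := t) hM O),
      TWD.Shap.pz m O x • z = 0) → evO W₀ m O (TWD.Shap.pz m O x) = 0) :
    W₀.IsModularModelOfLevel (e * W.dd) := by
  obtain ⟨χ, hχ⟩ := exists_lift hnm ((evO W₀ m O : TPoly m O →+* O).comp (TWD.Shap.pz m O)) (by
    intro y hy
    exact h y (S.rel (PP W₀ m O) hM hnm (S21.result _) hE y hy))
  refine isModularModelOfLevel_of_char W₀ hΔ (hS_of hnm) (finite_SS hm) χ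
    fun ℓ hℓ hℓN hℓS => ?_
  have h1 := hχ (MvPolynomial.X ⟨ℓ, hℓ, hℓS⟩)
  rw [polyHecke_X, RingHom.comp_apply, MvPolynomial.map_X] at h1
  rw [h1]
  show evO W₀ m O (MvPolynomial.X _) = _
  rw [evO, MvPolynomial.aeval_X]

end Res

end Fermat.Agent.RTM
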