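import Fermat.Agent.RTM.LiftSS
import Fermat.Agent.RTM.Lower

/-!
Level lowering for semistable curves.
-/

set_option autoImplicit false
set_option linter.unusedSectionVars false

noncomputable section

namespace Fermat.Agent.RTM

open WeierstrassCurve WeierstrassCurve.Affine IsLocalRing Fermat.Agent.DefRing Fermat.Agent.RTan Fermat.Agent.LocRing
open Fermat.Agent.TWP (Pl Pl_lies Qb)

/-- The residual representation is trivial at the elements acting trivially on `E[p]`. -/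
theorem rbE_eq_one {E : WeierstrassCurve ℚ} [E.IsElliptic] {p : ℕ} [hp : Fact p.Prime]
    {O : Type} [CommRing O] [IsLocalRing O] (hpO : (p : O) ∈ maximalIdeal O) (f : ℤ_[p] →+* O)
    {s : GQ} (h : ∀ P : (E⁄Qb).Point, p • P = 0 → s • P = P) : RTE.rbE E p f s = 1 := by
  obtain ⟨g, hg⟩ := RTE.rbE_eq_modE E p hpO f s
  rw [hg, (RTE.modE_eq_one_iff E p s).mpr h, map_one]

/-- **Level lowering for a semistable curve** -/
theorem lowering_ss {p : ℕ} [hp : Fact p.Prime] (H : AmbOK p) {W : WeierstrassCurve ℤ}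
    (hp5 : 5 ≤ p) (hΔ : W.Δ ≠ 0) (hss : W.IsSemistableModel) (h2 : (2 : ℤ) ∣ W.Δ)
    (hirr : W.ModRepIsIrreducible p) (hcase : RTE.Case W p) {M q : ℕ} (hM : Squarefree M)
    (h2M : 2 ∣ M) (hpM : ¬ p ∣ M) (hq : q.Prime) (hq2 : q ≠ 2) (hqp : q ≠ p) (hqM : q ∣ M)
    (hunr : ∀ A : ValuationSubring Qb, A.LiesOverPrime q → ∀ s ∈ A.inertiaSubgroupIn ℚ,
      ∀ P : ((RTE.EW W)⁄Qb).Point, p • P = 0 → s • P = P)
    (hres : W.IsResiduallyModularOfLevel p M) : W.IsResiduallyModularOfLevel p (M / q) := by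
  have hE : (RTE.EW W).IsElliptic := RTE.isElliptic_EW hΔ
  have hp2 : p ≠ 2 := by omega
  obtain ⟨N, rfl⟩ := hqM
  rw [Nat.mul_div_cancel_left N hq.pos]
  have hΔ' : W.Δ.natAbs ≠ 0 := Int.natAbs_ne_zero.mpr hΔ
  have hm : p * W.Δ.natAbs * (q * N) ≠ 0 :=
    mul_ne_zero (mul_ne_zero hp.out.ne_zero hΔ') hM.ne_zero
  have hpm : p ∣ p * W.Δ.natAbs * (q * N) := (dvd_mul_right _ _).trans (dvd_mul_right _ _)
  have hΔm : ∀ l : ℕ, l.Prime → (l : ℤ) ∣ W.Δ → l ∣ p * W.Δ.natAbs * (q * N) := fun l _ h =>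
    ((Int.natCast_dvd.mp h).mul_left p).mul_right _
  obtain ⟨sd, G, -, -⟩ := exists_gal hp2 (p_mem p) hΔ hss h2 hirr hcase
    (algebraMap ℤ_[p] (Wp p)) (algebraMap_injective p) (resEquiv p).symm.toRingHom _ hm hpm hΔm
  have A : Amb G := ⟨hp2, hm, hpm, p_mem p, hΔ, hΔm, hirr, RTE.cycChar_chiO p _⟩
  obtain ⟨E, F⟩ := H W h2 _ _ _ sd G A
  have h2N : 2 ∣ N := by
    rcases Nat.prime_two.dvd_mul.mp h2M with h3 | h3
    · exact absurd ((Nat.prime_dvd_prime_iff_eq Nat.prime_two hq).mp h3).symm hq2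
    · exact h3
  have hNq : q * N = N * ((⟨q, hq⟩ : Nat.Primes) : ℕ) := mul_comm _ _
  have hok : Ok W p (p * W.Δ.natAbs * (q * N)) (N * ((⟨q, hq⟩ : Nat.Primes) : ℕ)) :=
    ⟨by rw [← hNq]; exact dvd_mul_left _ _, by rw [← hNq]; exact hM, Or.inr hp5,
      by rw [← hNq]; exact hres⟩
  refine lowering (A.supply E F) hm hpm (p_mem p) (RTE.cycChar_chiO p _) hp2
    (l := ⟨q, hq⟩) hqp hq2 hok (by rw [← hNq]; exact hpM) h2N ?_
  exact rbE_eq_one (p_mem p) _ (hunr _ (Pl_lies _) _ (G.tame ⟨q, hq⟩ hqp).mem)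

end Fermat.Agent.RTM
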