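import Fermat.Agent.RTM.Gal
import Fermat.Agent.RTE.Model
import Fermat.Agent.DefRing.Burnside
import Fermat.Agent.RTan.PtZ
import Fermat.Agent.FlatT.FlatMRep

/-!
Galois side of the modularity lifting theorem for an elliptic curve: residual representation,
Taylor–Wiles primes, tame pairs and the point defined by the curve.
-/

set_option autoImplicit false
set_option linter.unusedSectionVars false

noncomputable section

namespace Fermat.Agent.RTM

open IsLocalRing Matrix Fermat.Agent.PT Fermat.Agent.LocRing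
open Fermat.Agent.RTE (EW rbE rE chiO ptE uN Case isIntegralModelOf_EW nonScalar_EW rd_EW unrOut_rbE
  tameAt_rbE rN_isUni rN_det rN_trace_frob rN_inertia_good rN_tame trace_rE_frob rbE_eq rbE_tame
  rN_ordAt ordAt_rE det_rE cycChar_chiO rN_line rN_red)
open Fermat.Agent.PTC (ptd sL allL muA cyclo_spec)
open Fermat.Agent.TWP (twAct Pl rl Γl Qb SQ RD UnrOut TWSet Pl_lies)
open Fermat.Agent.DefRing (MatCont Red Norm SliceData M2 GQ mapRep)
open Fermat.Agent.RTan (TameAt OrdAt Bas FlatM)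
open scoped Pointwise

/-- the image of the residual representation spans the matrix algebra -/
theorem span_twe {k : Type} [Field k] {p : ℕ} {r : GQ →* M2 k} (h : RD p r) :
    Submodule.span k (Set.range r) = ⊤ := by
  apply DefRing.span_descent (K := AlgebraicClosure k)
  refine DefRing.burnside_two (mapRep (algebraMap k (AlgebraicClosure k)) r) ?_
  intro V hV
  by_contra hne
  rw [not_or] at hne
  obtain ⟨h0, h1⟩ := hne
  have hfr : Module.finrank (AlgebraicClosure k) V = 1 := by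
    have e1 : Module.finrank (AlgebraicClosure k) V ≠ 0 := fun e =>
      h0 (Submodule.finrank_eq_zero.mp e)
    have e2 : Module.finrank (AlgebraicClosure k) V < 2 := by
      have := Submodule.finrank_lt h1
      rwa [Module.finrank_fin_fun] at this
    omega
  obtain ⟨v, hv0, hv⟩ := finrank_eq_one_iff'.mp hfr
  obtain ⟨g, -, hg⟩ := h.irr ⊤ (Or.inr rfl) (v : Fin 2 → AlgebraicClosure k)
    (fun e => hv0 (Subtype.ext e))
  obtain ⟨c, hc⟩ := hv ⟨_, hV g v v.2⟩
  exact hg c (congrArg Subtype.val hc).symm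

/-- hypotheses on the curve -/
structure HypW (W : WeierstrassCurve ℤ) (p : ℕ) [Fact p.Prime] : Prop where
  Δ0 : W.Δ ≠ 0
  ss : W.IsSemistableModel
  two : (2 : ℤ) ∣ W.Δ
  p2 : p ≠ 2
  cs : Case W p
  irr : W.ModRepIsIrreducible p

section main

variable {O : Type} [CommRing O] [IsDomain O] [IsDiscreteValuationRing O]
  [IsAdicComplete (maximalIdeal O) O] [Finite (ResidueField O)]
  {p : ℕ} [hp : Fact p.Prime] {W : WeierstrassCurve ℤ} [(EW W).IsElliptic]
  (hpO : (p : O) ∈ maximalIdeal O) (f : ℤ_[p] →+* O) (i : GaloisField p 2 →+* ResidueField O)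

include i hpO in
theorem HypW.rd (h : HypW W p) : RD p (rbE (EW W) p f) :=
  rd_EW h.ss h.two h.p2 h.cs h.irr hpO f i

include i hpO in
theorem HypW.span (h : HypW W p) :
    Submodule.span (ResidueField O) (Set.range (rbE (EW W) p f)) = ⊤ := span_twe (h.rd hpO f i)

include i hpO in
/-- slice data -/
theorem HypW.exists_sd (h : HypW W p) : Nonempty (SliceData (rbE (EW W) p f)) :=
  DefRing.exists_sliceData _ (h.span hpO f i)

omit [(EW W).IsElliptic] in
theorem HypW.ns [(EW W).IsElliptic] (h : HypW W p) : ERep.NonScalar (EW W) p :=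
  nonScalar_EW p h.irr

omit [(EW W).IsElliptic] in
/-- semistability at a bad prime -/
theorem HypW.c4 (h : HypW W p) {l : ℕ} (hl : l.Prime) (hlΔ : (l : ℤ) ∣ W.Δ) :
    ¬ (l : ℤ) ∣ W.c₄ := h.ss l hl hlΔ

include i in
/-- **Existence of the Galois side.** -/
theorem HypW.exists_gal (h : HypW W p) (hf : Function.Injective f)
    (sd : SliceData (rbE (EW W) p f)) {bad : ℕ} (hbad : bad ≠ 0) (hpb : p ∣ bad)
    (hΔb : ∀ l : ℕ, l.Prime → (l : ℤ) ∣ W.Δ → l ∣ bad) :
    ∃ G : Gal sd p W (chiO p f) bad, G.pt = ptE (EW W) p hpO f sd := by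
  classical
  have hWE : W.IsIntegralModelOf (EW W) := isIntegralModelOf_EW W
  have hO : CharZero O := charZero_of_injective_ringHom hf
  -- the set of places
  let S₁ : Finset Nat.Primes := (bad.primeFactors.attach.image fun l =>
    (⟨l.1, Nat.prime_of_mem_primeFactors l.2⟩ : Nat.Primes))
  have hS₁ : ∀ l : Nat.Primes, (l : ℕ) ∣ bad → l ∈ S₁ := by
    intro l hl
    refine Finset.mem_image.mpr ⟨⟨l, Nat.mem_primeFactors.mpr ⟨l.2, hl, hbad⟩⟩,
      Finset.mem_attach _ _, rfl⟩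
  have hpS₁ : ExtCitation.pPrime p ∈ S₁ := hS₁ _ hpb
  have hunr : UnrOut S₁ (rbE (EW W) p f) := by
    refine unrOut_rbE (EW W) p f hWE hpO S₁ fun v hv => ?_
    exact ⟨fun e => hv (hS₁ v (by rw [e]; exact hpb)), fun hΔ => hv (hS₁ v (hΔb v v.2 hΔ))⟩
  obtain ⟨S, g, q, P, hS, hD⟩ := RTan.exists_TWdata (rbar := rbE (EW W) p f) h.p2
    (h.rd hpO f i) hpS₁ hunr ∅
  -- tame pairs
  have hex : ∀ l : Nat.Primes, ∃ φτ : GQ × GQ, (l : ℕ) ≠ p →
      (∃ c : Qb, c ^ p = ((l : ℕ) : Qb) ∧ φτ.2 c ≠ c) ∧ φτ.2 ∈ (Pl l).inertiaSubgroupIn ℚ ∧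
        (Pl l).IsFrobeniusAt φτ.1 l := by
    intro l
    by_cases hl : (l : ℕ) = p
    · exact ⟨1, fun h => absurd hl h⟩
    · obtain ⟨c, φ, τ, h1, h2, h3, h4⟩ := TWP.exists_tame_pair p l hl
      exact ⟨(φ, τ), fun _ => ⟨⟨c, h1, h3⟩, h2, h4⟩⟩
  choose φτ hφτ using hex
  have hqb : ∀ n i, ¬ (q n i : ℕ) ∣ bad := fun n i hb => ((hD n).1).notMem i (hS (hS₁ _ hb))
  have hqp : ∀ n i, (q n i : ℕ) ≠ p := fun n i e => hqb n i (by rw [e]; exact hpb)
  have hqΔ : ∀ n i, W.IsGoodPrimeFor (q n i) := fun n i hΔ => hqb n i (hΔb _ (q n i).2 hΔ)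
  refine ⟨{
    S := S
    hpS := hS hpS₁
    unrOut := hunr.mono hS
    rd := h.rd hpO f i
    g := g
    q := q
    P := P
    tw := fun n => (hD n).1
    ec := fun n => (hD n).2.2.1
    avoid := hqb
    inert := fun n i => ((hD n).2.2.2 i).1
    gen := fun n i => ((hD n).2.2.2 i).2
    mem := fun l hl => hS (hS₁ l hl)
    φ := fun l => (φτ l).1
    τ := fun l => (φτ l).2
    tame := ?_
    pt := ptE (EW W) p hpO f sd
    dom := inferInstanceAs (IsDomain O)
    char0 := hO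
    pt_uni := ?_
    pt_det := ?_
    pt_tr := ?_
    pt_good := ?_
    pt_bad := ?_
    rbar_tr := ?_
    rbar_bad := ?_ }, rfl⟩
  · intro l hl
    obtain ⟨⟨c, hc, hτc⟩, h2, h3⟩ := hφτ l hl
    exact tameAt_rbE (EW W) p f hWE hpO h.ss hl hc h2 hτc h3
  · intro l hl
    obtain ⟨⟨c, hc, hτc⟩, h2, h3⟩ := hφτ l hl
    exact rN_isUni (EW W) p hWE f sd h.ns h.p2 h.ss l.2 (Pl_lies l) hl h3 h2
  · intro σ
    exact rN_det (EW W) p hWE f sd h.ns σ
  · intro l hl hg B hB σ hσ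
    exact rN_trace_frob (EW W) p hWE f sd h.ns l.2 hB hl hg hσ
  · intro l hl hg B hB σ hσ
    exact rN_inertia_good (EW W) p hWE f sd l.2 hB hl hg hσ
  · intro l hl hΔ
    obtain ⟨⟨c, hc, hτc⟩, h2, h3⟩ := hφτ l hl
    exact rN_tame (EW W) p hWE f sd hf hl hΔ (h.c4 l.2 hΔ) hc h2 hτc h.p2
  · intro l hl hg B hB σ hσ
    have h1 := trace_rE_frob (EW W) p hWE f h.ns l.2 hB hl hg hσ
    have h2 : (rbE (EW W) p f σ).trace = residue O (rE (EW W) p f σ).trace := by
      rw [rbE_eq, Matrix.trace_fin_two, Matrix.trace_fin_two, map_add]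
      rfl
    rw [h2, h1, map_intCast]
  · intro l hl hv hΔ
    obtain ⟨⟨c, hc, hτc⟩, h2, h3⟩ := hφτ l hl
    exact rbE_tame (EW W) p hWE hpO f hl hΔ (h.c4 l.2 hΔ) hc h2 hτc h.p2 hv

/-! ### Facts at `p` -/

variable (sd : SliceData (rbE (EW W) p f))

/-- the point is ordinary if `p ∣ Δ` -/
theorem HypW.ord_pt (h : HypW W p) (hΔ : (p : ℤ) ∣ W.Δ) :
    OrdAt p (chiO p f) (ptE (EW W) p hpO f sd).r :=
  rN_ordAt (EW W) p (isIntegralModelOf_EW W) f sd h.ns h.p2 hΔ (h.c4 hp.out hΔ)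

/-- the residual representation is ordinary if `p ∣ Δ` -/
theorem HypW.ord_rb (h : HypW W p) (hΔ : (p : ℤ) ∣ W.Δ) :
    OrdAt p (chiO p f) (rbE (EW W) p f) :=
  (ordAt_rE (EW W) p (isIntegralModelOf_EW W) f h.ns h.p2 hΔ (h.c4 hp.out hΔ)).map
    (Algebra.ofId O (ResidueField O))

/-- determinant of the residual representation -/
theorem HypW.det_rb (h : HypW W p) (σ : GQ) :
    (rbE (EW W) p f σ).det = residue O (chiO p f σ) := by
  rw [rbE_eq, ← RingHom.map_det, det_rE (EW W) p (isIntegralModelOf_EW W) f h.ns]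

include hpO in
/-- bases -/
theorem HypW.exists_bas (h : HypW W p) (hΔ : (p : ℤ) ∣ W.Δ) :
    Nonempty (Bas p (chiO p f) (rbE (EW W) p f)) :=
  RTan.exists_bas h.p2 (cycChar_chiO p f) hpO (h.det_rb f) (h.ord_rb f hΔ)

/-- the eigenvalue of Frobenius on the quotient of the ordinary line -/
theorem HypW.z_pt (h : HypW W p) (hΔ : (p : ℤ) ∣ W.Δ) (b : Bas p (chiO p f) (rbE (EW W) p f))
    {φ : GQ} (hφ : (Pl (ExtCitation.pPrime p)).IsFrobeniusAt φ p) :
    ∃ z₀ : O, z₀ ^ 2 = 1 ∧ b.z (ptE (EW W) p hpO f sd).r φ = z₀ := by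
  obtain ⟨w, z, hL⟩ := rN_line (EW W) p (isIntegralModelOf_EW W) f sd h.ns h.p2
    (A := Pl (ExtCitation.pPrime p)) (Pl_lies (ExtCitation.pPrime p)) hΔ (h.c4 hp.out hΔ)
  obtain ⟨h1, h2⟩ := RTan.bz_of_lineAt b (rN_red (EW W) p f sd) hL hφ
  exact ⟨_, h2, h1⟩

/-- the point is flat if `p ∤ Δ` -/
theorem HypW.flat_pt (_h : HypW W p) (hΔ : ¬ (p : ℤ) ∣ W.Δ) :
    FlatM p O (ptE (EW W) p hpO f sd).r :=
  FlatT.flatM_adicE (EW W) (isIntegralModelOf_EW W) hΔ (Pi.basisFun ℤ_[p] (Fin 2)) f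
    (uN (EW W) p f sd) O

variable (p) in
/-- pairs at `p` -/
theorem exists_pairP (hp2 : p ≠ 2) :
    ∃ φ τ : GQ, ORD.Pair p (Pl (ExtCitation.pPrime p)) φ τ :=
  ORD.exists_pair (Pl_lies (ExtCitation.pPrime p)) hp2

end main

end Fermat.Agent.RTM
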